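import Mathlib

/-!
# The theorem of Golod and Shafarevich for algebras with one relation in each degree

`k` a field, `T = k⟨x, y, z⟩`, and for each `n ≥ 2` one homogeneous relation `h n` of degree `n`
(possibly zero).  The homogeneous components of `T / (h)` have dimension at least `2 ^ n`; so the
algebra has infinite dimension.
-/

set_option autoImplicit false

noncomputable section

namespace Fermat.Agent.Cor.Golod

open Module

/-- the words in three letters -/
abbrev W : Type := FreeMonoid (Fin 3)

/-- the words of length `n` -/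
def wd (n : ℕ) : Set W := {w | w.length = n}

instance (n : ℕ) : Fintype (wd n) :=
  inferInstanceAs (Fintype (List.Vector (Fin 3) n))

theorem card_wd (n : ℕ) : Fintype.card (wd n) = 3 ^ n := by
  have h := card_vector (α := Fin 3) n
  rw [Fintype.card_fin] at h
  exact h

/-- a nonempty word has a last letter -/
theorem exists_last {w : W} (hw : w.length ≠ 0) :
    ∃ (v : W) (x : Fin 3), w = v * FreeMonoid.of x := by
  rcases List.eq_nil_or_concat w.toList with h | ⟨l, x, h⟩
  · exact absurd (by rw [FreeMonoid.length, h]; rfl) hw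
  · refine ⟨FreeMonoid.ofList l, x, ?_⟩
    apply FreeMonoid.toList.injective
    rw [h, FreeMonoid.toList_mul, FreeMonoid.toList_ofList, FreeMonoid.toList_of,
      List.concat_eq_append]

/-- `k⟨x, y, z⟩` -/
abbrev T (k : Type) [Field k] : Type := MonoidAlgebra k W

variable {k : Type} [Field k]

/-- a word as an element of `k⟨x, y, z⟩` -/
abbrev om (w : W) : T k := MonoidAlgebra.of k W w

variable (k) in
/-- the homogeneous elements of degree `n` -/
def homog (n : ℕ) : Submodule k (T k) := MonoidAlgebra.supported k k (wd n)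

theorem mem_homog {n : ℕ} {t : T k} :
    t ∈ homog k n ↔ ∀ w : W, w.length ≠ n → t.coeff w = 0 :=
  MonoidAlgebra.mem_supported'

theorem homog_eq_span (n : ℕ) : homog k n = Submodule.span k (om '' wd n) :=
  MonoidAlgebra.supported_eq_span_single k (wd n)

theorem om_mem (w : W) : om w ∈ homog k w.length := by
  rw [homog_eq_span]
  exact Submodule.subset_span ⟨w, rfl, rfl⟩

instance (n : ℕ) : FiniteDimensional k (homog k n) :=
  Module.Finite.equiv (MonoidAlgebra.supportedEquivFinsupp (R := k) (S := k) (wd n)).symm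

theorem finrank_homog (n : ℕ) : finrank k (homog k n) = 3 ^ n := by
  change finrank k (MonoidAlgebra.supported k k (wd n)) = 3 ^ n
  rw [(MonoidAlgebra.supportedEquivFinsupp (R := k) (S := k) (wd n)).finrank_eq,
    finrank_finsupp_self, card_wd]

theorem mul_mem_homog {m n : ℕ} {a b : T k} (ha : a ∈ homog k m) (hb : b ∈ homog k n) :
    a * b ∈ homog k (m + n) := by
  have h : homog k m * homog k n ≤ homog k (m + n) := by
    rw [homog_eq_span, homog_eq_span, Submodule.span_mul_span, Submodule.span_le]
    rintro _ ⟨_, ⟨u, hu, rfl⟩, _, ⟨v, hv, rfl⟩, rfl⟩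
    have hu' : u.length = m := hu
    have hv' : v.length = n := hv
    have h1 := om_mem (k := k) (u * v)
    rw [FreeMonoid.length_mul, hu', hv', show (om (u * v) : T k) = om u * om v from
      map_mul _ _ _] at h1
    exact h1
  exact h (Submodule.mul_mem_mul ha hb)

/-! ### the homogeneous component of degree `n` -/

/-- the homogeneous component of degree `n` -/
def comp (n : ℕ) : T k →ₗ[k] T k :=
  (MonoidAlgebra.coeffLinearEquiv k).symm.toLinearMap ∘ₗ
    ((Finsupp.supported k k (wd n)).subtype ∘ₗ
      (by classical exact Finsupp.restrictDom k k (wd n))) ∘ₗ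
    (MonoidAlgebra.coeffLinearEquiv k).toLinearMap

open Classical in
theorem coeff_comp (n : ℕ) (t : T k) (w : W) :
    (comp n t).coeff w = if w.length = n then t.coeff w else 0 := by
  change (Finsupp.filter (· ∈ wd n) t.coeff) w = _
  rw [Finsupp.filter_apply]
  congr 1

theorem comp_mem (n : ℕ) (t : T k) : comp n t ∈ homog k n := by
  rw [mem_homog]
  intro w hw
  rw [coeff_comp, if_neg hw]

theorem comp_self {n : ℕ} {t : T k} (ht : t ∈ homog k n) : comp n t = t := by
  apply MonoidAlgebra.coeff_injective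
  ext w
  rw [coeff_comp]
  split_ifs with h
  · rfl
  · exact (mem_homog.mp ht w h).symm

theorem comp_of_ne {m n : ℕ} (hmn : m ≠ n) {t : T k} (ht : t ∈ homog k m) : comp n t = 0 := by
  apply MonoidAlgebra.coeff_injective
  ext w
  rw [coeff_comp]
  split_ifs with h
  · exact mem_homog.mp ht w fun h' => hmn (by rw [← h', h])
  · rfl

/-! ### the relations -/

section Relations

variable (h : ℕ → T k)

/-- the elements of degree `n` of the ideal -/
def Jn (n : ℕ) : Submodule k (T k) :=
  Submodule.span k {t | ∃ (u v : W) (i : ℕ), u.length + i + v.length = n ∧ t = om u * h i * om v}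

/-- the two-sided ideal generated by the relations, as a subspace -/
def Jt : Submodule k (T k) :=
  Submodule.span k {t | ∃ (u v : W) (i : ℕ), t = om u * h i * om v}

variable {h}

theorem mem_Jn {n : ℕ} (u v : W) (i : ℕ) (hn : u.length + i + v.length = n) :
    om u * h i * om v ∈ Jn h n :=
  Submodule.subset_span ⟨u, v, i, hn, rfl⟩

theorem mul_mem_Jt_left (a : T k) {t : T k} (ht : t ∈ Jt h) : a * t ∈ Jt h := by
  refine Submodule.span_induction (p := fun t _ => a * t ∈ Jt h) ?_ ?_ ?_ ?_ ht
  · rintro _ ⟨u, v, i, rfl⟩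
    induction a using MonoidAlgebra.induction_linear with
    | zero => rw [zero_mul]; exact zero_mem _
    | add f g hf hg => rw [add_mul]; exact add_mem hf hg
    | single w r =>
      have e : MonoidAlgebra.single w r * (om u * h i * om v) =
          r • (om (w * u) * h i * om v) := by
        rw [show (om (w * u) : T k) = om w * om u from map_mul _ _ _, ← MonoidAlgebra.smul_of,
          smul_mul_assoc]
        simp only [om, mul_assoc]
      rw [e]
      exact Submodule.smul_mem _ _ (Submodule.subset_span ⟨w * u, v, i, rfl⟩)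
  · rw [mul_zero]; exact zero_mem _
  · intro x y _ _ hx hy
    rw [mul_add]; exact add_mem hx hy
  · intro c x _ hx
    rw [mul_smul_comm]; exact Submodule.smul_mem _ _ hx

theorem mul_mem_Jt_right (a : T k) {t : T k} (ht : t ∈ Jt h) : t * a ∈ Jt h := by
  refine Submodule.span_induction (p := fun t _ => t * a ∈ Jt h) ?_ ?_ ?_ ?_ ht
  · rintro _ ⟨u, v, i, rfl⟩
    induction a using MonoidAlgebra.induction_linear with
    | zero => rw [mul_zero]; exact zero_mem _
    | add f g hf hg => rw [mul_add]; exact add_mem hf hg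
    | single w r =>
      have e : (om u * h i * om v) * MonoidAlgebra.single w r =
          r • (om u * h i * om (v * w)) := by
        rw [show (om (v * w) : T k) = om v * om w from map_mul _ _ _, ← MonoidAlgebra.smul_of,
          mul_smul_comm]
        simp only [om, mul_assoc]
      rw [e]
      exact Submodule.smul_mem _ _ (Submodule.subset_span ⟨u, v * w, i, rfl⟩)
  · rw [zero_mul]; exact zero_mem _
  · intro x y _ _ hx hy
    rw [add_mul]; exact add_mem hx hy
  · intro c x _ hx
    rw [smul_mul_assoc]; exact Submodule.smul_mem _ _ hx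

variable (h) in
/-- **the two-sided ideal of `k⟨x, y, z⟩` generated by the `h n`** -/
def relIdeal : Ideal (T k) :=
  { Jt h with smul_mem' := fun a _ ht => mul_mem_Jt_left a ht }

theorem mem_relIdeal {t : T k} : t ∈ relIdeal h ↔ t ∈ Jt h := Iff.rfl

instance : (relIdeal h).IsTwoSided := ⟨fun b ha => mul_mem_Jt_right b ha⟩

theorem rel_mem (n : ℕ) : h n ∈ relIdeal h := by
  rw [mem_relIdeal]
  refine Submodule.subset_span ⟨1, 1, n, ?_⟩
  simp only [om, map_one, one_mul, mul_one]

/-- it is the smallest one -/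
theorem relIdeal_le {I : Ideal (T k)} [I.IsTwoSided] (hI : ∀ n, h n ∈ I) : relIdeal h ≤ I := by
  intro t ht
  rw [mem_relIdeal] at ht
  refine Submodule.span_induction (p := fun t _ => t ∈ I) ?_ ?_ ?_ ?_ ht
  · rintro _ ⟨u, v, i, rfl⟩
    exact I.mul_mem_right _ (I.mul_mem_left _ (hI i))
  · exact zero_mem _
  · intro x y _ _ hx hy
    exact add_mem hx hy
  · intro c x _ hx
    rw [Algebra.smul_def]
    exact I.mul_mem_left _ hx

theorem mul_om_mem_Jn {m : ℕ} {t : T k} (ht : t ∈ Jn h m) (w : W) :
    t * om w ∈ Jn h (m + w.length) := by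
  refine Submodule.span_induction (p := fun t _ => t * om w ∈ Jn h (m + w.length)) ?_ ?_ ?_ ?_ ht
  · rintro _ ⟨u, v, i, hm, rfl⟩
    have h1 := mem_Jn (h := h) (n := m + w.length) u (v * w) i
      (by rw [FreeMonoid.length_mul]; omega)
    rw [show (om (v * w) : T k) = om v * om w from map_mul _ _ _, ← mul_assoc] at h1
    exact h1
  · rw [zero_mul]; exact zero_mem _
  · intro x y _ _ hx hy
    rw [add_mul]; exact add_mem hx hy
  · intro c x _ hx
    rw [smul_mul_assoc]; exact Submodule.smul_mem _ _ hx

variable (h) in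
/-- `Jₙ x + Jₙ y + Jₙ z` -/
def Qn (n : ℕ) : Submodule k (T k) :=
  Finset.univ.sup fun x : Fin 3 => (Jn h n).map (LinearMap.mulRight k (om (FreeMonoid.of x)))

theorem mul_letter_mem {n : ℕ} {t : T k} (ht : t ∈ Jn h n) (x : Fin 3) :
    t * om (FreeMonoid.of x) ∈ Qn h n :=
  (Finset.le_sup (f := fun x : Fin 3 =>
    (Jn h n).map (LinearMap.mulRight k (om (FreeMonoid.of x)))) (Finset.mem_univ x))
    ⟨t, ht, rfl⟩

theorem mul_homog_mem {m i : ℕ} {t s : T k} (ht : t ∈ Jn h m) (hs : s ∈ homog k (i + 1)) :
    t * s ∈ Qn h (m + i) := by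
  rw [homog_eq_span] at hs
  refine Submodule.span_induction (p := fun s _ => t * s ∈ Qn h (m + i)) ?_ ?_ ?_ ?_ hs
  · rintro _ ⟨w, hw, rfl⟩
    have hw' : w.length = i + 1 := hw
    obtain ⟨v, x, rfl⟩ := exists_last (w := w) (by omega)
    rw [FreeMonoid.length_mul, FreeMonoid.length_of] at hw'
    have h1 := mul_om_mem_Jn ht v
    rw [show v.length = i by omega] at h1
    have h2 := mul_letter_mem h1 x
    rw [show (om (v * FreeMonoid.of x) : T k) = om v * om (FreeMonoid.of x) from map_mul _ _ _,
      ← mul_assoc]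
    exact h2
  · rw [mul_zero]; exact zero_mem _
  · intro x y _ _ hx hy
    rw [mul_add]; exact add_mem hx hy
  · intro c x _ hx
    rw [mul_smul_comm]; exact Submodule.smul_mem _ _ hx

variable (h) in
/-- a complement of `Jₙ` in the space of the homogeneous elements of degree `n` -/
def Bn (n : ℕ) : Submodule k (T k) := (exists_isCompl (Jn h n)).choose ⊓ homog k n

theorem Bn_le (n : ℕ) : Bn h n ≤ homog k n := inf_le_right

instance (n : ℕ) : FiniteDimensional k (Bn h n) :=
  Submodule.finiteDimensional_of_le (Bn_le n)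

section Homogeneous

variable (hh : ∀ n, h n ∈ homog k n)

include hh

theorem Jn_le (n : ℕ) : Jn h n ≤ homog k n := by
  rw [Jn, Submodule.span_le]
  rintro _ ⟨u, v, i, hn, rfl⟩
  rw [← hn]
  exact mul_mem_homog (mul_mem_homog (om_mem u) (hh i)) (om_mem v)

theorem finite_Jn (n : ℕ) : FiniteDimensional k (Jn h n) :=
  Submodule.finiteDimensional_of_le (Jn_le hh n)

theorem Jn_sup_Bn (n : ℕ) : Jn h n ⊔ Bn h n = homog k n := by
  have h1 := (exists_isCompl (Jn h n)).choose_spec
  rw [Bn, ← sup_inf_assoc_of_le _ (Jn_le hh n), h1.sup_eq_top, top_inf_eq]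

omit hh in
theorem Jn_inf_Bn (n : ℕ) : Jn h n ⊓ Bn h n = ⊥ := by
  have h1 := (exists_isCompl (Jn h n)).choose_spec
  rw [Bn, ← inf_assoc, h1.inf_eq_bot, bot_inf_eq]

theorem finrank_add (n : ℕ) : finrank k (Jn h n) + finrank k (Bn h n) = 3 ^ n := by
  have := finite_Jn hh n
  rw [← Submodule.finrank_sup_add_finrank_inf_eq, Jn_sup_Bn hh, Jn_inf_Bn, finrank_bot, add_zero,
    finrank_homog]

theorem Jn_succ_le (h0 : h 0 = 0) (h1 : h 1 = 0) (n : ℕ) : Jn h (n + 1) ≤
    Qn h n ⊔ (Finset.range n).sup fun j =>
      (Bn h j).map (LinearMap.mulRight k (h (n + 1 - j))) := by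
  rw [Jn, Submodule.span_le]
  rintro _ ⟨u, v, i, hn, rfl⟩
  rcases eq_or_ne v.length 0 with hv | hv
  · have hv1 : v = 1 := FreeMonoid.length_eq_zero.mp hv
    subst hv1
    rw [show (om (1 : W) : T k) = 1 from map_one _, mul_one]
    rcases i with _ | _ | i
    · rw [h0, mul_zero]; exact zero_mem _
    · rw [h1, mul_zero]; exact zero_mem _
    · have hu : u.length + (i + 1) = n := by omega
      have h2 : om u ∈ Jn h u.length ⊔ Bn h u.length := by
        rw [Jn_sup_Bn hh]
        exact om_mem u
      obtain ⟨a, ha, b, hb, hab⟩ := Submodule.mem_sup.mp h2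
      rw [← hab, add_mul]
      refine add_mem (Submodule.mem_sup_left ?_) (Submodule.mem_sup_right ?_)
      · rw [← hu]
        exact mul_homog_mem ha (hh (i + 2))
      · refine (Finset.le_sup (f := fun j =>
          (Bn h j).map (LinearMap.mulRight k (h (n + 1 - j))))
            (Finset.mem_range.mpr (show u.length < n by omega))) ⟨b, hb, ?_⟩
        rw [LinearMap.mulRight_apply, show n + 1 - u.length = i + 2 by omega]
  · obtain ⟨w, x, rfl⟩ := exists_last hv
    rw [FreeMonoid.length_mul, FreeMonoid.length_of] at hn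
    rw [show (om (w * FreeMonoid.of x) : T k) = om w * om (FreeMonoid.of x) from map_mul _ _ _,
      ← mul_assoc]
    exact Submodule.mem_sup_left (mul_letter_mem (mem_Jn u w i (by omega)) x)

end Homogeneous

end Relations

/-! ### dimensions -/

theorem finrank_finset_sup_le {V : Type} [AddCommGroup V] [Module k V] {ι : Type} (s : Finset ι)
    (f : ι → Submodule k V) (hf : ∀ i ∈ s, FiniteDimensional k (f i)) :
    FiniteDimensional k (s.sup f : Submodule k V) ∧
      finrank k (s.sup f : Submodule k V) ≤ ∑ i ∈ s, finrank k (f i) := by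
  induction s using Finset.cons_induction with
  | empty =>
    rw [Finset.sup_empty, Finset.sum_empty]
    exact ⟨inferInstance, (finrank_bot k V).le⟩
  | cons a s ha ih =>
    obtain ⟨h1, h2⟩ := ih fun i hi => hf i (Finset.mem_cons_of_mem hi)
    have := hf a (Finset.mem_cons_self a s)
    rw [Finset.sup_cons, Finset.sum_cons]
    refine ⟨inferInstance, (Submodule.finrank_add_le_finrank_add_finrank _ _).trans ?_⟩
    exact Nat.add_le_add_left h2 _

theorem finrank_Jn_succ_le {h : ℕ → T k} (hh : ∀ n, h n ∈ homog k n) (h0 : h 0 = 0)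
    (h1 : h 1 = 0) (n : ℕ) : finrank k (Jn h (n + 1)) ≤
      3 * finrank k (Jn h n) + ∑ j ∈ Finset.range n, finrank k (Bn h j) := by
  have := finite_Jn hh n
  obtain ⟨a1, a2⟩ := finrank_finset_sup_le (k := k) Finset.univ (fun x : Fin 3 =>
    (Jn h n).map (LinearMap.mulRight k (om (FreeMonoid.of x)))) fun _ _ => inferInstance
  obtain ⟨b1, b2⟩ := finrank_finset_sup_le (k := k) (Finset.range n) (fun j =>
    (Bn h j).map (LinearMap.mulRight k (h (n + 1 - j)))) fun _ _ => inferInstance
  have : FiniteDimensional k (Qn h n) := a1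
  have c1 : finrank k (Qn h n) ≤ 3 * finrank k (Jn h n) := by
    refine a2.trans ((Finset.sum_le_sum fun x _ => Submodule.finrank_map_le _ _).trans ?_)
    rw [Finset.sum_const, Finset.card_univ, Fintype.card_fin, smul_eq_mul]
  have c2 := b2.trans (Finset.sum_le_sum fun j _ =>
    Submodule.finrank_map_le (LinearMap.mulRight k (h (n + 1 - j))) (Bn h j))
  calc finrank k (Jn h (n + 1)) ≤ finrank k (Qn h n ⊔ (Finset.range n).sup fun j =>
        (Bn h j).map (LinearMap.mulRight k (h (n + 1 - j))) : Submodule k (T k)) :=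
        Submodule.finrank_mono (Jn_succ_le hh h0 h1 n)
    _ ≤ _ := Submodule.finrank_add_le_finrank_add_finrank _ _
    _ ≤ _ := Nat.add_le_add c1 c2

/-- **Golod - Shafarevich**: `2 ^ n ≤ dim (T / J)ₙ` -/
theorem two_pow_le {h : ℕ → T k} (hh : ∀ n, h n ∈ homog k n) (h0 : h 0 = 0) (h1 : h 1 = 0)
    (n : ℕ) : 2 ^ n ≤ finrank k (Bn h n) := by
  have key : ∀ n, 3 * finrank k (Bn h n) ≤
      finrank k (Bn h (n + 1)) + ∑ j ∈ Finset.range n, finrank k (Bn h j) := by
    intro n
    have a := finrank_Jn_succ_le hh h0 h1 n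
    have b := finrank_add hh n
    have c := finrank_add hh (n + 1)
    rw [pow_succ, ← b] at c
    omega
  have hs : ∀ n, ∑ j ∈ Finset.range n, finrank k (Bn h j) ≤ finrank k (Bn h n) := by
    intro n
    induction n with
    | zero => simp
    | succ n ih =>
      rw [Finset.sum_range_succ]
      have := key n
      omega
  have hz : finrank k (Jn h 0) = 0 := by
    have : Jn h 0 = ⊥ := by
      rw [Jn, Submodule.span_eq_bot]
      rintro _ ⟨u, v, i, hn, rfl⟩
      obtain rfl : i = 0 := by omega
      rw [h0, mul_zero, zero_mul]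
    rw [this, finrank_bot]
  induction n with
  | zero =>
    have b := finrank_add hh 0
    rw [hz] at b
    omega
  | succ n ih =>
    have a := key n
    have b := hs n
    rw [pow_succ]
    omega

theorem Jt_inf_homog_le {h : ℕ → T k} (hh : ∀ n, h n ∈ homog k n) (n : ℕ) :
    Jt h ⊓ homog k n ≤ Jn h n := by
  have h1 : Jt h ≤ (Jn h n).comap (comp n) := by
    rw [Jt, Submodule.span_le]
    rintro _ ⟨u, v, i, rfl⟩
    change comp n (om u * h i * om v) ∈ Jn h n
    have h2 : om u * h i * om v ∈ homog k (u.length + i + v.length) :=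
      mul_mem_homog (mul_mem_homog (om_mem u) (hh i)) (om_mem v)
    rcases eq_or_ne (u.length + i + v.length) n with hn | hn
    · rw [comp_self (hn ▸ h2)]
      exact mem_Jn u v i hn
    · rw [comp_of_ne hn h2]
      exact zero_mem _
  rintro t ⟨ht, ht'⟩
  have h2 : comp n t ∈ Jn h n := h1 ht
  rwa [comp_self ht'] at h2

/-- **An algebra with three generators and at most one homogeneous relation in each degree `≥ 2`
has infinite dimension.** -/
theorem not_finite_quotient {h : ℕ → T k} (hh : ∀ n, h n ∈ homog k n) (h0 : h 0 = 0)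
    (h1 : h 1 = 0) : ¬ Module.Finite k (T k ⧸ relIdeal h) := by
  intro hfin
  set n := finrank k (T k ⧸ relIdeal h) with hn
  let f : T k →ₗ[k] T k ⧸ relIdeal h := (Ideal.Quotient.mkₐ k (relIdeal h)).toLinearMap
  have hf : Function.Injective (f ∘ₗ (Bn h n).subtype) := by
    rw [← LinearMap.ker_eq_bot, LinearMap.ker_eq_bot']
    rintro ⟨t, ht⟩ h2
    have h3 : Ideal.Quotient.mk (relIdeal h) t = 0 := h2
    rw [Ideal.Quotient.eq_zero_iff_mem, mem_relIdeal] at h3
    have h4 : t ∈ Jn h n ⊓ Bn h n := ⟨Jt_inf_homog_le hh n ⟨h3, Bn_le n ht⟩, ht⟩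
    rw [Jn_inf_Bn, Submodule.mem_bot] at h4
    exact Subtype.ext h4
  have h5 := LinearMap.finrank_le_finrank_of_injective hf
  rw [← hn] at h5
  exact absurd (((two_pow_le hh h0 h1 n).trans h5)) (not_le.mpr Nat.lt_two_pow_self)

end Fermat.Agent.Cor.Golod
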