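import Fermat.Agent.Corollaries.Golod.Cohom

/-!
# Burnside's basis theorem in cohomology, and balanced presentations of finite `p`-groups

* `finrank_H1_eq_rank`: for a finite `p`-group `G`, `dim H¹(G, 𝔽_p)` is the minimal number of
  generators of `G`;
* `rank_sq_lt`: `d² < 4 dim H²(G, 𝔽_p)`, `d` the minimal number of generators;
* `rank_le_three`: a finite `p`-group with a balanced presentation (as many relations as generators,
  the number of generators being minimal) has at most three generators;
* `rank_le_three_of_finrank_le`: the same if `dim H² ≤ dim H¹`.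
-/

set_option autoImplicit false

namespace Fermat.Agent.Cor.Golod

open MonoidAlgebra Module groupCohomology

variable {p : ℕ} [hp : Fact p.Prime] {G : Type} [Group G] [Finite G]

omit [Finite G] in
/-- A homomorphism of the free group to `ℤ/p` in terms of the Fox derivatives. -/
theorem toAdd_eq_sum {ι : Type} [Fintype ι] (π : FreeGroup ι →* G)
    (φ : FreeGroup ι →* Multiplicative (ZMod p)) (u : FreeGroup ι) : (φ u).toAdd =
      ∑ i, aug (ZMod p) (foxD (ZMod p) π u i) * (φ (FreeGroup.of i)).toAdd := by
  classical
  induction u using FreeGroup.induction_on with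
  | C1 =>
    rw [map_one, toAdd_one, (isCross_foxD (ZMod p) π).one]
    simp
  | of i =>
    rw [foxD_of, Finset.sum_eq_single i]
    · rw [Pi.single_eq_same, map_one, one_mul]
    · intro j _ hj
      rw [Pi.single_eq_of_ne hj, map_zero, zero_mul]
    · intro h
      exact absurd (Finset.mem_univ i) h
  | inv_of i ih =>
    rw [map_inv, toAdd_inv, ih, (isCross_foxD (ZMod p) π).inv, ← Finset.sum_neg_distrib]
    refine Finset.sum_congr rfl fun j _ => ?_
    rw [Pi.neg_apply, Pi.smul_apply, smul_eq_mul, map_neg, map_mul, aug_of, one_mul, neg_mul]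
  | mul u v hu hv =>
    rw [map_mul, toAdd_mul, hu, hv, isCross_foxD, ← Finset.sum_add_distrib]
    refine Finset.sum_congr rfl fun j _ => ?_
    rw [Pi.add_apply, Pi.smul_apply, smul_eq_mul, map_add, map_mul, aug_of, one_mul, add_mul]

/-- **Burnside's basis theorem**, cohomological form: `dim H¹(G, 𝔽_p)` is the minimal number of
generators of the finite `p`-group `G`. -/
theorem finrank_H1_eq_rank (hG : IsPGroup p G) :
    finrank (ZMod p) (H1 (triv p G)) = Group.rank G := by
  obtain ⟨S, hS, hcl⟩ := Group.rank_spec G
  let π : FreeGroup S →* G := FreeGroup.lift (fun s => s.1)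
  have hπ : Function.Surjective π := by
    rw [← MonoidHom.range_eq_top, FreeGroup.range_lift_eq_closure, ← hcl]
    congr 1
    ext x
    simp
  have hcard : Fintype.card S = Group.rank G := by rw [Fintype.card_coe, hS]
  refine le_antisymm ((finrank_H1_le (p := p) π hπ).trans hcard.le) ?_
  rw [(H1IsoOfIsTrivial (triv p G)).toLinearEquiv.finrank_eq]
  have hfinG : Finite (Additive G →+ ZMod p) := DFunLike.finite _
  have hfin : Module.Finite (ZMod p) (Additive G →+ ZMod p) := Module.Finite.of_finite
  let T : (Additive G →+ ZMod p) →ₗ[ZMod p] (S → ZMod p) :=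
    { toFun := fun f i => f (Additive.ofMul (π (FreeGroup.of i)))
      map_add' := fun f g => rfl
      map_smul' := fun c f => rfl }
  have hT : Function.Surjective T := by
    intro a
    let φ : FreeGroup S →* Multiplicative (ZMod p) :=
      FreeGroup.lift fun i => Multiplicative.ofAdd (a i)
    have hφ : ∀ w, π w = 1 → φ w = 1 := by
      intro w hw
      have h1 := toAdd_eq_sum π φ w
      rw [Finset.sum_eq_zero fun i _ => by
        rw [aug_foxD_eq_zero hG π hπ hcard hw i, zero_mul]] at h1
      exact toAdd_eq_zero.mp h1
    choose σ hσ using hπ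
    have hφσ : ∀ w, φ (σ (π w)) = φ w := by
      intro w
      have h1 : φ ((σ (π w))⁻¹ * w) = 1 := hφ _ (by rw [map_mul, map_inv, hσ, inv_mul_cancel])
      rw [map_mul, map_inv, inv_mul_eq_one] at h1
      exact h1
    let f : G →* Multiplicative (ZMod p) := MonoidHom.mk' (fun g => φ (σ g)) (fun g h => by
      have h1 := hφσ (σ g * σ h)
      rwa [map_mul, hσ, hσ, map_mul] at h1)
    refine ⟨MonoidHom.toAdditiveLeft f, ?_⟩
    funext i
    change (φ (σ (π (FreeGroup.of i)))).toAdd = a i
    rw [hφσ]
    simp only [φ]
    rw [FreeGroup.lift_apply_of, toAdd_ofAdd]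
  have h1 := LinearMap.finrank_le_finrank_of_surjective hT
  rw [Module.finrank_pi, hcard] at h1
  exact h1

/-- `d² < 4 dim H²(G, 𝔽_p)`, `d` the minimal number of generators of the finite `p`-group
`G ≠ 1`. -/
theorem rank_sq_lt [Nontrivial G] (hG : IsPGroup p G) :
    Group.rank G ^ 2 < 4 * finrank (ZMod p) (H2 (triv p G)) := by
  rw [← finrank_H1_eq_rank hG]
  exact golod_shafarevich_cohom hG

/-- A finite `p`-group with `dim H² ≤ dim H¹` (for example with trivial Schur multiplier) has at
most three generators. -/
theorem rank_le_three_of_finrank_le (hG : IsPGroup p G)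
    (h : finrank (ZMod p) (H2 (triv p G)) ≤ finrank (ZMod p) (H1 (triv p G))) :
    Group.rank G ≤ 3 := by
  rcases subsingleton_or_nontrivial G with hs | hn
  · rw [Group.rank_eq_zero_iff.mpr hs]
    omega
  · have h1 := rank_sq_lt hG
    rw [finrank_H1_eq_rank hG] at h
    by_contra hcon
    push Not at hcon
    nlinarith

end Fermat.Agent.Cor.Golod

namespace Fermat.Agent.Cor.Golod

/-- **A finite `p`-group with a balanced presentation has at most three generators**: `d` is the
minimal number of generators and there are at most `d` relations. -/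
theorem rank_le_three {p : ℕ} [Fact p.Prime] {G : Type*} [Group G] [Finite G]
    (hG : IsPGroup p G) {d m : ℕ} (hd : Group.rank G = d) (π : FreeGroup (Fin d) →* G)
    (hπ : Function.Surjective π) (rel : Fin m → FreeGroup (Fin d))
    (hker : π.ker = Subgroup.normalClosure (Set.range rel)) (hm : m ≤ d) : d ≤ 3 := by
  rcases subsingleton_or_nontrivial G with hs | hn
  · rw [← hd, Group.rank_eq_zero_iff.mpr hs]
    omega
  · have h1 := golod_shafarevich hG hd π hπ rel hker
    by_contra hcon
    push Not at hcon
    nlinarith

end Fermat.Agent.Cor.Golod
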