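import Fermat.Agent.Corollaries.Golod.Alg

/-!
# Golod's theorems (1964)

* `golod_nil`: over a countable field `k` there is an algebra `A` with three generators, of infinite
  dimension, and a two-sided ideal `M` which contains the generators (so `A = k + M`) all of whose
  elements are nilpotent;
* `kurosh`: a finitely generated algebraic algebra can have infinite dimension (negative answer to
  Kurosh's problem, 1941);
* `golod`: for every prime `p` there is an infinite group with three generators in which the order of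
  every element is a power of `p`; `burnside`: an infinite finitely generated torsion group
  (negative answer to Burnside's general problem, 1902).
-/

set_option autoImplicit false

noncomputable section

namespace Fermat.Agent.Cor.Golod

open Module

variable {k : Type} [Field k]

theorem supp_mul {S S' S'' : Set W} (hS : ∀ u ∈ S, ∀ v ∈ S', u * v ∈ S'') {x y : T k}
    (hx : x ∈ MonoidAlgebra.supported k k S) (hy : y ∈ MonoidAlgebra.supported k k S') :
    x * y ∈ MonoidAlgebra.supported k k S'' := by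
  have h : MonoidAlgebra.supported k k S * MonoidAlgebra.supported k k S' ≤
      MonoidAlgebra.supported k k S'' := by
    rw [MonoidAlgebra.supported_eq_span_single, MonoidAlgebra.supported_eq_span_single,
      MonoidAlgebra.supported_eq_span_single, Submodule.span_mul_span]
    refine Submodule.span_mono ?_
    rintro _ ⟨_, ⟨u, hu, rfl⟩, _, ⟨v, hv, rfl⟩, rfl⟩
    refine ⟨u * v, hS u hu v hv, ?_⟩
    change MonoidAlgebra.single (u * v) (1 : k) =
      MonoidAlgebra.single u 1 * MonoidAlgebra.single v 1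
    rw [MonoidAlgebra.single_mul_single, one_mul]
  exact h (Submodule.mul_mem_mul hx hy)

/-- the words of length between `a` and `b` -/
def rg (a b : ℕ) : Set W := {w | a ≤ w.length ∧ w.length ≤ b}

theorem pow_mem_rg {D : ℕ} {t : T k} (ht : t ∈ MonoidAlgebra.supported k k (rg 1 D)) (n : ℕ) :
    t ^ n ∈ MonoidAlgebra.supported k k (rg n (n * D)) := by
  induction n with
  | zero =>
    classical
    rw [pow_zero, MonoidAlgebra.mem_supported']
    intro w hw
    rw [MonoidAlgebra.one_def, MonoidAlgebra.coeff_single, Finsupp.single_apply, if_neg]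
    rintro rfl
    exact hw ⟨le_refl _, by rw [FreeMonoid.length_one]; exact Nat.zero_le _⟩
  | succ n ih =>
    rw [pow_succ]
    refine supp_mul ?_ ih ht
    rintro u ⟨hu1, hu2⟩ v ⟨hv1, hv2⟩
    refine ⟨?_, ?_⟩
    · rw [FreeMonoid.length_mul]; omega
    · rw [FreeMonoid.length_mul, Nat.succ_mul]; omega

theorem sum_comp {a b : ℕ} {t : T k} (ht : t ∈ MonoidAlgebra.supported k k (rg a b)) :
    ∑ n ∈ Finset.Icc a b, comp n t = t := by
  apply MonoidAlgebra.coeff_injective
  ext w
  rw [MonoidAlgebra.coeff_sum, Finsupp.finsetSum_apply]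
  simp only [coeff_comp]
  rw [Finset.sum_ite_eq]
  split_ifs with h
  · rfl
  · rw [MonoidAlgebra.mem_supported'] at ht
    exact (ht w fun h' => h (Finset.mem_Icc.mpr h')).symm

variable (k) in
/-- the elements without constant term -/
def Tp : Submodule k (T k) := MonoidAlgebra.supported k k {w | 1 ≤ w.length}

theorem om_of_mem (i : Fin 3) : om (FreeMonoid.of i) ∈ Tp k := by
  rw [Tp, MonoidAlgebra.supported_eq_span_single]
  exact Submodule.subset_span ⟨FreeMonoid.of i, (FreeMonoid.length_of i).ge, rfl⟩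

theorem mem_supported_univ (t : T k) : t ∈ MonoidAlgebra.supported k k (Set.univ : Set W) :=
  fun _ _ => Set.mem_univ _

theorem mul_mem_Tp_left (a : T k) {t : T k} (ht : t ∈ Tp k) : a * t ∈ Tp k := by
  refine supp_mul ?_ (mem_supported_univ a) ht
  intro u _ v hv
  have hv' : 1 ≤ v.length := hv
  change 1 ≤ (u * v).length
  rw [FreeMonoid.length_mul]
  omega

theorem mul_mem_Tp_right (a : T k) {t : T k} (ht : t ∈ Tp k) : t * a ∈ Tp k := by
  refine supp_mul ?_ ht (mem_supported_univ a)
  intro u hu v _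
  have hu' : 1 ≤ u.length := hu
  change 1 ≤ (u * v).length
  rw [FreeMonoid.length_mul]
  omega

/-- the constant term -/
theorem sub_const_mem (t : T k) : t - algebraMap k (T k) (t.coeff 1) ∈ Tp k := by
  rw [Tp, MonoidAlgebra.mem_supported']
  intro w hw
  have hw1 : w = 1 := by
    have : ¬ 1 ≤ w.length := hw
    exact FreeMonoid.length_eq_zero.mp (by omega)
  subst hw1
  rw [Algebra.algebraMap_eq_smul_one, MonoidAlgebra.coeff_sub, Finsupp.sub_apply,
    MonoidAlgebra.coeff_smul_apply, MonoidAlgebra.coeff_one_one, smul_eq_mul, mul_one, sub_self]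

theorem exists_deg {t : T k} (ht : t ∈ Tp k) :
    ∃ D, t ∈ MonoidAlgebra.supported k k (rg 1 D) :=
  ⟨t.coeff.support.sup FreeMonoid.length, fun _ hw =>
    ⟨ht hw, Finset.le_sup (f := FreeMonoid.length) hw⟩⟩

instance [Countable k] : Countable (T k) :=
  haveI : Countable W := inferInstanceAs (Countable (List (Fin 3)))
  MonoidAlgebra.coeff_injective.countable

/-- **the relations of Golod** -/
theorem exists_relations [Countable k] : ∃ h : ℕ → T k, (∀ n, h n ∈ homog k n) ∧ h 0 = 0 ∧
    h 1 = 0 ∧ ∀ t ∈ Tp k, ∃ n, t ^ n ∈ relIdeal h := by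
  obtain ⟨f, hf⟩ := exists_surjective_nat (Tp k)
  choose D hD using fun i => exists_deg (f i).2
  obtain ⟨N, N0, NS⟩ : ∃ N : ℕ → ℕ, N 0 = 2 ∧ ∀ i, N (i + 1) = N i * D i + N i + 1 :=
    ⟨fun i => Nat.rec (motive := fun _ => ℕ) 2 (fun i Ni => Ni * D i + Ni + 1) i, rfl,
      fun _ => rfl⟩
  have hmono : StrictMono N := strictMono_nat_of_lt_succ fun i => by
    rw [NS]
    exact Nat.lt_succ_of_le (Nat.le_add_left _ _)
  have h2 : ∀ i, 2 ≤ N i := fun i => N0 ▸ hmono.monotone (Nat.zero_le i)
  let κ : ℕ → ℕ := fun n => Nat.findGreatest (fun i : ℕ => N i ≤ n) n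
  have hκ : ∀ i n, N i ≤ n → n < N (i + 1) → κ n = i := by
    intro i n h1 h3
    rw [Nat.findGreatest_eq_iff]
    refine ⟨(hmono.le_apply).trans h1, fun _ => h1, fun m hm _ hmn => ?_⟩
    exact absurd ((hmono.monotone (Nat.succ_le_of_lt hm)).trans hmn) (not_le.mpr h3)
  let h : ℕ → T k := fun n => if n < 2 then 0 else comp n ((f (κ n) : T k) ^ N (κ n))
  refine ⟨h, fun n => ?_, if_pos (by norm_num), if_pos (by norm_num), fun t ht => ?_⟩
  · change (if n < 2 then 0 else comp n ((f (κ n) : T k) ^ N (κ n))) ∈ homog k n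
    split_ifs
    · exact zero_mem _
    · exact comp_mem _ _
  · obtain ⟨i, hi⟩ := hf ⟨t, ht⟩
    have hi' : (f i : T k) = t := by rw [hi]
    refine ⟨N i, ?_⟩
    rw [← hi', ← sum_comp (pow_mem_rg (hD i) (N i))]
    refine sum_mem fun n hn => ?_
    rw [Finset.mem_Icc] at hn
    have e : h n = comp n ((f i : T k) ^ N i) := by
      have h3 : κ n = i := hκ i n hn.1 (by
        rw [NS]
        exact Nat.lt_succ_of_le (hn.2.trans (Nat.le_add_right _ _)))
      change (if n < 2 then 0 else comp n ((f (κ n) : T k) ^ N (κ n))) = _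
      rw [if_neg (not_lt.mpr ((h2 i).trans hn.1)), h3]
    rw [← e]
    exact rel_mem n

/-! ### the algebra -/

theorem adjoin_eq_top (I : Ideal (T k)) [I.IsTwoSided] : Algebra.adjoin k
    (Set.range fun i : Fin 3 => Ideal.Quotient.mkₐ k I (om (FreeMonoid.of i))) = ⊤ := by
  set S := Algebra.adjoin k
    (Set.range fun i : Fin 3 => Ideal.Quotient.mkₐ k I (om (FreeMonoid.of i)))
  have hw : ∀ w : W, Ideal.Quotient.mkₐ k I (om w) ∈ S := by
    intro w
    induction w using FreeMonoid.inductionOn' with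
    | one =>
      rw [show (om (1 : W) : T k) = 1 from map_one _, map_one]
      exact one_mem _
    | of_mul x w ih =>
      rw [show (om (FreeMonoid.of x * w) : T k) = om (FreeMonoid.of x) * om w from
        map_mul _ _ _, map_mul]
      exact mul_mem (Algebra.subset_adjoin ⟨x, rfl⟩) ih
  rw [eq_top_iff]
  rintro a -
  obtain ⟨t, rfl⟩ := Ideal.Quotient.mkₐ_surjective k I a
  induction t using MonoidAlgebra.induction_linear with
  | zero => rw [map_zero]; exact zero_mem _
  | add f g hf hg => rw [map_add]; exact add_mem hf hg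
  | single w r =>
    rw [← MonoidAlgebra.smul_of, map_smul]
    exact S.smul_mem (hw w) r

/-- **Golod 1964: an infinite-dimensional algebra with three generators and a nil ideal which
contains them** -/
theorem golod_nil (k : Type) [Field k] [Countable k] :
    ∃ (A : Type) (_ : Ring A) (_ : Algebra k A) (x : Fin 3 → A) (M : Ideal A)
      (_ : M.IsTwoSided), Algebra.adjoin k (Set.range x) = ⊤ ∧ (∀ i, x i ∈ M) ∧
      (∀ a : A, ∃ c : k, a - algebraMap k A c ∈ M) ∧ (∀ a ∈ M, IsNilpotent a) ∧
      ¬ Module.Finite k A := by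
  obtain ⟨h, hh, h0, h1, hnil⟩ := exists_relations (k := k)
  let q : T k →ₐ[k] T k ⧸ relIdeal h := Ideal.Quotient.mkₐ k (relIdeal h)
  have hq : Function.Surjective q := Ideal.Quotient.mkₐ_surjective k (relIdeal h)
  let M : Ideal (T k ⧸ relIdeal h) :=
    { carrier := {a | ∃ t ∈ Tp k, q t = a}
      zero_mem' := ⟨0, zero_mem _, map_zero q⟩
      add_mem' := by
        rintro _ _ ⟨s, hs, rfl⟩ ⟨t, ht, rfl⟩
        exact ⟨s + t, add_mem hs ht, map_add q s t⟩
      smul_mem' := by
        rintro a _ ⟨t, ht, rfl⟩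
        obtain ⟨s, rfl⟩ := hq a
        exact ⟨s * t, mul_mem_Tp_left s ht, map_mul q s t⟩ }
  refine ⟨T k ⧸ relIdeal h, inferInstance, inferInstance,
    fun i => q (om (FreeMonoid.of i)), M, ⟨?_⟩, adjoin_eq_top _, ?_, ?_, ?_,
    not_finite_quotient hh h0 h1⟩
  · rintro _ b ⟨t, ht, rfl⟩
    obtain ⟨s, rfl⟩ := hq b
    exact ⟨t * s, mul_mem_Tp_right s ht, map_mul q t s⟩
  · intro i
    exact ⟨om (FreeMonoid.of i), om_of_mem i, rfl⟩
  · intro a
    obtain ⟨t, rfl⟩ := hq a
    exact ⟨t.coeff 1, t - algebraMap k (T k) (t.coeff 1), sub_const_mem t, by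
      rw [map_sub, AlgHom.commutes]⟩
  · rintro _ ⟨t, ht, rfl⟩
    obtain ⟨n, hn⟩ := hnil t ht
    refine ⟨n, ?_⟩
    rw [← map_pow]
    exact Ideal.Quotient.eq_zero_iff_mem.mpr hn

/-- **Kurosh's problem**: a finitely generated algebraic algebra of infinite dimension -/
theorem kurosh (k : Type) [Field k] [Countable k] :
    ∃ (A : Type) (_ : Ring A) (_ : Algebra k A) (x : Fin 3 → A),
      Algebra.adjoin k (Set.range x) = ⊤ ∧ (∀ a : A, IsAlgebraic k a) ∧ ¬ Module.Finite k A := by
  obtain ⟨A, _, _, x, M, _, h1, -, h3, h4, h5⟩ := golod_nil k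
  refine ⟨A, inferInstance, inferInstance, x, h1, fun a => ?_, h5⟩
  obtain ⟨c, hc⟩ := h3 a
  obtain ⟨n, hn⟩ := h4 _ hc
  refine ⟨(Polynomial.X - Polynomial.C c) ^ n, pow_ne_zero _ (Polynomial.X_sub_C_ne_zero c), ?_⟩
  rw [map_pow, map_sub, Polynomial.aeval_X, Polynomial.aeval_C, hn]

/-! ### the group -/

/-- **Golod 1964: for every prime `p` there is an infinite group with three generators in which
the order of every element is a power of `p`.** -/
theorem golod (p : ℕ) [hp : Fact p.Prime] :
    ∃ (G : Type) (_ : Group G) (g : Fin 3 → G), Subgroup.closure (Set.range g) = ⊤ ∧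
      IsPGroup p G ∧ Infinite G := by
  obtain ⟨A, _, _, x, M, _, hgen, hx, -, hnil, hinf⟩ := golod_nil (ZMod p)
  have hnt : Nontrivial A := by
    by_contra h
    rw [not_nontrivial_iff_subsingleton] at h
    exact hinf inferInstance
  have hch : CharP A p := charP_of_injective_algebraMap (algebraMap (ZMod p) A).injective p
  have hu : ∀ i, IsUnit (1 + x i) := fun i => (hnil _ (hx i)).isUnit_one_add
  let g' : Fin 3 → Aˣ := fun i => (hu i).unit
  have hg' : ∀ i, (g' i : A) = 1 + x i := fun i => (hu i).unit_spec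
  let H : Subgroup Aˣ := Subgroup.closure (Set.range g')
  have hH : ∀ u ∈ H, (u : A) - 1 ∈ M := by
    intro u hu
    refine Subgroup.closure_induction (p := fun (u : Aˣ) _ => (u : A) - 1 ∈ M) ?_ ?_ ?_ ?_ hu
    · rintro _ ⟨i, rfl⟩
      rw [hg', add_sub_cancel_left]
      exact hx i
    · rw [Units.val_one, sub_self]
      exact zero_mem _
    · intro a b _ _ ha hb
      have e : ((a * b : Aˣ) : A) - 1 = (a : A) * ((b : A) - 1) + ((a : A) - 1) := by
        rw [Units.val_mul, mul_sub, mul_one]
        abel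
      rw [e]
      exact add_mem (M.mul_mem_left _ hb) ha
    · intro a _ ha
      have e : ((a⁻¹ : Aˣ) : A) - 1 = -(((a⁻¹ : Aˣ) : A) * ((a : A) - 1)) := by
        rw [mul_sub, mul_one, Units.inv_mul, neg_sub]
      rw [e]
      exact neg_mem (M.mul_mem_left _ ha)
  refine ⟨H, inferInstance, fun i => ⟨g' i, Subgroup.subset_closure ⟨i, rfl⟩⟩, ?_, ?_, ?_⟩
  · have h1 := Subgroup.closure_closure_coe_preimage (k := Set.range g')
    have h2 : (Set.range fun i => (⟨g' i, Subgroup.subset_closure ⟨i, rfl⟩⟩ : H)) =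
        ((↑) : H → Aˣ) ⁻¹' Set.range g' := by
      ext u
      constructor
      · rintro ⟨i, rfl⟩
        exact ⟨i, rfl⟩
      · rintro ⟨i, hi⟩
        exact ⟨i, Subtype.ext hi⟩
    rw [h2]
    exact h1
  · rintro ⟨u, hu⟩
    obtain ⟨n, hn⟩ := hnil _ (hH u hu)
    refine ⟨n, ?_⟩
    apply Subtype.ext
    apply Units.ext
    change (u : A) ^ p ^ n = 1
    have e : (u : A) = 1 + ((u : A) - 1) := by abel
    rw [e, add_pow_char_pow_of_commute p n (Commute.one_left ((u : A) - 1)), one_pow,
      pow_eq_zero_of_le (Nat.lt_pow_self hp.out.one_lt).le hn, add_zero]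
  · by_contra hfin
    rw [not_infinite_iff_finite] at hfin
    apply hinf
    let P : Submonoid A := H.toSubmonoid.map (Units.coeHom A)
    have hPf : (P : Set A).Finite := by
      have h1 : (H : Set Aˣ).Finite := Set.toFinite _
      exact h1.image _
    have h1 : Algebra.adjoin (ZMod p) (P : Set A) = ⊤ := by
      rw [eq_top_iff, ← hgen, Algebra.adjoin_le_iff]
      rintro _ ⟨i, rfl⟩
      have e : x i = (g' i : A) - 1 := by rw [hg', add_sub_cancel_left]
      rw [e]
      refine sub_mem (Algebra.subset_adjoin ⟨g' i, Subgroup.subset_closure ⟨i, rfl⟩, rfl⟩) ?_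
      exact one_mem _
    have h2 := Algebra.adjoin_eq_span (ZMod p) (P : Set A)
    rw [h1, Submonoid.closure_eq, Algebra.top_toSubmodule] at h2
    exact ⟨h2 ▸ Submodule.fg_span hPf⟩

/-- **Burnside's general problem (1902)**: an infinite finitely generated torsion group -/
theorem burnside :
    ∃ (G : Type) (_ : Group G), Group.FG G ∧ (∀ g : G, IsOfFinOrder g) ∧ Infinite G := by
  have : Fact (Nat.Prime 2) := ⟨Nat.prime_two⟩
  obtain ⟨G, _, g, h1, h2, h3⟩ := golod 2
  refine ⟨G, inferInstance, ?_, ?_, h3⟩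
  · rw [Group.fg_iff]
    exact ⟨Set.range g, h1, Set.finite_range g⟩
  · intro u
    obtain ⟨n, hn⟩ := h2 u
    exact isOfFinOrder_iff_pow_eq_one.mpr ⟨2 ^ n, by positivity, hn⟩

end Fermat.Agent.Cor.Golod
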