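import Fermat.Agent.Corollaries.Golod.PGroup

/-!
# The theorem of Golod and Shafarevich, cohomological form

`golod_shafarevich_cohom`: for a finite `p`-group `G ≠ 1`,
`(dim H¹(G, 𝔽_p))² < 4 dim H²(G, 𝔽_p)` (Mathlib's `groupCohomology` of the trivial representation).

Let `π : F → G` be a minimal presentation, `R = 𝔽_p[G]`, `K` the kernel of `R^d → R`. An invariant
functional `lam` on `K` gives the 2-cocycle `(g, h) ↦ lam (s g + g s h - s (gh))`, where
`s g = D (σ g)` is a Fox derivative; by minimality it is a coboundary only for `lam = 0`. So the space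
`Λ` of the invariant functionals has dimension `≤ dim H²`. On the other hand `K` is generated by
`dim Λ` Fox derivatives of relations (fixed points of `p`-groups), and `sq_lt_of_exact` applies.
-/

set_option autoImplicit false

namespace Fermat.Agent.Cor.Golod

open MonoidAlgebra Module

section Fixed

variable {p : ℕ} [hp : Fact p.Prime] {G : Type*} [Group G]

/-- multiplication by a group element as a linear map -/
noncomputable def lin {M : Type*} [AddCommGroup M] [Module (ZMod p) M]
    [Module (MonoidAlgebra (ZMod p) G) M] [IsScalarTower (ZMod p) (MonoidAlgebra (ZMod p) G) M]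
    (g : G) : M →ₗ[ZMod p] M where
  toFun x := MonoidAlgebra.of (ZMod p) G g • x
  map_add' := smul_add _
  map_smul' c x := by
    rw [RingHom.id_apply, ← algebraMap_smul (MonoidAlgebra (ZMod p) G) c x, smul_smul,
      ← Algebra.commutes, ← smul_smul, algebraMap_smul]

/-- A finite `p`-group has an invariant functional on every finite `𝔽_p[G]`-module `≠ 0`. -/
theorem exists_invariant_functional [Finite G] (hG : IsPGroup p G) {M : Type*} [AddCommGroup M]
    [Module (ZMod p) M] [Module (MonoidAlgebra (ZMod p) G) M]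
    [IsScalarTower (ZMod p) (MonoidAlgebra (ZMod p) G) M] [Finite M] [Nontrivial M] :
    ∃ lam : M →ₗ[ZMod p] ZMod p, lam ≠ 0 ∧
      ∀ (g : G) (x : M), lam (MonoidAlgebra.of (ZMod p) G g • x) = lam x := by
  let act : MulAction G (M →ₗ[ZMod p] ZMod p) :=
    { smul := fun g lam => lam ∘ₗ lin g⁻¹
      one_smul := fun lam => by
        refine LinearMap.ext fun x => ?_
        change lam (MonoidAlgebra.of (ZMod p) G 1⁻¹ • x) = lam x
        rw [inv_one, map_one, one_smul]
      mul_smul := fun g h lam => by
        refine LinearMap.ext fun x => ?_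
        change lam (MonoidAlgebra.of (ZMod p) G (g * h)⁻¹ • x) =
          lam (MonoidAlgebra.of (ZMod p) G h⁻¹ • (MonoidAlgebra.of (ZMod p) G g⁻¹ • x))
        rw [mul_inv_rev, map_mul, mul_smul] }
  have hfM : Module.Finite (ZMod p) M := Module.Finite.of_finite
  have hfin : Finite (M →ₗ[ZMod p] ZMod p) := Module.finite_of_finite (ZMod p)
  have hnt : Nontrivial (M →ₗ[ZMod p] ZMod p) := by
    obtain ⟨x, hx⟩ := exists_ne (0 : M)
    by_contra hcon
    rw [not_nontrivial_iff_subsingleton] at hcon
    apply hx
    rw [← Module.forall_dual_apply_eq_zero_iff (ZMod p) x]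
    intro φ
    rw [Subsingleton.elim (α := M →ₗ[ZMod p] ZMod p) φ 0, LinearMap.zero_apply]
  have hcard : p ∣ Nat.card (M →ₗ[ZMod p] ZMod p) := by
    rw [Module.natCard_eq_pow_finrank (K := ZMod p), Nat.card_zmod]
    exact dvd_pow_self p Module.finrank_pos.ne'
  obtain ⟨lam, hlam, h0⟩ := hG.exists_fixed_point_of_prime_dvd_card_of_fixed_point _ hcard
    (a := (0 : M →ₗ[ZMod p] ZMod p)) (fun g => LinearMap.zero_comp _)
  refine ⟨lam, h0.symm, fun g x => ?_⟩
  have h1 := LinearMap.congr_fun (hlam g⁻¹) x
  change lam (MonoidAlgebra.of (ZMod p) G g⁻¹⁻¹ • x) = lam x at h1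
  rwa [inv_inv] at h1

end Fixed

section Minimal

variable {p : ℕ} [hp : Fact p.Prime] {G ι : Type} [Group G] [Finite G] [Fintype ι]
  (π : FreeGroup ι →* G)

/-- the kernel of `R^d → R` -/
noncomputable abbrev relMod : Submodule (MonoidAlgebra (ZMod p) G) (ι → MonoidAlgebra (ZMod p) G) :=
  LinearMap.ker (bdry (ZMod p) π)

/-- the invariant functionals on the kernel -/
def invFun : Submodule (ZMod p) ((relMod (p := p) π) →ₗ[ZMod p] ZMod p) where
  carrier := {lam | ∀ (g : G) x, lam (MonoidAlgebra.of (ZMod p) G g • x) = lam x}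
  add_mem' := fun {a b} ha hb g x => by
    rw [LinearMap.add_apply, LinearMap.add_apply, ha, hb]
  zero_mem' := fun _ _ => rfl
  smul_mem' := fun c a ha g x => by
    rw [LinearMap.smul_apply, LinearMap.smul_apply, ha]

variable {π}

omit [Finite G] in
lemma invFun_smul {lam : (relMod (p := p) π) →ₗ[ZMod p] ZMod p} (h : lam ∈ invFun π)
    (r : MonoidAlgebra (ZMod p) G) (x : relMod (p := p) π) :
    lam (r • x) = aug (ZMod p) r * lam x := by
  induction r using MonoidAlgebra.induction_on with
  | of g => rw [h, aug_of, one_mul]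
  | add a b ha hb => rw [add_smul, map_add, ha, hb, map_add, add_mul]
  | smul c a ha => rw [smul_assoc, map_smul, ha, map_smul, smul_eq_mul, smul_eq_mul, mul_assoc]

/-- the Fox derivative of a relation as an element of the kernel -/
noncomputable def relD (w : FreeGroup ι) (hw : π w = 1) : relMod (p := p) π :=
  ⟨foxD (ZMod p) π w, by rw [LinearMap.mem_ker, bdry_foxD, hw, map_one, sub_self]⟩

/-- An invariant functional which vanishes on the Fox derivatives of the relations is zero. -/
theorem eq_zero_of_relD (hπ : Function.Surjective π)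
    {lam : (relMod (p := p) π) →ₗ[ZMod p] ZMod p} (h : lam ∈ invFun π)
    (h0 : ∀ w (hw : π w = 1), lam (relD w hw) = 0) : lam = 0 := by
  have hfd : FiniteDimensional (ZMod p) (MonoidAlgebra (ZMod p) G) :=
    (MonoidAlgebra.coeffLinearEquiv (ZMod p)).symm.finiteDimensional
  have hV : Finite (ι → MonoidAlgebra (ZMod p) G) := Module.finite_of_finite (ZMod p)
  let T : Set (ι → MonoidAlgebra (ZMod p) G) := {v | ∃ w, π w = 1 ∧ foxD (ZMod p) π w = v}
  obtain ⟨n, ⟨e⟩⟩ := Finite.exists_equiv_fin T
  let rel : Fin n → FreeGroup ι := fun j => (e.symm j).2.choose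
  have hrel : ∀ j, π (rel j) = 1 := fun j => (e.symm j).2.choose_spec.1
  have hrel' : ∀ j, foxD (ZMod p) π (rel j) = (e.symm j).1 := fun j =>
    (e.symm j).2.choose_spec.2
  refine LinearMap.ext fun x => ?_
  obtain ⟨s, hs⟩ := exists_of_bdry_eq_zero (ZMod p) π (rel := rel) hπ (fun w hw => by
    refine Submodule.subset_span ⟨e ⟨foxD (ZMod p) π w, w, hw, rfl⟩, ?_⟩
    change foxD (ZMod p) π (rel _) = _
    rw [hrel', Equiv.symm_apply_apply]) (v := x.1) (LinearMap.mem_ker.mp x.2)
  have h1 : x = ∑ j, s j • relD (rel j) (hrel j) := by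
    apply Subtype.ext
    rw [← hs]
    simp only [Submodule.coe_sum, Submodule.coe_smul]
    rfl
  rw [h1, map_sum, LinearMap.zero_apply]
  refine Finset.sum_eq_zero fun j _ => ?_
  rw [invFun_smul h, h0, mul_zero]

/-- The kernel of `R^d → R` is generated by the Fox derivatives of `dim Λ` relations. -/
theorem exists_rel (hG : IsPGroup p G) (hπ : Function.Surjective π) :
    ∃ rel : Fin (finrank (ZMod p) (invFun (p := p) π)) → FreeGroup ι, (∀ j, π (rel j) = 1) ∧
      ∀ v, bdry (ZMod p) π v = 0 ↔ ∃ s : Fin (finrank (ZMod p) (invFun (p := p) π)) →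
        MonoidAlgebra (ZMod p) G, ∑ j, s j • foxD (ZMod p) π (rel j) = v := by
  have hfd : FiniteDimensional (ZMod p) (MonoidAlgebra (ZMod p) G) :=
    (MonoidAlgebra.coeffLinearEquiv (ZMod p)).symm.finiteDimensional
  have hV : Finite (ι → MonoidAlgebra (ZMod p) G) := Module.finite_of_finite (ZMod p)
  have hK : Finite (relMod (p := p) π) := Subtype.finite
  have hfK : Module.Finite (ZMod p) (relMod (p := p) π) := Module.Finite.of_finite
  -- the evaluations
  let ev : {w : FreeGroup ι // π w = 1} → Module.Dual (ZMod p) (invFun (p := p) π) := fun w =>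
    (LinearMap.applyₗ (relD w.1 w.2)) ∘ₗ (invFun (p := p) π).subtype
  have hspan : Submodule.span (ZMod p) (Set.range ev) = ⊤ := by
    refine Submodule.span_eq_top_of_ne_zero fun lam hlam => ?_
    by_contra hcon
    push Not at hcon
    apply hlam
    apply Subtype.ext
    exact eq_zero_of_relD hπ lam.2 fun w hw => hcon (ev ⟨w, hw⟩) ⟨_, rfl⟩
  obtain ⟨f, hf, hfs, -⟩ := Submodule.exists_fun_fin_finrank_span_eq (ZMod p) (Set.range ev)
  have hcard : finrank (ZMod p) (Submodule.span (ZMod p) (Set.range ev)) =
      finrank (ZMod p) (invFun (p := p) π) := by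
    rw [hspan, finrank_top, Subspace.dual_finrank_eq]
  choose w hw using hf
  let rel : Fin (finrank (ZMod p) (invFun (p := p) π)) → FreeGroup ι := fun j =>
    (w (Fin.cast hcard.symm j)).1
  have hrel : ∀ j, π (rel j) = 1 := fun j => (w (Fin.cast hcard.symm j)).2
  refine ⟨rel, hrel, fun v => ⟨fun hv => ?_, ?_⟩⟩
  · -- generation
    let N : Submodule (MonoidAlgebra (ZMod p) G) (relMod (p := p) π) :=
      Submodule.span _ (Set.range fun j => relD (rel j) (hrel j))
    have hN : N = ⊤ := by
      by_contra hne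
      have hnt : Nontrivial ((relMod (p := p) π) ⧸ N) := Submodule.Quotient.nontrivial_iff.mpr hne
      have hfQ : Finite ((relMod (p := p) π) ⧸ N) := Quotient.finite _
      obtain ⟨lam, h0, hlam⟩ := exists_invariant_functional (M := (relMod (p := p) π) ⧸ N) hG
      let mu : (relMod (p := p) π) →ₗ[ZMod p] ZMod p := lam ∘ₗ (N.mkQ.restrictScalars (ZMod p))
      have hmu : mu ∈ invFun π := by
        intro g x
        change lam (N.mkQ (_ • x)) = lam (N.mkQ x)
        rw [map_smul, hlam]
      have hmu0 : mu = 0 := by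
        have h1 : ∀ φ : Module.Dual (ZMod p) (invFun (p := p) π), φ ⟨mu, hmu⟩ = 0 := by
          intro φ
          have h2 : φ ∈ Submodule.span (ZMod p) (Set.range f) := by
            rw [hfs, hspan]
            exact Submodule.mem_top
          induction h2 using Submodule.span_induction with
          | mem y hy =>
            obtain ⟨j, rfl⟩ := hy
            rw [← hw j]
            change lam (N.mkQ (relD (w j).1 (w j).2)) = 0
            have h3 : N.mkQ (relD (w j).1 (w j).2) = 0 := by
              refine (Submodule.Quotient.mk_eq_zero N).mpr (Submodule.subset_span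
                ⟨Fin.cast hcard j, rfl⟩)
            rw [h3, map_zero]
          | zero => rfl
          | add a b _ _ ha hb => rw [LinearMap.add_apply, ha, hb, add_zero]
          | smul c a _ ha => rw [LinearMap.smul_apply, ha, smul_zero]
        exact congrArg Subtype.val ((Module.forall_dual_apply_eq_zero_iff (ZMod p) _).mp h1)
      apply h0
      refine LinearMap.ext fun y => ?_
      obtain ⟨y, rfl⟩ := N.mkQ_surjective y
      exact LinearMap.congr_fun hmu0 y
    have h1 : (⟨v, LinearMap.mem_ker.mpr hv⟩ : relMod (p := p) π) ∈ N := hN ▸ Submodule.mem_top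
    obtain ⟨s, hs⟩ := (Submodule.mem_span_range_iff_exists_fun _).mp h1
    refine ⟨s, ?_⟩
    have h2 := congrArg Subtype.val hs
    simp only [Submodule.coe_sum, Submodule.coe_smul] at h2
    exact h2
  · rintro ⟨s, rfl⟩
    rw [map_sum]
    refine Finset.sum_eq_zero fun j _ => ?_
    rw [map_smul, bdry_foxD, hrel, map_one, sub_self, smul_zero]

/-! ### The cohomology classes -/

section Class

variable (σ : G → FreeGroup ι) (hσ : ∀ g, π (σ g) = g)

/-- the 2-cocycle with values in the kernel of `R^d → R` -/
noncomputable def cocyc (g h : G) : relMod (p := p) π :=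
  ⟨foxD (ZMod p) π (σ g) + MonoidAlgebra.of (ZMod p) G g • foxD (ZMod p) π (σ h) -
    foxD (ZMod p) π (σ (g * h)), by
      rw [LinearMap.mem_ker, map_sub, map_add, map_smul, bdry_foxD, bdry_foxD, bdry_foxD, hσ, hσ,
        hσ, map_mul, smul_eq_mul, mul_sub, mul_one]
      abel⟩

omit [Finite G] in
lemma cocyc_add (g h j : G) : cocyc (p := p) σ hσ (g * h) j + cocyc σ hσ g h =
    MonoidAlgebra.of (ZMod p) G g • cocyc σ hσ h j + cocyc σ hσ g (h * j) := by
  apply Subtype.ext
  change (foxD (ZMod p) π (σ (g * h)) +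
      MonoidAlgebra.of (ZMod p) G (g * h) • foxD (ZMod p) π (σ j) -
      foxD (ZMod p) π (σ (g * h * j))) +
    (foxD (ZMod p) π (σ g) + MonoidAlgebra.of (ZMod p) G g • foxD (ZMod p) π (σ h) -
      foxD (ZMod p) π (σ (g * h))) =
    MonoidAlgebra.of (ZMod p) G g • (foxD (ZMod p) π (σ h) +
      MonoidAlgebra.of (ZMod p) G h • foxD (ZMod p) π (σ j) - foxD (ZMod p) π (σ (h * j))) +
    (foxD (ZMod p) π (σ g) + MonoidAlgebra.of (ZMod p) G g • foxD (ZMod p) π (σ (h * j)) -
      foxD (ZMod p) π (σ (g * (h * j))))
  rw [mul_assoc g h j, map_mul, mul_smul, smul_sub, smul_add]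
  abel

/-- **Injectivity**: if the class of `lam ∘ c` is zero and every homomorphism `F → ℤ/p` vanishes on
the relations, then `lam = 0`. -/
theorem eq_zero_of_coboundary (hπ : Function.Surjective π)
    (hmin : ∀ (φ : FreeGroup ι →* Multiplicative (ZMod p)) w, π w = 1 → φ w = 1)
    {lam : (relMod (p := p) π) →ₗ[ZMod p] ZMod p} (hlam : lam ∈ invFun π) (f : G → ZMod p)
    (hf : ∀ g h, f h - f (g * h) + f g = lam (cocyc σ hσ g h)) : lam = 0 := by
  let r : FreeGroup ι → relMod (p := p) π := fun w =>
    ⟨foxD (ZMod p) π w - foxD (ZMod p) π (σ (π w)), by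
      rw [LinearMap.mem_ker, map_sub, bdry_foxD, bdry_foxD, hσ, sub_self]⟩
  have hr : ∀ u v, r (u * v) = r u + MonoidAlgebra.of (ZMod p) G (π u) • r v +
      cocyc σ hσ (π u) (π v) := by
    intro u v
    apply Subtype.ext
    change foxD (ZMod p) π (u * v) - foxD (ZMod p) π (σ (π (u * v))) =
      (foxD (ZMod p) π u - foxD (ZMod p) π (σ (π u))) +
      MonoidAlgebra.of (ZMod p) G (π u) • (foxD (ZMod p) π v - foxD (ZMod p) π (σ (π v))) +
      (foxD (ZMod p) π (σ (π u)) +
        MonoidAlgebra.of (ZMod p) G (π u) • foxD (ZMod p) π (σ (π v)) -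
        foxD (ZMod p) π (σ (π u * π v)))
    rw [isCross_foxD, map_mul, smul_sub]
    abel
  let φ : FreeGroup ι →* Multiplicative (ZMod p) :=
    MonoidHom.mk' (fun w => Multiplicative.ofAdd (lam (r w) + f (π w))) (fun u v => by
      rw [← ofAdd_add]
      refine congrArg Multiplicative.ofAdd ?_
      rw [hr, map_add, map_add, hlam, ← hf, map_mul]
      ring)
  have hφ : ∀ w, π w = 1 → lam (r w) + f 1 = 0 := by
    intro w hw
    have h1 := hmin φ w hw
    have h2 : lam (r w) + f (π w) = 0 := Multiplicative.ofAdd.injective (h1.trans ofAdd_zero.symm)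
    rwa [hw] at h2
  refine eq_zero_of_relD hπ hlam fun w hw => ?_
  have h1 := hφ w hw
  have h2 := hφ 1 (map_one π)
  have h3 : relD w hw = r w - r 1 := by
    apply Subtype.ext
    change foxD (ZMod p) π w = (foxD (ZMod p) π w - foxD (ZMod p) π (σ (π w))) -
      (foxD (ZMod p) π 1 - foxD (ZMod p) π (σ (π 1)))
    rw [hw, map_one, (isCross_foxD (ZMod p) π).one]
    abel
  rw [h3, map_sub]
  linear_combination h1 - h2

end Class

end Minimal

/-! ### The theorem -/

section Main

open groupCohomology

variable {p : ℕ} [hp : Fact p.Prime] {G : Type} [Group G] [Finite G]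

/-- the trivial representation -/
noncomputable abbrev triv (p : ℕ) [Fact p.Prime] (G : Type) [Group G] : Rep (ZMod p) G :=
  Rep.trivial (ZMod p) G (ZMod p)

/-- `H²(G, 𝔽_p)` has finite dimension. -/
theorem finite_H2 : Module.Finite (ZMod p) (H2 (triv p G)) := by
  have h1 : Module.Finite (ZMod p) (G × G → ZMod p) := inferInstance
  have h2 : Module.Finite (ZMod p) (cocycles₂ (triv p G)) :=
    inferInstanceAs (Module.Finite (ZMod p) (cocycles₂ (triv p G) : Submodule (ZMod p)
      (G × G → ZMod p)))
  refine Module.Finite.of_surjective (H2π (triv p G)).hom fun x => ?_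
  induction x using H2_induction_on with
  | h x => exact ⟨x, rfl⟩

omit [Finite G] in
/-- `dim H¹(G, 𝔽_p)` is at most the number of generators. -/
theorem finrank_H1_le {ι : Type} [Fintype ι] (π : FreeGroup ι →* G)
    (hπ : Function.Surjective π) :
    finrank (ZMod p) (H1 (triv p G)) ≤ Fintype.card ι := by
  rw [(H1IsoOfIsTrivial (triv p G)).toLinearEquiv.finrank_eq]
  let T : (Additive G →+ ZMod p) →ₗ[ZMod p] (ι → ZMod p) :=
    { toFun := fun f i => f (Additive.ofMul (π (FreeGroup.of i)))
      map_add' := fun f g => rfl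
      map_smul' := fun c f => rfl }
  have hT : Function.Injective T := by
    intro f g hfg
    refine DFunLike.ext _ _ fun x => ?_
    obtain ⟨w, hw⟩ := hπ (Additive.toMul x)
    have h1 : ∀ w, f (Additive.ofMul (π w)) = g (Additive.ofMul (π w)) := by
      intro w
      induction w using FreeGroup.induction_on with
      | C1 => rw [map_one, ofMul_one, map_zero, map_zero]
      | of i => exact congrFun hfg i
      | inv_of i ih => rw [map_inv, ofMul_inv, map_neg, map_neg, ih]
      | mul u v hu hv => rw [map_mul, ofMul_mul, map_add, map_add, hu, hv]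
    have h2 := h1 w
    rw [hw] at h2
    exact h2
  have h1 := LinearMap.finrank_le_finrank_of_injective hT
  rw [Module.finrank_pi] at h1
  exact h1

/-- **The theorem of Golod and Shafarevich**, cohomological form: for a finite `p`-group `G ≠ 1`,
`(dim H¹(G, 𝔽_p))² < 4 dim H²(G, 𝔽_p)`. -/
theorem golod_shafarevich_cohom [Nontrivial G] (hG : IsPGroup p G) :
    finrank (ZMod p) (H1 (triv p G)) ^ 2 < 4 * finrank (ZMod p) (H2 (triv p G)) := by
  obtain ⟨S, hS, hcl⟩ := Group.rank_spec G
  let π : FreeGroup S →* G := FreeGroup.lift (fun s => s.1)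
  have hπ : Function.Surjective π := by
    rw [← MonoidHom.range_eq_top, FreeGroup.range_lift_eq_closure, ← hcl]
    congr 1
    ext x
    simp
  have hcard : Fintype.card S = Group.rank G := by rw [Fintype.card_coe, hS]
  have hne : Nonempty S := by
    rw [← Fintype.card_pos_iff, hcard]
    exact Group.rank_pos G
  obtain ⟨rel, hrel, hex⟩ := exists_rel (p := p) hG hπ
  have h1 := sq_lt_of_exact (k := ZMod p) hπ hex fun j i =>
    aug_foxD_eq_zero hG π hπ hcard (hrel j) i
  -- minimality
  have hmin : ∀ (φ : FreeGroup S →* Multiplicative (ZMod p)) w, π w = 1 → φ w = 1 := by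
    classical
    intro φ w hw
    have key : ∀ u, (φ u).toAdd =
        ∑ i, aug (ZMod p) (foxD (ZMod p) π u i) * (φ (FreeGroup.of i)).toAdd := by
      intro u
      induction u using FreeGroup.induction_on with
      | C1 =>
        rw [map_one, toAdd_one, (isCross_foxD (ZMod p) π).one]
        simp
      | of i =>
        rw [foxD_of, Finset.sum_eq_single i]
        · rw [Pi.single_eq_same, map_one, one_mul]
        · intro j _ hj
          rw [Pi.single_eq_of_ne hj, map_zero, zero_mul]
        · intro h
          exact absurd (Finset.mem_univ i) h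
      | inv_of i ih =>
        rw [map_inv, toAdd_inv, ih, (isCross_foxD (ZMod p) π).inv, ← Finset.sum_neg_distrib]
        refine Finset.sum_congr rfl fun j _ => ?_
        rw [Pi.neg_apply, Pi.smul_apply, smul_eq_mul, map_neg, map_mul, aug_of, one_mul, neg_mul]
      | mul u v hu hv =>
        rw [map_mul, toAdd_mul, hu, hv, isCross_foxD, ← Finset.sum_add_distrib]
        refine Finset.sum_congr rfl fun j _ => ?_
        rw [Pi.add_apply, Pi.smul_apply, smul_eq_mul, map_add, map_mul, aug_of, one_mul, add_mul]
    have h2 := key w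
    rw [Finset.sum_eq_zero fun i _ => by
      rw [aug_foxD_eq_zero hG π hπ hcard hw i, zero_mul]] at h2
    exact toAdd_eq_zero.mp h2
  -- the classes
  choose σ hσ using hπ
  let c : invFun (p := p) π →ₗ[ZMod p] cocycles₂ (triv p G) :=
    { toFun := fun lam => ⟨fun gh => lam.1 (cocyc σ hσ gh.1 gh.2), by
        rw [mem_cocycles₂_iff]
        intro g h j
        change lam.1 (cocyc σ hσ (g * h) j) + lam.1 (cocyc σ hσ g h) =
          lam.1 (cocyc σ hσ h j) + lam.1 (cocyc σ hσ g (h * j))
        rw [← map_add, cocyc_add, map_add, lam.2]⟩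
      map_add' := fun a b => rfl
      map_smul' := fun r a => rfl }
  have hinj : Function.Injective ((H2π (triv p G)).hom ∘ₗ c) := by
    rw [← LinearMap.ker_eq_bot, LinearMap.ker_eq_bot']
    intro lam hlam
    have h2 : H2π (triv p G) (c lam) = 0 := hlam
    rw [H2π_eq_zero_iff] at h2
    obtain ⟨f, hf⟩ := h2
    apply Subtype.ext
    refine eq_zero_of_coboundary σ hσ (fun x => ⟨σ x, hσ x⟩) hmin lam.2 f fun g h => ?_
    exact congrFun hf (g, h)
  have hfin : Module.Finite (ZMod p) (H2 (triv p G)) := finite_H2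
  have h2 := LinearMap.finrank_le_finrank_of_injective hinj
  have h3 := Nat.pow_le_pow_left (finrank_H1_le (p := p) π fun x => ⟨σ x, hσ x⟩) 2
  omega

end Main

end Fermat.Agent.Cor.Golod
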