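import Mathlib.Algebra.MonoidAlgebra.Module
import Mathlib.Algebra.MonoidAlgebra.Lift
import Mathlib.GroupTheory.FreeGroup.Basic
import Mathlib.GroupTheory.Perm.Basic
import Mathlib.LinearAlgebra.Quotient.Basic
import Mathlib.LinearAlgebra.Finsupp.LinearCombination
import Mathlib.LinearAlgebra.Pi
import Mathlib.Tactic.NoncommRing

/-!
# Fox calculus

`G` a group, `π : F → G` a homomorphism of a free group, `R = k[G]`. A crossed homomorphism
`D : F → M` to an `R`-module satisfies `D (u v) = D u + π u • D v`; it is determined by its values at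
the generators, which are arbitrary (`exists_cross`, `cross_ext`).

`foxD` is the crossed homomorphism `F → Rᵈ` with `x_i ↦ e_i` (the vector of Fox derivatives),
`bdry : Rᵈ → R`, `v ↦ ∑ v_i (π x_i - 1)`; `bdry (foxD w) = π w - 1`.

`bdry_eq_zero_iff`: if `π` is surjective and `ker π` is the normal closure of `r_1, .., r_m`, then the
kernel of `bdry` is generated by the vectors `foxD r_j`: the sequence `R^m → R^d → R` is exact.
-/

set_option autoImplicit false

namespace Fermat.Agent.Cor.Golod

open MonoidAlgebra

variable {k G ι : Type*} [Field k] [Group G] (π : FreeGroup ι →* G)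
  {M : Type*} [AddCommGroup M] [Module (MonoidAlgebra k G) M]

/-- a crossed homomorphism on the free group -/
def IsCross (D : FreeGroup ι → M) : Prop :=
  ∀ u v, D (u * v) = D u + MonoidAlgebra.of k G (π u) • D v

variable {π}

lemma IsCross.one {D : FreeGroup ι → M} (h : IsCross (k := k) π D) : D 1 = 0 := by
  have h1 := h 1 1
  rw [mul_one, map_one, map_one, one_smul] at h1
  exact left_eq_add.mp h1

lemma IsCross.inv {D : FreeGroup ι → M} (h : IsCross (k := k) π D) (u : FreeGroup ι) :
    D u⁻¹ = - (MonoidAlgebra.of k G (π u⁻¹) • D u) := by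
  have h1 := h u⁻¹ u
  rw [inv_mul_cancel, h.one] at h1
  exact eq_neg_of_add_eq_zero_left h1.symm

/-- A crossed homomorphism is determined by its values at the generators. -/
theorem cross_ext {D D' : FreeGroup ι → M} (h : IsCross (k := k) π D)
    (h' : IsCross (k := k) π D') (hi : ∀ i, D (FreeGroup.of i) = D' (FreeGroup.of i))
    (w : FreeGroup ι) : D w = D' w := by
  induction w using FreeGroup.induction_on with
  | C1 => rw [h.one, h'.one]
  | of i => exact hi i
  | inv_of i ih => rw [h.inv, h'.inv, ih]
  | mul u v hu hv => rw [h, h', hu, hv]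

variable (π)

/-- the affine permutation `m ↦ g m + a` -/
noncomputable def aff (k : Type*) {G : Type*} [Field k] [Group G] {M : Type*} [AddCommGroup M]
    [Module (MonoidAlgebra k G) M] (g : G) (a : M) : Equiv.Perm M where
  toFun m := MonoidAlgebra.of k G g • m + a
  invFun m := MonoidAlgebra.of k G g⁻¹ • (m - a)
  left_inv m := by
    simp only [add_sub_cancel_right]
    rw [smul_smul, ← map_mul, inv_mul_cancel, map_one, one_smul]
  right_inv m := by
    simp only []
    rw [smul_smul, ← map_mul, mul_inv_cancel, map_one, one_smul, sub_add_cancel]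

lemma aff_apply (g : G) (a m : M) : aff k g a m = MonoidAlgebra.of k G g • m + a := rfl

lemma aff_inv_apply (g : G) (a m : M) :
    (aff k g a)⁻¹ m = MonoidAlgebra.of k G g⁻¹ • (m - a) := rfl

/-- Crossed homomorphisms with arbitrary values at the generators exist. -/
theorem exists_cross (a : ι → M) : ∃ D : FreeGroup ι → M, IsCross (k := k) π D ∧
    ∀ i, D (FreeGroup.of i) = a i := by
  let Φ : FreeGroup ι →* Equiv.Perm M :=
    FreeGroup.lift fun i => aff k (π (FreeGroup.of i)) (a i)
  have hΦ : ∀ i, Φ (FreeGroup.of i) = aff k (π (FreeGroup.of i)) (a i) := fun i =>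
    FreeGroup.lift_apply_of
  have key : ∀ w m, Φ w m = MonoidAlgebra.of k G (π w) • m + Φ w 0 := by
    intro w
    induction w using FreeGroup.induction_on with
    | C1 => intro m; rw [map_one, map_one, map_one, one_smul]; simp
    | of i =>
      intro m
      rw [hΦ, aff_apply, aff_apply, smul_zero, zero_add]
    | inv_of i ih =>
      intro m
      rw [map_inv, map_inv, hΦ, aff_inv_apply, aff_inv_apply, ← smul_add]
      congr 1
      abel
    | mul u v hu hv =>
      intro m
      rw [map_mul, Equiv.Perm.mul_apply, Equiv.Perm.mul_apply, hv m, hu, hu (Φ v 0), map_mul,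
        map_mul, mul_smul, smul_add, add_assoc]
  refine ⟨fun w => Φ w 0, fun u v => ?_, fun i => ?_⟩
  · change Φ (u * v) 0 = _
    rw [map_mul, Equiv.Perm.mul_apply, key u (Φ v 0), add_comm]
  · change Φ (FreeGroup.of i) 0 = _
    rw [hΦ, aff_apply, smul_zero, zero_add]

variable (k)

open Classical in
/-- the vector of the Fox derivatives -/
noncomputable def foxD : FreeGroup ι → (ι → MonoidAlgebra k G) :=
  (exists_cross (k := k) π (fun i => (Pi.single i 1 : ι → MonoidAlgebra k G))).choose

lemma isCross_foxD : IsCross (k := k) π (foxD k π) := by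
  classical
  have h := (exists_cross (k := k) π
    (fun i => (Pi.single i 1 : ι → MonoidAlgebra k G))).choose_spec.1
  unfold foxD
  convert h

lemma foxD_of [DecidableEq ι] (i : ι) : foxD k π (FreeGroup.of i) = Pi.single i 1 := by
  classical
  have h := (exists_cross (k := k) π
    (fun i => (Pi.single i 1 : ι → MonoidAlgebra k G))).choose_spec.2 i
  unfold foxD
  convert h

section Fintype

variable [Fintype ι]

/-- the boundary `v ↦ ∑ v_i (π x_i - 1)` -/
noncomputable def bdry : (ι → MonoidAlgebra k G) →ₗ[MonoidAlgebra k G] MonoidAlgebra k G where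
  toFun v := ∑ i, v i * (MonoidAlgebra.of k G (π (FreeGroup.of i)) - 1)
  map_add' v w := by
    simp only [Pi.add_apply, add_mul, Finset.sum_add_distrib]
  map_smul' c v := by
    simp only [Pi.smul_apply, smul_eq_mul, Finset.mul_sum, mul_assoc, RingHom.id_apply]

lemma bdry_apply (v : ι → MonoidAlgebra k G) :
    bdry k π v = ∑ i, v i * (MonoidAlgebra.of k G (π (FreeGroup.of i)) - 1) := rfl

/-- **The fundamental formula** of the Fox calculus: `∑ (∂w/∂x_i) (x_i - 1) = w - 1`. -/
theorem bdry_foxD (w : FreeGroup ι) : bdry k π (foxD k π w) = MonoidAlgebra.of k G (π w) - 1 := by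
  classical
  refine cross_ext (π := π) (k := k) (D := fun w => bdry k π (foxD k π w))
    (D' := fun w => MonoidAlgebra.of k G (π w) - 1) (fun u v => ?_) (fun u v => ?_) (fun i => ?_) w
  · beta_reduce
    rw [isCross_foxD, map_add, map_smul]
  · change MonoidAlgebra.of k G (π (u * v)) - 1 = (MonoidAlgebra.of k G (π u) - 1) +
      MonoidAlgebra.of k G (π u) • (MonoidAlgebra.of k G (π v) - 1)
    rw [map_mul, map_mul, smul_eq_mul, mul_sub, mul_one]
    abel
  · rw [foxD_of, bdry_apply, Finset.sum_eq_single i]
    · rw [Pi.single_eq_same, one_mul]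
    · intro j _ hj
      rw [Pi.single_eq_of_ne hj, zero_mul]
    · intro h
      exact absurd (Finset.mem_univ i) h

variable {m : ℕ} {rel : Fin m → FreeGroup ι}

/-- Exactness of `R^m → R^d → R` if the homomorphism `F → Rᵈ/⟨D r_j⟩` vanishes on `ker π`. -/
theorem exists_of_bdry_eq_zero (hπ : Function.Surjective π)
    (h0 : ∀ w, π w = 1 → foxD k π w ∈ Submodule.span (MonoidAlgebra k G)
      (Set.range fun j => foxD k π (rel j))) {v : ι → MonoidAlgebra k G} (hv : bdry k π v = 0) :
    ∃ s : Fin m → MonoidAlgebra k G, ∑ j, s j • foxD k π (rel j) = v := by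
  classical
  rw [← Submodule.mem_span_range_iff_exists_fun]
  set N := Submodule.span (MonoidAlgebra k G) (Set.range fun j => foxD k π (rel j)) with hN
  let D : FreeGroup ι → ((ι → MonoidAlgebra k G) ⧸ N) := fun w => N.mkQ (foxD k π w)
  have hD : IsCross (k := k) π D := fun u v => by
    simp only [D]
    rw [isCross_foxD, map_add, map_smul]
  have hD0 : ∀ w, π w = 1 → D w = 0 := fun w hw => (Submodule.Quotient.mk_eq_zero N).mpr (h0 w hw)
  -- the crossed homomorphism on `G`
  choose s hs using hπ
  let δ : G → ((ι → MonoidAlgebra k G) ⧸ N) := fun g => D (s g)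
  have hδ : ∀ w, D w = δ (π w) := by
    intro w
    have h1 : D (w * (s (π w))⁻¹) = 0 := hD0 _ (by rw [map_mul, map_inv, hs, mul_inv_cancel])
    have h2 : D (w * (s (π w))⁻¹ * s (π w)) = D (s (π w)) := by
      rw [hD, h1, zero_add, map_mul, map_inv, hs, mul_inv_cancel, map_one, one_smul]
    rwa [inv_mul_cancel_right] at h2
  have hδm : ∀ g h, δ (g * h) = δ g + MonoidAlgebra.of k G g • δ h := by
    intro g h
    have h1 := hD (s g) (s h)
    rw [hδ, map_mul, hs, hs] at h1
    exact h1
  let Λ : MonoidAlgebra k G →ₗ[k] ((ι → MonoidAlgebra k G) ⧸ N) :=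
    (Finsupp.linearCombination k δ) ∘ₗ (MonoidAlgebra.coeffLinearEquiv k).toLinearMap
  have hΛ : ∀ g, Λ (MonoidAlgebra.of k G g) = δ g := by
    intro g
    change Finsupp.linearCombination k δ (MonoidAlgebra.of k G g).coeff = δ g
    rw [MonoidAlgebra.of_apply, MonoidAlgebra.coeff_single, Finsupp.linearCombination_single,
      one_smul]
  have hΛm : ∀ (r : MonoidAlgebra k G) (g : G), Λ (r * (MonoidAlgebra.of k G g - 1)) = r • δ g := by
    intro r g
    induction r using MonoidAlgebra.induction_on with
    | of u =>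
      rw [mul_sub, mul_one, ← map_mul, map_sub, hΛ, hΛ, hδm, add_sub_cancel_left]
    | add x y hx hy => rw [add_mul, map_add, hx, hy, add_smul]
    | smul c x hx => rw [smul_mul_assoc, map_smul, hx, smul_assoc]
  have h1 : Λ (bdry k π v) = N.mkQ v := by
    rw [bdry_apply, map_sum]
    have h2 : ∀ i, Λ (v i * (MonoidAlgebra.of k G (π (FreeGroup.of i)) - 1)) =
        N.mkQ (v i • (Pi.single i 1 : ι → MonoidAlgebra k G)) := by
      intro i
      rw [hΛm, ← hδ, map_smul]
      simp only [D]
      rw [foxD_of]
    rw [Finset.sum_congr rfl fun i _ => h2 i, ← map_sum]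
    congr 1
    ext1 j
    rw [Finset.sum_apply, Finset.sum_eq_single j]
    · rw [Pi.smul_apply, Pi.single_eq_same, smul_eq_mul, mul_one]
    · intro i _ hi
      rw [Pi.smul_apply, Pi.single_eq_of_ne hi.symm, smul_zero]
    · intro h
      exact absurd (Finset.mem_univ j) h
  rw [hv, map_zero] at h1
  exact (Submodule.Quotient.mk_eq_zero N).mp h1.symm

omit [Fintype ι] in
/-- A crossed homomorphism which vanishes on relations vanishes on their normal closure. -/
theorem cross_eq_zero {D : FreeGroup ι → M} (hD : IsCross (k := k) π D)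
    (hrel : ∀ j, π (rel j) = 1) (hDrel : ∀ j, D (rel j) = 0) {w : FreeGroup ι}
    (hw : w ∈ Subgroup.normalClosure (Set.range rel)) : D w = 0 := by
  let S : Subgroup (FreeGroup ι) :=
    { carrier := {w | π w = 1 ∧ D w = 0}
      one_mem' := ⟨map_one π, hD.one⟩
      mul_mem' := by
        rintro a b ⟨ha, ha'⟩ ⟨hb, hb'⟩
        refine ⟨by rw [map_mul, ha, hb, one_mul], ?_⟩
        rw [hD, ha', hb', smul_zero, add_zero]
      inv_mem' := by
        rintro a ⟨ha, ha'⟩
        refine ⟨by rw [map_inv, ha, inv_one], ?_⟩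
        rw [hD.inv, ha', smul_zero, neg_zero] }
  have hS : S.Normal := ⟨by
    rintro a ⟨ha, ha'⟩ u
    refine ⟨by rw [map_mul, map_mul, ha, mul_one, map_inv, mul_inv_cancel], ?_⟩
    have h1 : D (u * u⁻¹) = 0 := by rw [mul_inv_cancel, hD.one]
    rw [hD] at h1
    rw [hD, hD, ha', smul_zero, add_zero, map_mul, ha, mul_one, h1]⟩
  have h1 : Subgroup.normalClosure (Set.range rel) ≤ S := by
    refine Subgroup.normalClosure_le_normal ?_
    rintro _ ⟨j, rfl⟩
    exact ⟨hrel j, hDrel j⟩
  exact (h1 hw).2

/-- **Exactness of `R^m → R^d → R`**: the relation module is generated by the Fox derivatives of the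
defining relations. -/
theorem bdry_eq_zero_iff (hπ : Function.Surjective π)
    (hker : π.ker = Subgroup.normalClosure (Set.range rel)) (v : ι → MonoidAlgebra k G) :
    bdry k π v = 0 ↔ ∃ s : Fin m → MonoidAlgebra k G, ∑ j, s j • foxD k π (rel j) = v := by
  have hrel : ∀ j, π (rel j) = 1 := fun j => by
    have : rel j ∈ π.ker := hker ▸ Subgroup.subset_normalClosure ⟨j, rfl⟩
    exact this
  constructor
  · refine exists_of_bdry_eq_zero k π hπ fun w hw => ?_
    set N := Submodule.span (MonoidAlgebra k G) (Set.range fun j => foxD k π (rel j)) with hN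
    refine (Submodule.Quotient.mk_eq_zero N).mp ?_
    refine cross_eq_zero k π (D := fun w => N.mkQ (foxD k π w)) (fun u v => ?_) hrel (fun j => ?_)
      (hker ▸ (show w ∈ π.ker from hw))
    · change N.mkQ (foxD k π (u * v)) =
        N.mkQ (foxD k π u) + MonoidAlgebra.of k G (π u) • N.mkQ (foxD k π v)
      rw [isCross_foxD, map_add, map_smul]
    · exact (Submodule.Quotient.mk_eq_zero N).mpr (Submodule.subset_span ⟨j, rfl⟩)
  · rintro ⟨s, rfl⟩
    rw [map_sum]
    refine Finset.sum_eq_zero fun j _ => ?_
    rw [map_smul, bdry_foxD, hrel, map_one, sub_self, smul_zero]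

end Fintype

end Fermat.Agent.Cor.Golod
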