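import Mathlib

/-!
# The theorem of Golod and Shafarevich for algebras

Let `k` be a field, `α` an alphabet with `d` letters and `T = k⟨α⟩ = MonoidAlgebra k (FreeMonoid α)`
the free algebra. For finitely many homogeneous relations in every degree, `r_i` in degree `i ≥ 1`,
let `b_n` be the dimension of the homogeneous part of degree `n` of the quotient. Then
`d b_n ≤ b_(n + 1) + ∑_(i ≤ n) r_(n + 1 - i) b_i` (`golod_shafarevich_inequality`), and the quotient
is infinite-dimensional as soon as `1 - d τ + ∑ r_i τ ^ i ≤ 0` for some `τ > 0`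
(`golod_shafarevich`); for example for `m ≤ d ^ 2 / 4` relations of degree at least two
(`not_finite_of_relations`), and for at most `((d - 1) / 2) ^ 2` relations in every degree at least
two (`not_finite_of_card_le`).
-/

namespace Fermat.Agent.Cor.Golod.Gen

open MonoidAlgebra Module

noncomputable section

section Dim

variable {k V : Type*} [Field k] [AddCommGroup V] [Module k V]

theorem finrank_sup_le {ι : Type*} (s : Finset ι) (f : ι → Submodule k V)
    (hf : ∀ i ∈ s, FiniteDimensional k (f i)) :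
    FiniteDimensional k (s.sup f : Submodule k V) ∧
      finrank k (s.sup f : Submodule k V) ≤ ∑ i ∈ s, finrank k (f i) := by
  classical
  induction s using Finset.induction_on with
  | empty =>
    rw [Finset.sup_empty]
    exact ⟨inferInstance, by simp⟩
  | insert a s ha ih =>
    obtain ⟨h1, h2⟩ := ih fun i hi => hf i (Finset.mem_insert_of_mem hi)
    have h3 := hf a (Finset.mem_insert_self a s)
    rw [Finset.sup_insert, Finset.sum_insert ha]
    refine ⟨inferInstance, ?_⟩
    exact (Submodule.finrank_add_le_finrank_add_finrank _ _).trans (by omega)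

theorem mem_sup_of {ι : Type*} {s : Finset ι} {f : ι → Submodule k V} {i : ι} (hi : i ∈ s)
    {x : V} (hx : x ∈ f i) : x ∈ s.sup f :=
  Finset.le_sup (f := f) hi hx

end Dim

variable (k : Type*) [Field k] (α : Type*)

/-- The homogeneous elements of degree `n` of the free algebra `k⟨α⟩`: the linear combinations of
the words of length `n`. -/
def deg (n : ℕ) : Submodule k (MonoidAlgebra k (FreeMonoid α)) :=
  MonoidAlgebra.supported k k {w : FreeMonoid α | w.length = n}

variable {k α}

/-- The two-sided ideal generated by a set `S`, as a submodule: it is spanned by the elements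
`u f v`, where `u` and `v` are words and `f` is in `S`. -/
def rel (S : Set (MonoidAlgebra k (FreeMonoid α))) :
    Submodule k (MonoidAlgebra k (FreeMonoid α)) :=
  Submodule.span k {x | ∃ u v : FreeMonoid α, ∃ f ∈ S, x = single u 1 * f * single v 1}

/-- The homogeneous part of degree `n` of the ideal generated by the homogeneous relators, `R i`
in degree `i`. -/
def J (R : ℕ → Finset (MonoidAlgebra k (FreeMonoid α))) (n : ℕ) :
    Submodule k (MonoidAlgebra k (FreeMonoid α)) :=
  Submodule.span k {x | ∃ u v : FreeMonoid α, ∃ i, u.length + i + v.length = n ∧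
    ∃ f ∈ R i, x = single u 1 * f * single v 1}

/-- `b_n`, the dimension of the homogeneous part of degree `n` of the quotient. -/
def hilb (R : ℕ → Finset (MonoidAlgebra k (FreeMonoid α))) (n : ℕ) : ℕ :=
  finrank k (deg k α n ⧸ (J R n).submoduleOf (deg k α n))

theorem single_mem_deg (w : FreeMonoid α) (c : k) : single w c ∈ deg k α w.length := by
  classical
  rw [deg, MonoidAlgebra.mem_supported']
  intro m hm
  rw [coeff_single, Finsupp.single_apply, if_neg]
  rintro rfl
  exact hm rfl

theorem deg_eq_span (n : ℕ) : deg k α n =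
    Submodule.span k ((fun w : FreeMonoid α => single w (1 : k)) '' {w | w.length = n}) :=
  MonoidAlgebra.supported_eq_span_single _ _

theorem mul_mem_deg {m n : ℕ} {x y : MonoidAlgebra k (FreeMonoid α)} (hx : x ∈ deg k α m)
    (hy : y ∈ deg k α n) : x * y ∈ deg k α (m + n) := by
  have h : deg k α m * deg k α n ≤ deg k α (m + n) := by
    rw [deg_eq_span, deg_eq_span, Submodule.span_mul_span, Submodule.span_le]
    rintro _ ⟨_, ⟨u, hu, rfl⟩, _, ⟨v, hv, rfl⟩, rfl⟩
    simp only [single_mul_single, mul_one, SetLike.mem_coe]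
    have := single_mem_deg (k := k) (u * v) 1
    rwa [FreeMonoid.length_mul, show u.length = m from hu, show v.length = n from hv] at this
  exact h (Submodule.mul_mem_mul hx hy)

theorem finrank_deg [Fintype α] (n : ℕ) :
    FiniteDimensional k (deg k α n) ∧ finrank k (deg k α n) = Fintype.card α ^ n := by
  have e : {w : FreeMonoid α | w.length = n} ≃ List.Vector α n :=
    { toFun := fun w => ⟨FreeMonoid.toList w.1, w.2⟩
      invFun := fun v => ⟨FreeMonoid.ofList v.1, v.2⟩
      left_inv := fun _ => rfl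
      right_inv := fun _ => rfl }
  have : Fintype {w : FreeMonoid α | w.length = n} := Fintype.ofEquiv _ e.symm
  have e2 : deg k α n ≃ₗ[k] ({w : FreeMonoid α | w.length = n} →₀ k) :=
    MonoidAlgebra.supportedEquivFinsupp _
  refine ⟨Module.Finite.equiv e2.symm, ?_⟩
  rw [e2.finrank_eq, finrank_finsupp_self, Fintype.card_congr e, card_vector]

theorem exists_last (v : FreeMonoid α) :
    v = 1 ∨ ∃ (v' : FreeMonoid α) (a : α), v = v' * FreeMonoid.of a := by
  rcases List.eq_nil_or_concat (FreeMonoid.toList v) with h | ⟨L, b, h⟩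
  · exact Or.inl (FreeMonoid.toList.injective h)
  · exact Or.inr ⟨FreeMonoid.ofList L, b, FreeMonoid.toList.injective (by simpa using h)⟩

section Relators

variable {R : ℕ → Finset (MonoidAlgebra k (FreeMonoid α))}

theorem J_le_deg (hR : ∀ n, ∀ f ∈ R n, f ∈ deg k α n) (n : ℕ) : J R n ≤ deg k α n := by
  rw [J, Submodule.span_le]
  rintro _ ⟨u, v, i, hi, f, hf, rfl⟩
  rw [← hi]
  exact mul_mem_deg (mul_mem_deg (single_mem_deg u 1) (hR i f hf)) (single_mem_deg v 1)

theorem J_mul_single {n : ℕ} {x : MonoidAlgebra k (FreeMonoid α)} (hx : x ∈ J R n)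
    (w : FreeMonoid α) : x * single w 1 ∈ J R (n + w.length) := by
  rw [J] at hx
  induction hx using Submodule.span_induction with
  | mem x hx =>
    obtain ⟨u, v, i, hi, f, hf, rfl⟩ := hx
    refine Submodule.subset_span ⟨u, v * w, i, by rw [FreeMonoid.length_mul]; omega, f, hf, ?_⟩
    rw [mul_assoc (single u 1 * f), single_mul_single, mul_one]
  | zero => rw [zero_mul]; exact Submodule.zero_mem _
  | add x y _ _ hx hy => rw [add_mul]; exact Submodule.add_mem _ hx hy
  | smul a x _ hx => rw [smul_mul_assoc]; exact Submodule.smul_mem _ _ hx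

theorem J_succ_le (hR0 : R 0 = ∅) (hR : ∀ n, ∀ f ∈ R n, f ∈ deg k α n) [Fintype α]
    (B : ℕ → Submodule k (MonoidAlgebra k (FreeMonoid α)))
    (hB : ∀ n, deg k α n ≤ B n ⊔ J R n) (n : ℕ) :
    J R (n + 1) ≤ (Finset.univ.sup fun a : α =>
      (J R n).map (LinearMap.mulRight k (single (FreeMonoid.of a) 1))) ⊔
      ((Finset.range (n + 1)).sigma fun i => R (n + 1 - i)).sup fun q =>
        (B q.1).map (LinearMap.mulRight k q.2) := by
  classical
  have hPa : ∀ (a : α) (x : MonoidAlgebra k (FreeMonoid α)), x ∈ J R n →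
      x * single (FreeMonoid.of a) 1 ∈ Finset.univ.sup fun a : α =>
        (J R n).map (LinearMap.mulRight k (single (FreeMonoid.of a) (1 : k))) := by
    intro a x hx
    exact mem_sup_of (Finset.mem_univ a) (Submodule.mem_map_of_mem hx)
  have hQa : ∀ (i : ℕ) (f b : MonoidAlgebra k (FreeMonoid α)), i < n + 1 →
      f ∈ R (n + 1 - i) → b ∈ B i →
      b * f ∈ ((Finset.range (n + 1)).sigma fun i => R (n + 1 - i)).sup fun q =>
        (B q.1).map (LinearMap.mulRight k q.2) := by
    intro i f b hi hf hb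
    have h1 : (⟨i, f⟩ : Σ _ : ℕ, MonoidAlgebra k (FreeMonoid α)) ∈
        (Finset.range (n + 1)).sigma fun i => R (n + 1 - i) :=
      Finset.mem_sigma.mpr ⟨Finset.mem_range.mpr hi, hf⟩
    have h2 : b * f ∈ (B i).map (LinearMap.mulRight k f) := Submodule.mem_map_of_mem hb
    exact mem_sup_of h1 h2
  generalize (Finset.univ.sup fun a : α =>
      (J R n).map (LinearMap.mulRight k (single (FreeMonoid.of a) (1 : k)))) = P at hPa ⊢
  generalize (((Finset.range (n + 1)).sigma fun i => R (n + 1 - i)).sup fun q =>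
        (B q.1).map (LinearMap.mulRight k q.2)) = Q at hQa ⊢
  rw [J, Submodule.span_le]
  rintro _ ⟨u, v, i, hi, f, hf, rfl⟩
  rcases exists_last v with rfl | ⟨v', a, rfl⟩
  · have hi0 : i ≠ 0 := by
      rintro rfl
      rw [hR0] at hf
      exact absurd hf (Finset.notMem_empty _)
    obtain ⟨i', rfl⟩ := Nat.exists_eq_succ_of_ne_zero hi0
    rw [FreeMonoid.length_one] at hi
    have hu : single u (1 : k) ∈ B u.length ⊔ J R u.length := hB _ (single_mem_deg u 1)
    obtain ⟨b, hb, j, hj, hbj⟩ := Submodule.mem_sup.mp hu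
    rw [← MonoidAlgebra.one_def, mul_one, ← hbj, add_mul, SetLike.mem_coe, add_comm]
    refine Submodule.add_mem_sup ?_ ?_
    · have hfd := hR _ f hf
      have key : ∀ y ∈ deg k α (i' + 1), j * y ∈ P := by
        intro y hy
        rw [deg_eq_span] at hy
        induction hy using Submodule.span_induction with
        | mem y hy =>
          obtain ⟨w, hw, rfl⟩ := hy
          rcases exists_last w with rfl | ⟨w', a, rfl⟩
          · exact absurd hw (by simp)
          · have hw' : w'.length = i' := by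
              have : (w' * FreeMonoid.of a).length = i' + 1 := hw
              rw [FreeMonoid.length_mul, FreeMonoid.length_of] at this
              omega
            have h1 : single (w' * FreeMonoid.of a) (1 : k) =
                single w' 1 * single (FreeMonoid.of a) 1 := by
              rw [single_mul_single, mul_one]
            show j * single (w' * FreeMonoid.of a) (1 : k) ∈ P
            rw [h1, ← mul_assoc]
            apply hPa
            have h2 := J_mul_single hj w'
            rwa [hw', show u.length + i' = n by omega] at h2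
        | zero => rw [mul_zero]; exact Submodule.zero_mem _
        | add x y _ _ hx hy => rw [mul_add]; exact Submodule.add_mem _ hx hy
        | smul a x _ hx => rw [mul_smul_comm]; exact Submodule.smul_mem _ _ hx
      exact key f hfd
    · refine hQa u.length f b (by omega) ?_ hb
      rwa [show n + 1 - u.length = i'.succ by omega]
  · refine Submodule.mem_sup_left ?_
    have h1 : single u 1 * f * single (v' * FreeMonoid.of a) 1 =
        single u 1 * f * single v' 1 * single (FreeMonoid.of a) (1 : k) := by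
      rw [mul_assoc _ (single v' 1), single_mul_single, mul_one]
    rw [h1]
    apply hPa
    rw [FreeMonoid.length_mul, FreeMonoid.length_of] at hi
    exact Submodule.subset_span ⟨u, v', i, by omega, f, hf, rfl⟩

variable [Fintype α]

theorem hilb_add (hR : ∀ n, ∀ f ∈ R n, f ∈ deg k α n) (n : ℕ) :
    hilb R n + finrank k (J R n) = Fintype.card α ^ n := by
  have := (finrank_deg (k := k) (α := α) n).1
  rw [← (finrank_deg (k := k) (α := α) n).2,
    ← (Submodule.submoduleOfEquivOfLe (J_le_deg hR n)).finrank_eq, hilb]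
  exact Submodule.finrank_quotient_add_finrank _

theorem finite_J (hR : ∀ n, ∀ f ∈ R n, f ∈ deg k α n) (n : ℕ) :
    FiniteDimensional k (J R n) := by
  have := (finrank_deg (k := k) (α := α) n).1
  exact Submodule.finiteDimensional_of_le (J_le_deg hR n)

theorem exists_compl (n : ℕ) :
    ∃ B : Submodule k (MonoidAlgebra k (FreeMonoid α)), FiniteDimensional k B ∧
      finrank k B ≤ hilb R n ∧ deg k α n ≤ B ⊔ J R n := by
  have := (finrank_deg (k := k) (α := α) n).1
  obtain ⟨q, hq⟩ := Submodule.exists_isCompl ((J R n).submoduleOf (deg k α n))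
  refine ⟨q.map (deg k α n).subtype, inferInstance, ?_, ?_⟩
  · rw [hilb, (Submodule.quotientEquivOfIsCompl _ _ hq).finrank_eq]
    exact Submodule.finrank_map_le _ _
  · intro x hx
    have h1 : (⟨x, hx⟩ : deg k α n) ∈ (J R n).submoduleOf (deg k α n) ⊔ q := by
      rw [hq.sup_eq_top]; trivial
    obtain ⟨y, hy, z, hz, h⟩ := Submodule.mem_sup.mp h1
    have h2 : (z : MonoidAlgebra k (FreeMonoid α)) + y = x := by
      rw [add_comm]
      exact congrArg Subtype.val h
    rw [← h2]
    exact Submodule.add_mem_sup ⟨z, hz, rfl⟩ hy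

/-- **The Golod - Shafarevich inequality**: the algebra with `d` generators and with `r_i`
homogeneous relations of degree `i ≥ 1` has Hilbert function `b` with
`d b_n ≤ b_(n + 1) + ∑_(i ≤ n) r_(n + 1 - i) b_i`. -/
theorem golod_shafarevich_inequality (hR0 : R 0 = ∅) (hR : ∀ n, ∀ f ∈ R n, f ∈ deg k α n)
    (n : ℕ) : Fintype.card α * hilb R n ≤
      hilb R (n + 1) + ∑ i ∈ Finset.range (n + 1), (R (n + 1 - i)).card * hilb R i := by
  choose B hB1 hB2 hB3 using exists_compl (k := k) (α := α) (R := R)
  have hfin := finite_J hR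
  have h1 := J_succ_le hR0 hR B hB3 n
  obtain ⟨h2, h3⟩ := finrank_sup_le (Finset.univ : Finset α) (fun a : α =>
    (J R n).map (LinearMap.mulRight k (single (FreeMonoid.of a) (1 : k))))
    (fun a _ => inferInstance)
  obtain ⟨h4, h5⟩ := finrank_sup_le
    ((Finset.range (n + 1)).sigma fun i => R (n + 1 - i))
    (fun q => (B q.1).map (LinearMap.mulRight k q.2)) (fun q _ => inferInstance)
  have h6 := Submodule.finrank_mono h1
  have h7 := h6.trans (Submodule.finrank_add_le_finrank_add_finrank _ _)
  have h8 : ∑ a : α, finrank k ((J R n).map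
      (LinearMap.mulRight k (single (FreeMonoid.of a) (1 : k)))) ≤
      Fintype.card α * finrank k (J R n) := by
    refine (Finset.sum_le_card_nsmul _ _ (finrank k (J R n))
      fun a _ => Submodule.finrank_map_le _ _).trans ?_
    rw [smul_eq_mul, Finset.card_univ]
  have h9 : ∑ q ∈ (Finset.range (n + 1)).sigma fun i => R (n + 1 - i),
      finrank k ((B q.1).map (LinearMap.mulRight k q.2)) ≤
      ∑ i ∈ Finset.range (n + 1), (R (n + 1 - i)).card * hilb R i := by
    rw [Finset.sum_sigma]
    refine Finset.sum_le_sum fun i _ => ?_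
    refine (Finset.sum_le_card_nsmul _ _ (hilb R i)
      fun f _ => (Submodule.finrank_map_le _ _).trans (hB2 i)).trans ?_
    rw [smul_eq_mul]
  have h10 := hilb_add hR n
  have h11 := hilb_add hR (n + 1)
  have h12 : Fintype.card α * hilb R n + Fintype.card α * finrank k (J R n) =
      Fintype.card α ^ (n + 1) := by
    rw [← mul_add, h10, pow_succ, mul_comm]
  omega

omit [Fintype α] in
theorem J_zero (hR0 : R 0 = ∅) : J R 0 = ⊥ := by
  rw [J, Submodule.span_eq_bot]
  rintro _ ⟨u, v, i, hi, f, hf, rfl⟩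
  obtain rfl : i = 0 := by omega
  rw [hR0] at hf
  exact absurd hf (Finset.notMem_empty _)

theorem hilb_zero (hR0 : R 0 = ∅) (hR : ∀ n, ∀ f ∈ R n, f ∈ deg k α n) : hilb R 0 = 1 := by
  have := hilb_add hR 0
  rwa [J_zero hR0, finrank_bot, add_zero, pow_zero] at this

theorem hilb_eq_zero_iff (hR : ∀ n, ∀ f ∈ R n, f ∈ deg k α n) (n : ℕ) :
    hilb R n = 0 ↔ ∀ w : FreeMonoid α, w.length = n → single w (1 : k) ∈ J R n := by
  have := (finrank_deg (k := k) (α := α) n).1
  have h1 := hilb_add hR n
  have h2 := (finrank_deg (k := k) (α := α) n).2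
  constructor
  · intro h w hw
    rw [h, zero_add, ← h2] at h1
    rw [Submodule.eq_of_le_of_finrank_eq (J_le_deg hR n) h1, ← hw]
    exact single_mem_deg w 1
  · intro h
    have h3 : deg k α n ≤ J R n := by
      rw [deg_eq_span, Submodule.span_le]
      rintro _ ⟨w, hw, rfl⟩
      exact h w hw
    rw [le_antisymm (J_le_deg hR n) h3, h2] at h1
    omega

theorem hilb_succ_eq_zero (hR : ∀ n, ∀ f ∈ R n, f ∈ deg k α n) {n : ℕ} (h : hilb R n = 0) :
    hilb R (n + 1) = 0 := by
  rw [hilb_eq_zero_iff hR] at h ⊢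
  intro w hw
  rcases exists_last w with rfl | ⟨w', a, rfl⟩
  · simp at hw
  · rw [FreeMonoid.length_mul, FreeMonoid.length_of] at hw
    have h1 := J_mul_single (h w' (by omega)) (FreeMonoid.of a)
    rwa [single_mul_single, mul_one, FreeMonoid.length_of] at h1

theorem sum_hilb_ge (hR0 : R 0 = ∅) (hR : ∀ n, ∀ f ∈ R n, f ∈ deg k α n) {τ : ℝ} (hτ : 0 < τ)
    (hs : Summable fun n => ((R n).card : ℝ) * τ ^ n)
    (hf : 1 - Fintype.card α * τ + ∑' n, ((R n).card : ℝ) * τ ^ n ≤ 0) (N : ℕ) :
    (N : ℝ) + 1 ≤ ∑ n ∈ Finset.range (N + 1), (hilb R n : ℝ) * τ ^ n := by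
  induction N with
  | zero => simp [hilb_zero hR0 hR]
  | succ N ih =>
    set A : ℝ := ∑ n ∈ Finset.range (N + 1), (hilb R n : ℝ) * τ ^ n with hA
    set H : ℝ := ∑' n, ((R n).card : ℝ) * τ ^ n with hH
    have hpos : ∀ n, 0 ≤ ((R n).card : ℝ) * τ ^ n := fun n => by positivity
    have h1 : ∀ n : ℕ, (Fintype.card α : ℝ) * τ * ((hilb R n : ℝ) * τ ^ n) ≤
        (hilb R (n + 1) : ℝ) * τ ^ (n + 1) + ∑ i ∈ Finset.range (n + 1),
          (((R (n + 1 - i)).card : ℝ) * τ ^ (n + 1 - i)) * ((hilb R i : ℝ) * τ ^ i) := by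
      intro n
      have h2 := golod_shafarevich_inequality hR0 hR n
      have h3 : (Fintype.card α : ℝ) * hilb R n ≤ hilb R (n + 1) +
          ∑ i ∈ Finset.range (n + 1), ((R (n + 1 - i)).card : ℝ) * hilb R i := by
        exact_mod_cast h2
      have h4 := mul_le_mul_of_nonneg_right h3 (pow_pos hτ (n + 1)).le
      rw [add_mul, Finset.sum_mul] at h4
      have h5 : ∑ i ∈ Finset.range (n + 1), ((R (n + 1 - i)).card : ℝ) * hilb R i * τ ^ (n + 1) =
          ∑ i ∈ Finset.range (n + 1),
          (((R (n + 1 - i)).card : ℝ) * τ ^ (n + 1 - i)) * ((hilb R i : ℝ) * τ ^ i) := by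
        refine Finset.sum_congr rfl fun i hi => ?_
        have hi' := Finset.mem_range.mp hi
        have h6 : τ ^ (n + 1) = τ ^ (n + 1 - i) * τ ^ i := by
          rw [← pow_add]
          congr 1
          omega
        rw [h6]
        ring
      rw [h5] at h4
      refine le_trans (le_of_eq ?_) h4
      ring
    have h2 := Finset.sum_le_sum fun n (_ : n ∈ Finset.range (N + 1)) => h1 n
    rw [← Finset.mul_sum, Finset.sum_add_distrib] at h2
    have h3 : ∑ n ∈ Finset.range (N + 1), ∑ i ∈ Finset.range (n + 1),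
        (((R (n + 1 - i)).card : ℝ) * τ ^ (n + 1 - i)) * ((hilb R i : ℝ) * τ ^ i) ≤ H * A := by
      rw [Finset.sum_comm' (t' := Finset.range (N + 1)) (s' := fun i => Finset.Ico i (N + 1))
        (by intro x y; simp only [Finset.mem_range, Finset.mem_Ico]; omega), hA, Finset.mul_sum]
      refine Finset.sum_le_sum fun i _ => ?_
      rw [← Finset.sum_mul]
      refine mul_le_mul_of_nonneg_right ?_ (by positivity)
      have h4 : ∑ n ∈ Finset.Ico i (N + 1), ((R (n + 1 - i)).card : ℝ) * τ ^ (n + 1 - i) =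
          ∑ j ∈ (Finset.Ico i (N + 1)).image fun n => n + 1 - i, ((R j).card : ℝ) * τ ^ j := by
        rw [Finset.sum_image]
        intro a ha b hb hab
        have ha' := Finset.mem_Ico.mp (Finset.mem_coe.mp ha)
        have hb' := Finset.mem_Ico.mp (Finset.mem_coe.mp hb)
        have hab' : a + 1 - i = b + 1 - i := hab
        omega
      rw [h4]
      exact hs.sum_le_tsum _ fun n _ => hpos n
    have h4 : ∑ n ∈ Finset.range (N + 1 + 1), (hilb R n : ℝ) * τ ^ n =
        (∑ n ∈ Finset.range (N + 1), (hilb R (n + 1) : ℝ) * τ ^ (n + 1)) + 1 := by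
      rw [Finset.sum_range_succ', hilb_zero hR0 hR]
      simp
    have hA0 : 0 ≤ A := Finset.sum_nonneg fun n _ => by positivity
    have h5 : 1 * A ≤ ((Fintype.card α : ℝ) * τ - H) * A :=
      mul_le_mul_of_nonneg_right (by linarith) hA0
    rw [h4]
    push_cast
    linarith

theorem hilb_ne_zero (hR0 : R 0 = ∅) (hR : ∀ n, ∀ f ∈ R n, f ∈ deg k α n) {τ : ℝ} (hτ : 0 < τ)
    (hs : Summable fun n => ((R n).card : ℝ) * τ ^ n)
    (hf : 1 - Fintype.card α * τ + ∑' n, ((R n).card : ℝ) * τ ^ n ≤ 0) (n : ℕ) :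
    hilb R n ≠ 0 := by
  intro h0
  have h1 : ∀ m, n ≤ m → hilb R m = 0 :=
    Nat.le_induction h0 fun m _ h => hilb_succ_eq_zero hR h
  have h2 : ∀ N, n ≤ N → ∑ m ∈ Finset.range (N + 1), (hilb R m : ℝ) * τ ^ m =
      ∑ m ∈ Finset.range (n + 1), (hilb R m : ℝ) * τ ^ m := by
    refine Nat.le_induction rfl ?_
    intro N hN ih
    rw [Finset.sum_range_succ, ih, h1 (N + 1) (by omega)]
    simp
  obtain ⟨M, hM⟩ := exists_nat_gt (∑ m ∈ Finset.range (n + 1), (hilb R m : ℝ) * τ ^ m)
  have h3 := sum_hilb_ge hR0 hR hτ hs hf (max M n)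
  rw [h2 _ (le_max_right _ _)] at h3
  have h4 : (M : ℝ) ≤ ((max M n : ℕ) : ℝ) := by exact_mod_cast le_max_left M n
  linarith

/-- The projection of the free algebra onto its part of degree `n`. -/
def proj (n : ℕ) : MonoidAlgebra k (FreeMonoid α) →ₗ[k] MonoidAlgebra k (FreeMonoid α) :=
  (MonoidAlgebra.basis (FreeMonoid α) k).constr k fun w => if w.length = n then single w 1 else 0

omit [Fintype α] in
theorem proj_single (n : ℕ) (w : FreeMonoid α) :
    proj n (single w (1 : k)) = if w.length = n then single w 1 else 0 :=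
  (MonoidAlgebra.basis (FreeMonoid α) k).constr_basis k
    (fun w => if w.length = n then single w (1 : k) else 0) w

omit [Fintype α] in
theorem proj_deg {m n : ℕ} {x : MonoidAlgebra k (FreeMonoid α)} (hx : x ∈ deg k α m) :
    proj n x = if m = n then x else 0 := by
  rw [deg_eq_span] at hx
  induction hx using Submodule.span_induction with
  | mem x hx =>
    obtain ⟨w, hw, rfl⟩ := hx
    show proj n (single w 1) = if m = n then single w 1 else 0
    rw [proj_single, show w.length = m from hw]
  | zero => simp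
  | add x y _ _ hx hy => rw [map_add, hx, hy]; split_ifs <;> simp
  | smul a x _ hx => rw [map_smul, hx]; split_ifs <;> simp

omit [Fintype α] in
theorem proj_mem (hR : ∀ n, ∀ f ∈ R n, f ∈ deg k α n) {x : MonoidAlgebra k (FreeMonoid α)}
    (hx : x ∈ rel (⋃ i, (R i : Set (MonoidAlgebra k (FreeMonoid α))))) (n : ℕ) :
    proj n x ∈ J R n := by
  rw [rel] at hx
  induction hx using Submodule.span_induction with
  | mem x hx =>
    obtain ⟨u, v, f, hf, rfl⟩ := hx
    obtain ⟨i, hf⟩ := Set.mem_iUnion.mp hf
    have h1 : single u 1 * f * single v 1 ∈ deg k α (u.length + i + v.length) :=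
      mul_mem_deg (mul_mem_deg (single_mem_deg u 1) (hR i f hf)) (single_mem_deg v 1)
    rw [proj_deg h1]
    split_ifs with h
    · exact Submodule.subset_span ⟨u, v, i, h, f, hf, rfl⟩
    · exact Submodule.zero_mem _
  | zero => rw [map_zero]; exact Submodule.zero_mem _
  | add x y _ _ hx hy => rw [map_add]; exact Submodule.add_mem _ hx hy
  | smul a x _ hx => rw [map_smul]; exact Submodule.smul_mem _ _ hx

omit [Fintype α] in
/-- `J R n` is the set of the homogeneous elements of degree `n` of the ideal. -/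
theorem J_eq (hR : ∀ n, ∀ f ∈ R n, f ∈ deg k α n) (n : ℕ) :
    J R n = rel (⋃ i, (R i : Set (MonoidAlgebra k (FreeMonoid α)))) ⊓ deg k α n := by
  refine le_antisymm (le_inf ?_ (J_le_deg hR n)) ?_
  · rw [J, Submodule.span_le]
    rintro _ ⟨u, v, i, _, f, hf, rfl⟩
    exact Submodule.subset_span ⟨u, v, f, Set.mem_iUnion.mpr ⟨i, hf⟩, rfl⟩
  · rintro x ⟨h1, h2⟩
    have h3 := proj_mem hR h1 n
    rwa [proj_deg h2, if_pos rfl] at h3

/-- **The theorem of Golod and Shafarevich for algebras**: an algebra with `d` generators and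
`r_i` homogeneous relations of degree `i ≥ 1` is infinite-dimensional as soon as
`1 - d τ + ∑ r_i τ ^ i ≤ 0` for some `τ > 0`. -/
theorem golod_shafarevich (hR0 : R 0 = ∅) (hR : ∀ n, ∀ f ∈ R n, f ∈ deg k α n) {τ : ℝ}
    (hτ : 0 < τ) (hs : Summable fun n => ((R n).card : ℝ) * τ ^ n)
    (hf : 1 - Fintype.card α * τ + ∑' n, ((R n).card : ℝ) * τ ^ n ≤ 0) :
    ¬ Module.Finite k (MonoidAlgebra k (FreeMonoid α) ⧸
      rel (⋃ i, (R i : Set (MonoidAlgebra k (FreeMonoid α))))) := by
  intro hfin
  have h1 : ∀ n, ∃ w : FreeMonoid α, w.length = n ∧ single w (1 : k) ∉ J R n := by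
    intro n
    by_contra hcon
    push Not at hcon
    exact hilb_ne_zero hR0 hR hτ hs hf n ((hilb_eq_zero_iff hR n).mpr hcon)
  choose w hw hw' using h1
  refine Module.Finite.not_linearIndependent_of_infinite (R := k) (fun n : ℕ =>
    (rel (⋃ i, (R i : Set (MonoidAlgebra k (FreeMonoid α))))).mkQ (single (w n) (1 : k))) ?_
  rw [linearIndependent_iff']
  intro s g hg i hi
  have h3 : ∑ n ∈ s, g n • single (w n) (1 : k) ∈
      rel (⋃ i, (R i : Set (MonoidAlgebra k (FreeMonoid α)))) := by
    rw [← Submodule.ker_mkQ (rel (⋃ i, (R i : Set (MonoidAlgebra k (FreeMonoid α))))),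
      LinearMap.mem_ker, map_sum, ← hg]
    exact Finset.sum_congr rfl fun n _ => map_smul _ _ _
  have h4 := proj_mem hR h3 i
  have h5 : proj i (∑ n ∈ s, g n • single (w n) (1 : k)) = g i • single (w i) 1 := by
    rw [map_sum, Finset.sum_eq_single i]
    · rw [map_smul, proj_single, if_pos (hw i)]
    · intro n _ hn
      rw [map_smul, proj_single, if_neg (by rwa [hw n]), smul_zero]
    · intro h
      exact absurd hi h
  rw [h5] at h4
  by_contra hgi
  apply hw' i
  have h6 := (J R i).smul_mem (g i)⁻¹ h4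
  rwa [smul_smul, inv_mul_cancel₀ hgi, one_smul] at h6

/-- An algebra with `d ≥ 2` generators and at most `m ≤ d ^ 2 / 4` homogeneous relations, all of
degree at least 2, is infinite-dimensional. -/
theorem not_finite_of_four_mul_le (hd : 2 ≤ Fintype.card α)
    (hR0 : R 0 = ∅) (hR1 : R 1 = ∅) (hR : ∀ n, ∀ f ∈ R n, f ∈ deg k α n) (m N : ℕ)
    (hN : ∀ n, N ≤ n → R n = ∅) (hm : ∑ n ∈ Finset.range N, (R n).card ≤ m)
    (h4 : 4 * m ≤ Fintype.card α ^ 2) :
    ¬ Module.Finite k (MonoidAlgebra k (FreeMonoid α) ⧸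
      rel (⋃ i, (R i : Set (MonoidAlgebra k (FreeMonoid α))))) := by
  have hd' : (2 : ℝ) ≤ Fintype.card α := by exact_mod_cast hd
  set d : ℝ := (Fintype.card α : ℝ) with hdd
  have hd0 : 0 < d := by linarith
  have hτ : 0 < 2 / d := by positivity
  have hzero : ∀ n ∉ Finset.range N, ((R n).card : ℝ) * (2 / d) ^ n = 0 := by
    intro n hn
    rw [hN n (by simpa using hn)]
    simp
  refine golod_shafarevich hR0 hR hτ (summable_of_ne_finset_zero hzero) ?_
  rw [tsum_eq_sum hzero, mul_div_cancel₀ _ hd0.ne']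
  have h1 : ∀ n ∈ Finset.range N, ((R n).card : ℝ) * (2 / d) ^ n ≤ (R n).card * (2 / d) ^ 2 := by
    intro n _
    by_cases h0 : n = 0
    · simp [h0, hR0]
    by_cases h1 : n = 1
    · simp [h1, hR1]
    refine mul_le_mul_of_nonneg_left ?_ (Nat.cast_nonneg _)
    exact pow_le_pow_of_le_one hτ.le (by rw [div_le_one hd0]; exact hd') (by omega)
  have h2 := Finset.sum_le_sum h1
  rw [← Finset.sum_mul, ← Nat.cast_sum] at h2
  have h3 : ((∑ n ∈ Finset.range N, (R n).card : ℕ) : ℝ) ≤ m := by exact_mod_cast hm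
  have h5 : (4 : ℝ) * m ≤ d ^ 2 := by rw [hdd]; exact_mod_cast h4
  have h6 : (m : ℝ) * (2 / d) ^ 2 ≤ 1 := by
    rw [div_pow, ← mul_div_assoc, div_le_one (by positivity)]
    linarith
  have h7 := mul_le_mul_of_nonneg_right h3 (sq_nonneg (2 / d))
  linarith

/-- An algebra with `d ≥ 2` generators and at most `((d - 1) / 2) ^ 2` homogeneous relations in
every degree `i ≥ 2` (none in degrees 0 and 1) is infinite-dimensional. -/
theorem not_finite_of_card_le (hd : 2 ≤ Fintype.card α)
    (hR0 : R 0 = ∅) (hR1 : R 1 = ∅) (hR : ∀ n, ∀ f ∈ R n, f ∈ deg k α n)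
    (hc : ∀ n, 4 * (R n).card ≤ (Fintype.card α - 1) ^ 2) :
    ¬ Module.Finite k (MonoidAlgebra k (FreeMonoid α) ⧸
      rel (⋃ i, (R i : Set (MonoidAlgebra k (FreeMonoid α))))) := by
  obtain ⟨e, he⟩ : ∃ e, Fintype.card α = e + 2 := ⟨Fintype.card α - 2, by omega⟩
  have hd' : (Fintype.card α : ℝ) = e + 2 := by rw [he]; push_cast; ring
  have he0 : (0 : ℝ) ≤ e := Nat.cast_nonneg e
  set τ : ℝ := 2 / (e + 3) with hτd
  have hτ : 0 < τ := by positivity
  have hτ1 : τ < 1 := by rw [hτd, div_lt_one (by positivity)]; linarith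
  have hc' : ∀ n, ((R n).card : ℝ) ≤ ((e + 1) / 2) ^ 2 := by
    intro n
    have h1 := hc n
    rw [he, show e + 2 - 1 = e + 1 by omega] at h1
    have h2 : (4 : ℝ) * (R n).card ≤ (e + 1) ^ 2 := by exact_mod_cast h1
    rw [div_pow, le_div_iff₀ (by norm_num)]
    linarith
  have hle : ∀ n, ((R (n + 2)).card : ℝ) * τ ^ (n + 2) ≤ ((e + 1) / 2) ^ 2 * τ ^ 2 * τ ^ n := by
    intro n
    have h1 := mul_le_mul_of_nonneg_right (hc' (n + 2)) (pow_pos hτ (n + 2)).le
    refine h1.trans (le_of_eq ?_)
    ring
  have hg : HasSum (fun n => ((e + 1 : ℝ) / 2) ^ 2 * τ ^ 2 * τ ^ n)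
      (((e + 1 : ℝ) / 2) ^ 2 * τ ^ 2 * (1 - τ)⁻¹) :=
    (hasSum_geometric_of_lt_one hτ.le hτ1).mul_left _
  have hs2 : Summable fun n => ((R (n + 2)).card : ℝ) * τ ^ (n + 2) :=
    Summable.of_nonneg_of_le (fun n => by positivity) hle hg.summable
  have hs : Summable fun n => ((R n).card : ℝ) * τ ^ n := (summable_nat_add_iff 2).mp hs2
  refine golod_shafarevich hR0 hR hτ hs ?_
  rw [← hs.sum_add_tsum_nat_add 2, Finset.sum_range_succ, Finset.sum_range_one, hR0, hR1]
  have h1 : ∑' n, ((R (n + 2)).card : ℝ) * τ ^ (n + 2) ≤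
      ((e + 1 : ℝ) / 2) ^ 2 * τ ^ 2 * (1 - τ)⁻¹ := by
    rw [← hg.tsum_eq]
    exact hs2.tsum_le_tsum hle hg.summable
  have h2 : ((e + 1 : ℝ) / 2) ^ 2 * τ ^ 2 * (1 - τ)⁻¹ = (e + 1) / (e + 3) := by
    have h3 : 1 - τ = (e + 1) / (e + 3) := by
      rw [hτd]
      field_simp
      ring
    rw [h3, hτd]
    have h4 : (e + 1 : ℝ) ≠ 0 := by positivity
    have h5 : (e + 3 : ℝ) ≠ 0 := by positivity
    field_simp
  have h3 : 1 - (e + 2 : ℝ) * τ + (e + 1) / (e + 3) = 0 := by
    rw [hτd]
    have h5 : (e + 3 : ℝ) ≠ 0 := by positivity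
    field_simp
    ring
  rw [hd']
  simp only [Finset.card_empty, Nat.cast_zero, zero_mul, zero_add]
  linarith

end Relators

/-- **Golod - Shafarevich**: an algebra with `d ≥ 2` generators and `m ≤ d ^ 2 / 4` homogeneous
relations of degrees at least two is infinite-dimensional. -/
theorem not_finite_of_relations {d m : ℕ} (hd : 2 ≤ d)
    (f : Fin m → MonoidAlgebra k (FreeMonoid (Fin d))) (e : Fin m → ℕ) (he : ∀ j, 2 ≤ e j)
    (hf : ∀ j, f j ∈ deg k (Fin d) (e j)) (h4 : 4 * m ≤ d ^ 2) :
    ¬ Module.Finite k (MonoidAlgebra k (FreeMonoid (Fin d)) ⧸ rel (Set.range f)) := by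
  classical
  set R : ℕ → Finset (MonoidAlgebra k (FreeMonoid (Fin d))) :=
    fun n => (Finset.univ.filter fun j => e j = n).image f with hRd
  have hR : ∀ n, ∀ g ∈ R n, g ∈ deg k (Fin d) n := by
    intro n g hg
    obtain ⟨j, hj, rfl⟩ := Finset.mem_image.mp hg
    rw [← (Finset.mem_filter.mp hj).2]
    exact hf j
  have hempty : ∀ n, (∀ j, e j ≠ n) → R n = ∅ := by
    intro n hn
    simp only [hRd]
    rw [Finset.image_eq_empty, Finset.filter_eq_empty_iff]
    exact fun j _ => hn j
  have hlt : ∀ j, e j < Finset.univ.sup e + 1 := fun j =>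
    Nat.lt_succ_of_le (Finset.le_sup (f := e) (Finset.mem_univ j))
  have hsum : ∑ n ∈ Finset.range (Finset.univ.sup e + 1), (R n).card ≤ m := by
    refine (Finset.sum_le_sum fun n _ => Finset.card_image_le).trans (le_of_eq ?_)
    rw [← Finset.card_eq_sum_card_fiberwise fun j _ =>
      Finset.mem_coe.mpr (Finset.mem_range.mpr (hlt j))]
    simp
  have key := not_finite_of_four_mul_le (k := k) (α := Fin d) (R := R) (by simpa using hd)
    (hempty 0 fun j => by have := he j; omega) (hempty 1 fun j => by have := he j; omega) hR m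
    (Finset.univ.sup e + 1)
    (fun n hn => hempty n fun j => by have := hlt j; omega) hsum (by simpa using h4)
  intro hfin
  apply key
  have hle : rel (Set.range f) ≤ rel (⋃ i, (R i : Set (MonoidAlgebra k (FreeMonoid (Fin d))))) := by
    rw [rel, Submodule.span_le]
    rintro _ ⟨u, v, g, ⟨j, rfl⟩, rfl⟩
    refine Submodule.subset_span ⟨u, v, f j, Set.mem_iUnion.mpr ⟨e j, ?_⟩, rfl⟩
    exact Finset.mem_coe.mpr (Finset.mem_image_of_mem f (by simp))
  exact Module.Finite.of_surjective (Submodule.factor hle) (Submodule.factor_surjective hle)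

/-- `rel S` is the two-sided ideal generated by `S`. -/
theorem mem_rel_iff (S : Set (MonoidAlgebra k (FreeMonoid α)))
    (x : MonoidAlgebra k (FreeMonoid α)) : x ∈ rel S ↔ x ∈ TwoSidedIdeal.span S := by
  have hspan : ∀ y : MonoidAlgebra k (FreeMonoid α), y ∈ Submodule.span k
      (Set.range (MonoidAlgebra.basis (FreeMonoid α) k)) := fun y =>
    (MonoidAlgebra.basis (FreeMonoid α) k).mem_span y
  constructor
  · intro hx
    rw [rel] at hx
    induction hx using Submodule.span_induction with
    | mem x hx =>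
      obtain ⟨u, v, f, hf, rfl⟩ := hx
      exact TwoSidedIdeal.mul_mem_right _ _ _ (TwoSidedIdeal.mul_mem_left _ _ _
        (TwoSidedIdeal.subset_span hf))
    | zero => exact TwoSidedIdeal.zero_mem _
    | add x y _ _ hx hy => exact TwoSidedIdeal.add_mem _ hx hy
    | smul a x _ hx => rw [Algebra.smul_def]; exact TwoSidedIdeal.mul_mem_left _ _ _ hx
  · have hl : ∀ y ∈ rel S, ∀ u : FreeMonoid α, single u 1 * y ∈ rel S := by
      intro y hy u
      rw [rel] at hy
      induction hy using Submodule.span_induction with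
      | mem y hy =>
        obtain ⟨u', v, f, hf, rfl⟩ := hy
        refine Submodule.subset_span ⟨u * u', v, f, hf, ?_⟩
        rw [← mul_assoc, ← mul_assoc, single_mul_single, mul_one]
      | zero => rw [mul_zero]; exact Submodule.zero_mem _
      | add x y _ _ hx hy => rw [mul_add]; exact Submodule.add_mem _ hx hy
      | smul a x _ hx => rw [mul_smul_comm]; exact Submodule.smul_mem _ _ hx
    have hr : ∀ y ∈ rel S, ∀ u : FreeMonoid α, y * single u 1 ∈ rel S := by
      intro y hy u
      rw [rel] at hy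
      induction hy using Submodule.span_induction with
      | mem y hy =>
        obtain ⟨u', v, f, hf, rfl⟩ := hy
        refine Submodule.subset_span ⟨u', v * u, f, hf, ?_⟩
        rw [mul_assoc (single u' 1 * f), single_mul_single, mul_one]
      | zero => rw [zero_mul]; exact Submodule.zero_mem _
      | add x y _ _ hx hy => rw [add_mul]; exact Submodule.add_mem _ hx hy
      | smul a x _ hx => rw [smul_mul_assoc]; exact Submodule.smul_mem _ _ hx
    have hl' : ∀ {a y : MonoidAlgebra k (FreeMonoid α)}, y ∈ rel S → a * y ∈ rel S := by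
      intro a y hy
      induction hspan a using Submodule.span_induction with
      | mem a ha =>
        obtain ⟨u, rfl⟩ := ha
        exact hl y hy u
      | zero => rw [zero_mul]; exact Submodule.zero_mem _
      | add x y _ _ hx hy => rw [add_mul]; exact Submodule.add_mem _ hx hy
      | smul a x _ hx => rw [smul_mul_assoc]; exact Submodule.smul_mem _ _ hx
    have hr' : ∀ {y a : MonoidAlgebra k (FreeMonoid α)}, y ∈ rel S → y * a ∈ rel S := by
      intro y a hy
      induction hspan a using Submodule.span_induction with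
      | mem a ha =>
        obtain ⟨u, rfl⟩ := ha
        exact hr y hy u
      | zero => rw [mul_zero]; exact Submodule.zero_mem _
      | add x y _ _ hx hy => rw [mul_add]; exact Submodule.add_mem _ hx hy
      | smul a x _ hx => rw [mul_smul_comm]; exact Submodule.smul_mem _ _ hx
    have hI : TwoSidedIdeal.span S ≤ TwoSidedIdeal.mk' (rel S : Set _) (Submodule.zero_mem _)
        (fun h1 h2 => Submodule.add_mem _ h1 h2) (fun h => Submodule.neg_mem _ h)
        (fun h => hl' h) (fun h => hr' h) := by
      rw [TwoSidedIdeal.span_le]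
      intro f hf
      rw [TwoSidedIdeal.coe_mk']
      refine Submodule.subset_span ⟨1, 1, f, hf, ?_⟩
      rw [← MonoidAlgebra.one_def, one_mul, mul_one]
    intro hx
    exact (TwoSidedIdeal.mem_mk' _ _ _ _ _ _ x).mp (hI hx)

/-- The quotient of the free algebra by the two-sided ideal generated by `S`, as an algebra,
is infinite-dimensional if the space `T / rel S` is. -/
theorem not_finite_quotient {S : Set (MonoidAlgebra k (FreeMonoid α))}
    (h : ¬ Module.Finite k (MonoidAlgebra k (FreeMonoid α) ⧸ rel S)) :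
    ¬ Module.Finite k (TwoSidedIdeal.span S).ringCon.Quotient := by
  intro hfin
  apply h
  have hker : rel S = LinearMap.ker ((TwoSidedIdeal.span S).ringCon.mkₐ k).toLinearMap := by
    ext x
    rw [mem_rel_iff, LinearMap.mem_ker, AlgHom.toLinearMap_apply, TwoSidedIdeal.mem_iff]
    exact (RingCon.eq _).symm
  have hinj : Function.Injective ((rel S).liftQ
      ((TwoSidedIdeal.span S).ringCon.mkₐ k).toLinearMap hker.le) := by
    rw [← LinearMap.ker_eq_bot, Submodule.ker_liftQ_eq_bot']
    exact hker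
  exact Module.Finite.of_injective _ hinj

end

end Fermat.Agent.Cor.Golod.Gen
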