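import Fermat.Agent.Corollaries.Golod.PGroup

/-!
# Golod - Shafarevich groups

Let `F` be the free group with `d ≥ 1` generators, `p` a prime and `r_1, .., r_m` elements of `F`
which are killed by all homomorphisms `F → ℤ/p` (that is `r_j ∈ F^p [F, F]`), `4m ≤ d²`.

* `exists_pquotient`: the group `⟨x_1, .., x_d | r_1, .., r_m⟩` has finite `p`-quotients of
  arbitrarily large order;
* `infinite_presentedGroup`: it is infinite.

In a maximal finite `p`-quotient `P` the sequence `R^m → R^d → R`, `R = 𝔽_p[P]`, would be exact: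
otherwise the crossed homomorphism to `R^d/⟨D r_j⟩` gives a larger finite `p`-quotient.
-/

set_option autoImplicit false

namespace Fermat.Agent.Cor.Golod

open MonoidAlgebra Module

/-- The group of affine maps: the homomorphism behind a crossed homomorphism. -/
theorem exists_affHom {k G ι : Type*} [Field k] [Group G] (π : FreeGroup ι →* G)
    {M : Type*} [AddCommGroup M] [Module (MonoidAlgebra k G) M] (a : ι → M) :
    ∃ Φ : FreeGroup ι →* Equiv.Perm M, (∀ i, Φ (FreeGroup.of i) 0 = a i) ∧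
      ∀ w m, Φ w m = MonoidAlgebra.of k G (π w) • m + Φ w 0 := by
  let Φ : FreeGroup ι →* Equiv.Perm M :=
    FreeGroup.lift fun i => aff k (π (FreeGroup.of i)) (a i)
  have hΦ : ∀ i, Φ (FreeGroup.of i) = aff k (π (FreeGroup.of i)) (a i) := fun i =>
    FreeGroup.lift_apply_of
  refine ⟨Φ, fun i => by rw [hΦ, aff_apply, smul_zero, zero_add], fun w => ?_⟩
  induction w using FreeGroup.induction_on with
  | C1 => intro m; rw [map_one, map_one, map_one, one_smul]; simp
  | of i =>
    intro m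
    rw [hΦ, aff_apply, aff_apply, smul_zero, zero_add]
  | inv_of i ih =>
    intro m
    rw [map_inv, map_inv, hΦ, aff_inv_apply, aff_inv_apply, ← smul_add]
    congr 1
    abel
  | mul u v hu hv =>
    intro m
    rw [map_mul, Equiv.Perm.mul_apply, Equiv.Perm.mul_apply, hv m, hu, hu (Φ v 0), map_mul,
      map_mul, mul_smul, smul_add, add_assoc]

variable {p : ℕ} [hp : Fact p.Prime]

/-- The augmentation of a Fox derivative is a homomorphism to `ℤ/p`. -/
theorem aug_foxD_eq_zero_of_forall {G ι : Type*} [Group G] (π : FreeGroup ι →* G)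
    {w : FreeGroup ι} (hw : ∀ θ : FreeGroup ι →* Multiplicative (ZMod p), θ w = 1) (i : ι) :
    aug (ZMod p) (foxD (ZMod p) π w i) = 0 := by
  have hc : ∀ u v, aug (ZMod p) (foxD (ZMod p) π (u * v) i) =
      aug (ZMod p) (foxD (ZMod p) π u i) + aug (ZMod p) (foxD (ZMod p) π v i) := by
    intro u v
    rw [isCross_foxD, Pi.add_apply, Pi.smul_apply, smul_eq_mul, map_add, map_mul, aug_of, one_mul]
  let θ : FreeGroup ι →* Multiplicative (ZMod p) :=
    MonoidHom.mk' (fun w => Multiplicative.ofAdd (aug (ZMod p) (foxD (ZMod p) π w i)))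
      (fun u v => by rw [hc, ofAdd_add])
  exact Multiplicative.ofAdd.injective ((hw θ).trans ofAdd_zero.symm)

/-- **Golod - Shafarevich groups** have finite `p`-quotients of arbitrarily large order: `d ≥ 1`
generators and `m ≤ d²/4` relations which are killed by all homomorphisms to `ℤ/p`. -/
theorem exists_pquotient {ι : Type} [Fintype ι] [Nonempty ι] {m : ℕ}
    (rel : Fin m → FreeGroup ι)
    (hΦ : ∀ j, ∀ θ : FreeGroup ι →* Multiplicative (ZMod p), θ (rel j) = 1)
    (hm : 4 * m ≤ Fintype.card ι ^ 2) (N : ℕ) :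
    ∃ (P : Type) (_ : Group P) (_ : Finite P) (π : FreeGroup ι →* P), IsPGroup p P ∧
      Function.Surjective π ∧ (∀ j, π (rel j) = 1) ∧ N < Nat.card P := by
  classical
  by_contra hcon
  -- the orders of the finite `p`-quotients
  let S : Set ℕ := {n | ∃ (P : Type) (_ : Group P) (_ : Finite P) (π : FreeGroup ι →* P),
    IsPGroup p P ∧ Function.Surjective π ∧ (∀ j, π (rel j) = 1) ∧ Nat.card P = n}
  have hSb : ∀ n ∈ S, n ≤ N := by
    rintro n ⟨P, i1, i2, π, h1, h2, h3, rfl⟩
    by_contra hlt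
    push Not at hlt
    exact hcon ⟨P, i1, i2, π, h1, h2, h3, hlt⟩
  have hSn : S.Nonempty := by
    refine ⟨1, PUnit, inferInstance, inferInstance, 1, ?_, ?_, fun _ => rfl, Nat.card_unique⟩
    · exact IsPGroup.of_card (n := 0) (by rw [pow_zero, Nat.card_unique])
    · exact fun x => ⟨1, Subsingleton.elim _ _⟩
  obtain ⟨n, hnS, hmax⟩ : ∃ n ∈ S, ∀ n' ∈ S, n' ≤ n := by
    have hfin : S.Finite := (Set.finite_Iic N).subset hSb
    obtain ⟨n, hn, h⟩ := hfin.exists_maximalFor id S hSn
    refine ⟨n, hn, fun n' hn' => ?_⟩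
    by_contra hlt
    push Not at hlt
    exact absurd (h hn' hlt.le) (not_le.mpr hlt)
  obtain ⟨P, i1, i2, π, hP, hπ, hrel, rfl⟩ := hnS
  let R := MonoidAlgebra (ZMod p) P
  set Nn : Submodule R (ι → R) :=
    Submodule.span R (Set.range fun j => foxD (ZMod p) π (rel j)) with hNn
  have hfd : FiniteDimensional (ZMod p) R :=
    (MonoidAlgebra.coeffLinearEquiv (ZMod p)).symm.finiteDimensional
  have hV : Finite (ι → R) := Module.finite_of_finite (ZMod p)
  have hQ : Finite ((ι → R) ⧸ Nn) := Quotient.finite _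
  have hpQ : ∀ x : (ι → R) ⧸ Nn, p • x = 0 := by
    intro x
    obtain ⟨x, rfl⟩ := Nn.mkQ_surjective x
    rw [← map_nsmul]
    have h1 : p • x = 0 := by
      rw [← Nat.cast_smul_eq_nsmul (ZMod p), CharP.cast_eq_zero, zero_smul]
    rw [h1, map_zero]
  obtain ⟨Φ, hΦi, hΦw⟩ := exists_affHom (k := ZMod p) π
    (fun i => Nn.mkQ (Pi.single i 1 : ι → R))
  -- the crossed homomorphism
  have hD : ∀ w, Φ w 0 = Nn.mkQ (foxD (ZMod p) π w) := by
    refine cross_ext (π := π) (k := ZMod p) (D := fun w => Φ w 0)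
      (D' := fun w => Nn.mkQ (foxD (ZMod p) π w)) (fun u v => ?_) (fun u v => ?_) (fun i => ?_)
    · change Φ (u * v) 0 = _
      rw [map_mul, Equiv.Perm.mul_apply, hΦw u (Φ v 0), add_comm]
    · change Nn.mkQ (foxD (ZMod p) π (u * v)) = Nn.mkQ (foxD (ZMod p) π u) +
        MonoidAlgebra.of (ZMod p) P (π u) • Nn.mkQ (foxD (ZMod p) π v)
      rw [isCross_foxD, map_add, map_smul]
    · rw [hΦi, foxD_of]
  -- the larger quotient
  let Ψ : FreeGroup ι →* Equiv.Perm ((ι → R) ⧸ Nn) × P := Φ.prod π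
  have hΦ1 : ∀ w, π w = 1 → ∀ (e : ℕ) x, (Φ w ^ e) x = x + e • Φ w 0 := by
    intro w hw e
    induction e with
    | zero => intro x; rw [pow_zero, zero_smul, add_zero]; rfl
    | succ e ih =>
      intro x
      rw [pow_succ', Equiv.Perm.mul_apply, ih, hΦw, hw, map_one, one_smul, succ_nsmul, add_assoc]
  have hPp : IsPGroup p Ψ.range := by
    rintro ⟨_, w, rfl⟩
    obtain ⟨a, ha⟩ := hP (π w)
    refine ⟨a + 1, ?_⟩
    apply Subtype.ext
    change Ψ w ^ p ^ (a + 1) = 1
    rw [pow_succ, pow_mul, ← map_pow]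
    have h1 : π (w ^ p ^ a) = 1 := by rw [map_pow, ha]
    refine Prod.ext ?_ ?_
    · change Φ (w ^ p ^ a) ^ p = 1
      ext1 x
      rw [hΦ1 _ h1, hpQ, add_zero]
      rfl
    · change π (w ^ p ^ a) ^ p = 1
      rw [h1, one_pow]
  have hΨrel : ∀ j, Ψ (rel j) = 1 := by
    intro j
    refine Prod.ext ?_ (hrel j)
    change Φ (rel j) = 1
    ext1 x
    have h0j : Nn.mkQ (foxD (ZMod p) π (rel j)) = 0 :=
      (Submodule.Quotient.mk_eq_zero Nn).mpr (Submodule.subset_span ⟨j, rfl⟩)
    rw [hΦw, hrel, map_one, one_smul, hD, h0j, add_zero]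
    rfl
  have hcard : Nat.card Ψ.range ≤ Nat.card P :=
    hmax _ ⟨Ψ.range, inferInstance, inferInstance, Ψ.rangeRestrict, hPp,
      Ψ.rangeRestrict_surjective, fun j => Subtype.ext (hΨrel j), rfl⟩
  -- the projection to `P` is injective
  let q : Ψ.range → P := fun x => x.1.2
  have hqs : Function.Surjective q := by
    intro y
    obtain ⟨w, rfl⟩ := hπ y
    exact ⟨⟨Ψ w, w, rfl⟩, rfl⟩
  have hqb : Function.Bijective q := by
    have h1 : Nat.card Ψ.range = Nat.card P := le_antisymm hcard (Nat.card_le_card_of_surjective q hqs)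
    exact (Nat.bijective_iff_surjective_and_card q).mpr ⟨hqs, h1⟩
  have h0 : ∀ w, π w = 1 → foxD (ZMod p) π w ∈ Nn := by
    intro w hw
    have h1 : (⟨Ψ w, w, rfl⟩ : Ψ.range) = 1 := hqb.1 hw
    have h2 : Ψ w = 1 := congrArg Subtype.val h1
    have h3 : Φ w = 1 := congrArg Prod.fst h2
    have h4 := hD w
    rw [h3] at h4
    exact (Submodule.Quotient.mk_eq_zero Nn).mp h4.symm
  have h := sq_lt_of_exact (k := ZMod p) (rel := rel) hπ (fun v => ⟨fun hv =>
    exists_of_bdry_eq_zero (ZMod p) π hπ h0 hv, by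
      rintro ⟨s, rfl⟩
      rw [map_sum]
      refine Finset.sum_eq_zero fun j _ => ?_
      rw [map_smul, bdry_foxD, hrel, map_one, sub_self, smul_zero]⟩)
    (fun j i => aug_foxD_eq_zero_of_forall π (hΦ j) i)
  omega

/-- **Golod - Shafarevich groups are infinite**: a group with `d ≥ 1` generators and `m ≤ d²/4`
relations which are killed by all homomorphisms to `ℤ/p`. -/
theorem infinite_presentedGroup {ι : Type} [Fintype ι] [Nonempty ι]
    (rels : Finset (FreeGroup ι))
    (hΦ : ∀ r ∈ rels, ∀ θ : FreeGroup ι →* Multiplicative (ZMod p), θ r = 1)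
    (hm : 4 * rels.card ≤ Fintype.card ι ^ 2) :
    Infinite (PresentedGroup (rels : Set (FreeGroup ι))) := by
  rw [← not_finite_iff_infinite]
  intro hfin
  obtain ⟨P, _, _, π, -, hπ, hrel, hlt⟩ := exists_pquotient (p := p)
    (fun j => (rels.equivFin.symm j).1) (fun j => hΦ _ (rels.equivFin.symm j).2) hm
    (Nat.card (PresentedGroup (rels : Set (FreeGroup ι))))
  have hlift : FreeGroup.lift (fun i => π (FreeGroup.of i)) = π := by
    ext i
    rw [FreeGroup.lift_apply_of]
  have hrel' : ∀ r ∈ (rels : Set (FreeGroup ι)),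
      FreeGroup.lift (fun i => π (FreeGroup.of i)) r = 1 := by
    intro r hr
    have h2 := hrel (rels.equivFin ⟨r, hr⟩)
    rw [Equiv.symm_apply_apply] at h2
    rw [hlift]
    exact h2
  have hf : Function.Surjective (PresentedGroup.toGroup hrel') := by
    intro y
    obtain ⟨w, rfl⟩ := hπ y
    refine ⟨PresentedGroup.mk (rels : Set (FreeGroup ι)) w, ?_⟩
    have h1 : PresentedGroup.toGroup hrel' (PresentedGroup.mk (rels : Set (FreeGroup ι)) w) =
      FreeGroup.lift (fun i => π (FreeGroup.of i)) w := rfl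
    rw [h1, hlift]
  exact absurd (Nat.card_le_card_of_surjective _ hf) (not_le.mpr hlt)

end Fermat.Agent.Cor.Golod
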