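import Fermat.Agent.Corollaries.Golod.Fox
import Mathlib

/-!
# The theorem of Golod and Shafarevich for finite `p`-groups

`golod_shafarevich`: if a finite `p`-group `G ≠ 1` with minimal number of generators `d` is
presented by `d` generators and `m` relations, then `d² < 4m`.

Proof (Gaschütz, Vinberg, Roquette): `R = 𝔽_p[G]`, `I` the augmentation ideal, `e_n = dim R/Iⁿ`. The
exact sequence `R^m → R^d → I → 0` (`Fox`) and minimality give `e_(n+2) + m e_n ≥ d e_(n+1) + 1`. If
`4m ≤ d²` then `f_n = e_(n+1) - (d/2) e_n` satisfies `f_(n+1) ≥ (d/2) f_n + 1`, so `e_n` is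
unbounded.
-/

set_option autoImplicit false

namespace Fermat.Agent.Cor.Golod

open MonoidAlgebra Module

/-! ### Linear algebra -/

section Linear

variable {k E E' : Type*} [Field k] [AddCommGroup E] [Module k E] [AddCommGroup E'] [Module k E']
  [FiniteDimensional k E]

/-- dimension formula for the restriction of a linear map to a subspace -/
lemma finrank_map_add (f : E →ₗ[k] E') (S : Submodule k E) :
    finrank k (S.map f) + finrank k (S ⊓ LinearMap.ker f : Submodule k E) = finrank k S := by
  have h1 := LinearMap.finrank_range_add_finrank_ker (f.domRestrict S)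
  rw [LinearMap.range_domRestrict] at h1
  rw [← h1]
  congr 1
  rw [LinearMap.ker_domRestrict]
  have h2 : (S ⊓ LinearMap.ker f : Submodule k E) =
      (Submodule.comap S.subtype (LinearMap.ker f)).map S.subtype := by
    rw [Submodule.map_comap_subtype]
  rw [h2]
  exact (Submodule.equivMapOfInjective _ S.injective_subtype _).finrank_eq.symm

/-- `dim f(E) - dim f(S) ≤ dim E - dim S` -/
lemma finrank_range_add_le (f : E →ₗ[k] E') (S : Submodule k E) :
    finrank k (LinearMap.range f) + finrank k S ≤ finrank k E + finrank k (S.map f) := by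
  have h1 := LinearMap.finrank_range_add_finrank_ker f
  have h2 := finrank_map_add f S
  have h3 : finrank k (S ⊓ LinearMap.ker f : Submodule k E) ≤ finrank k (LinearMap.ker f) :=
    Submodule.finrank_mono inf_le_right
  omega

omit [FiniteDimensional k E] in
/-- the subspace of the families with values in `J` -/
def pw {E : Type*} [AddCommGroup E] [Module k E] (J : Submodule k E) (ι : Type*) :
    Submodule k (ι → E) := LinearMap.range (J.subtype.compLeft ι)

omit [FiniteDimensional k E] in
lemma mem_pw {J : Submodule k E} {ι : Type*} {v : ι → E} : v ∈ pw J ι ↔ ∀ i, v i ∈ J := by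
  constructor
  · rintro ⟨w, rfl⟩ i
    exact (w i).2
  · intro h
    exact ⟨fun i => ⟨v i, h i⟩, rfl⟩

lemma finrank_pw (J : Submodule k E) (ι : Type*) [Fintype ι] :
    finrank k (pw J ι) = Fintype.card ι * finrank k J := by
  have h1 : Function.Injective (J.subtype.compLeft ι) := by
    intro v w h
    funext i
    exact Subtype.ext (congrFun h i)
  rw [pw, LinearMap.finrank_range_of_inj h1, Module.finrank_pi_fintype]
  simp

end Linear

/-! ### The numerical argument -/

/-- A bounded sequence with `e₀ = 0`, `e₁ = 1`, `e_(n+2) + m e_n ≥ d e_(n+1) + 1`, `d ≥ 1`, has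
`d² < 4m`. -/
theorem sq_lt_of_bounded {d m N : ℕ} (hd : 0 < d) (e : ℕ → ℕ) (h0 : e 0 = 0) (h1 : e 1 = 1)
    (hN : ∀ n, e n ≤ N) (h : ∀ n, d * e (n + 1) + 1 ≤ e (n + 2) + m * e n) : d ^ 2 < 4 * m := by
  by_contra hcon
  push Not at hcon
  rcases Nat.lt_or_ge d 2 with h2 | h2
  · -- `d = 1`, `m = 0`
    have hd1 : d = 1 := by omega
    subst hd1
    have hm : m = 0 := by omega
    subst hm
    have h3 : ∀ n, n ≤ e n := by
      intro n
      induction n with
      | zero => omega
      | succ n ih =>
        cases n with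
        | zero => rw [zero_add, h1]
        | succ n =>
          have h3 := h n
          rw [one_mul, zero_mul, add_zero, show n + 2 = n + 1 + 1 from rfl] at h3
          omega
    have := h3 (N + 1)
    have := hN (N + 1)
    omega
  · have hd2 : (2 : ℝ) ≤ d := by exact_mod_cast h2
    have hm : 4 * (m : ℝ) ≤ (d : ℝ) ^ 2 := by exact_mod_cast hcon
    have h3 : ∀ n : ℕ, (n : ℝ) + 1 ≤ e (n + 1) - d / 2 * e n := by
      intro n
      induction n with
      | zero => simp [h0, h1]
      | succ n ih =>
        have h4 : (d : ℝ) * e (n + 1) + 1 ≤ e (n + 2) + m * e n := by exact_mod_cast h n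
        have h5 : (0 : ℝ) ≤ e n := Nat.cast_nonneg _
        have h6 : (m : ℝ) * e n ≤ (d : ℝ) ^ 2 / 4 * e n :=
          mul_le_mul_of_nonneg_right (by linarith) h5
        have h7 : (n : ℝ) + 1 ≤ d / 2 * (e (n + 1) - d / 2 * e n) := by
          have h8 : (0 : ℝ) ≤ (n : ℝ) + 1 := by positivity
          nlinarith
        push_cast
        nlinarith
    have h4 := h3 (N + 1)
    have h5 : (e (N + 1 + 1) : ℝ) ≤ N := by exact_mod_cast hN _
    have h6 : (0 : ℝ) ≤ d / 2 * e (N + 1) := by positivity
    push_cast at h4
    linarith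

/-! ### The filtration of the group algebra -/

section Filtration

variable (k : Type*) {G ι : Type*} [Field k] [Group G] (π : FreeGroup ι →* G)

/-- the augmentation `k[G] → k` -/
noncomputable def aug : MonoidAlgebra k G →ₐ[k] k := MonoidAlgebra.lift k k G 1

@[simp] lemma aug_of (g : G) : aug k (MonoidAlgebra.of k G g) = 1 := by
  simp [aug]

variable [Fintype ι]

/-- the powers of the augmentation ideal -/
noncomputable def filt : ℕ → Submodule k (MonoidAlgebra k G)
  | 0 => ⊤
  | n + 1 => (pw (filt n) ι).map ((bdry k π).restrictScalars k)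

variable {k π}

lemma mem_filt_succ {n : ℕ} {x : MonoidAlgebra k G} : x ∈ filt k π (n + 1) ↔
    ∃ v : ι → MonoidAlgebra k G, (∀ i, v i ∈ filt k π n) ∧ bdry k π v = x := by
  rw [filt, Submodule.mem_map]
  constructor
  · rintro ⟨v, hv, rfl⟩
    exact ⟨v, mem_pw.mp hv, rfl⟩
  · rintro ⟨v, hv, rfl⟩
    exact ⟨v, mem_pw.mpr hv, rfl⟩

lemma aug_bdry (v : ι → MonoidAlgebra k G) : aug k (bdry k π v) = 0 := by
  rw [bdry_apply, map_sum]
  refine Finset.sum_eq_zero fun i _ => ?_
  rw [map_mul, map_sub, aug_of, map_one, sub_self, mul_zero]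

/-- the first step of the filtration is the augmentation ideal -/
lemma mem_filt_one (hπ : Function.Surjective π) {x : MonoidAlgebra k G} :
    x ∈ filt k π 1 ↔ aug k x = 0 := by
  constructor
  · intro hx
    obtain ⟨v, -, rfl⟩ := mem_filt_succ.mp hx
    exact aug_bdry v
  · intro hx
    have h1 : ∀ r : MonoidAlgebra k G, r - algebraMap k _ (aug k r) ∈ filt k π 1 := by
      intro r
      induction r using MonoidAlgebra.induction_on with
      | of g =>
        obtain ⟨w, rfl⟩ := hπ g
        rw [aug_of, map_one]
        exact mem_filt_succ.mpr ⟨foxD k π w, fun _ => Submodule.mem_top, bdry_foxD k π w⟩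
      | add x y hx hy =>
        rw [map_add, map_add, add_sub_add_comm]
        exact add_mem hx hy
      | smul c x hx =>
        rw [map_smul, smul_eq_mul, map_mul, ← Algebra.smul_def, ← smul_sub]
        exact Submodule.smul_mem _ _ hx
    have h2 := h1 x
    rwa [hx, map_zero, sub_zero] at h2

/-- the members of the filtration are right ideals -/
lemma mul_mem_filt (hπ : Function.Surjective π) (n : ℕ) : ∀ {x : MonoidAlgebra k G},
    x ∈ filt k π n → ∀ r, x * r ∈ filt k π n := by
  induction n with
  | zero => exact fun _ _ => Submodule.mem_top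
  | succ n ih =>
    intro x hx r
    obtain ⟨v, hv, rfl⟩ := mem_filt_succ.mp hx
    have h1 : ∀ i, ∃ w : ι → MonoidAlgebra k G,
        bdry k π w = (MonoidAlgebra.of k G (π (FreeGroup.of i)) - 1) * r := by
      intro i
      have h2 : (MonoidAlgebra.of k G (π (FreeGroup.of i)) - 1) * r ∈ filt k π 1 := by
        rw [mem_filt_one hπ, map_mul, map_sub, aug_of, map_one, sub_self, zero_mul]
      obtain ⟨w, -, hw⟩ := mem_filt_succ.mp h2
      exact ⟨w, hw⟩
    choose w hw using h1
    refine mem_filt_succ.mpr ⟨∑ i, v i • w i, fun j => ?_, ?_⟩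
    · rw [Finset.sum_apply]
      refine Submodule.sum_mem _ fun i _ => ?_
      exact ih (hv i) _
    · rw [map_sum, bdry_apply, Finset.sum_mul]
      refine Finset.sum_congr rfl fun i _ => ?_
      rw [map_smul, hw, smul_eq_mul, mul_assoc]

lemma mul_mem_filt_succ (hπ : Function.Surjective π) {n : ℕ} {x t : MonoidAlgebra k G}
    (hx : x ∈ filt k π n) (ht : t ∈ filt k π 1) : x * t ∈ filt k π (n + 1) := by
  obtain ⟨v, -, rfl⟩ := mem_filt_succ.mp ht
  refine mem_filt_succ.mpr ⟨x • v, fun i => mul_mem_filt hπ n hx _, ?_⟩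
  rw [map_smul, smul_eq_mul]

variable {m : ℕ} {rel : Fin m → FreeGroup ι} [Finite G]

/-- **The inequality of Golod and Shafarevich**, module form: `G` is a finite group with `d ≥ 1`
generators, the kernel of `R^d → R` is generated by the Fox derivatives of `m` relations, and these
are in the augmentation ideal of `R = k[G]`. -/
theorem sq_lt_of_exact [Nonempty ι] (hπ : Function.Surjective π)
    (hex : ∀ v, bdry k π v = 0 ↔ ∃ s : Fin m → MonoidAlgebra k G,
      ∑ j, s j • foxD k π (rel j) = v)
    (hmin : ∀ j i, aug k (foxD k π (rel j) i) = 0) : Fintype.card ι ^ 2 < 4 * m := by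
  classical
  have hfd : FiniteDimensional k (MonoidAlgebra k G) :=
    (MonoidAlgebra.coeffLinearEquiv k).symm.finiteDimensional
  have hN1 : 0 < finrank k (MonoidAlgebra k G) := Module.finrank_pos
  set N := finrank k (MonoidAlgebra k G) with hN
  set d := Fintype.card ι with hd
  have hd0 : 0 < d := Fintype.card_pos
  -- the dimension of the augmentation ideal
  have hI : finrank k (filt k π 1) + 1 = N := by
    have h1 : filt k π 1 = LinearMap.ker (aug k : MonoidAlgebra k G →ₐ[k] k).toLinearMap := by
      ext x
      rw [mem_filt_one hπ, LinearMap.mem_ker]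
      rfl
    have h2 := LinearMap.finrank_range_add_finrank_ker
      (aug k : MonoidAlgebra k G →ₐ[k] k).toLinearMap
    have h3 : LinearMap.range (aug k : MonoidAlgebra k G →ₐ[k] k).toLinearMap = ⊤ := by
      rw [LinearMap.range_eq_top]
      intro c
      exact ⟨algebraMap k _ c, (aug k : MonoidAlgebra k G →ₐ[k] k).commutes c⟩
    rw [h3, finrank_top, finrank_self, ← h1] at h2
    omega
  let B : (ι → MonoidAlgebra k G) →ₗ[k] MonoidAlgebra k G := (bdry k π).restrictScalars k
  let φ : (Fin m → MonoidAlgebra k G) →ₗ[k] (ι → MonoidAlgebra k G) :=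
    { toFun := fun s => ∑ j, s j • foxD k π (rel j)
      map_add' := fun s t => by simp only [Pi.add_apply, add_smul, Finset.sum_add_distrib]
      map_smul' := fun c s => by
        simp only [Pi.smul_apply, smul_assoc, Finset.smul_sum, RingHom.id_apply] }
  have hφB : LinearMap.range φ = LinearMap.ker B := by
    ext v
    rw [LinearMap.mem_ker, LinearMap.mem_range]
    exact (hex v).symm
  have htop : pw (⊤ : Submodule k (MonoidAlgebra k G)) ι = ⊤ := by
    rw [eq_top_iff]
    exact fun v _ => mem_pw.mpr fun _ => Submodule.mem_top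
  have hVd : finrank k (ι → MonoidAlgebra k G) = d * N := by
    rw [Module.finrank_pi_fintype]
    simp [hd, hN]
  have hVm : finrank k (Fin m → MonoidAlgebra k G) = m * N := by
    rw [Module.finrank_pi_fintype]
    simp [hN]
  -- the kernel of the boundary
  have hK : finrank k (LinearMap.ker B) + finrank k (filt k π 1) = d * N := by
    have h1 := finrank_map_add B (pw (filt k π 0) ι)
    have h2 : (pw (filt k π 0) ι).map B = filt k π 1 := rfl
    rw [h2, filt, htop, top_inf_eq, finrank_top, hVd] at h1
    omega
  -- the main inequality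
  have hmain : ∀ n, finrank k (filt k π (n + 2)) + d * N + m * finrank k (filt k π n) + 1 ≤
      N + d * finrank k (filt k π (n + 1)) + m * N := by
    intro n
    have h1 := finrank_map_add B (pw (filt k π (n + 1)) ι)
    have h2 : (pw (filt k π (n + 1)) ι).map B = filt k π (n + 2) := rfl
    rw [h2, finrank_pw, ← hd] at h1
    have h3 := finrank_range_add_le φ (pw (filt k π n) (Fin m))
    rw [hφB, finrank_pw, hVm, Fintype.card_fin] at h3
    have h4 : finrank k ((pw (filt k π n) (Fin m)).map φ) ≤
        finrank k (pw (filt k π (n + 1)) ι ⊓ LinearMap.ker B :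
          Submodule k (ι → MonoidAlgebra k G)) := by
      refine Submodule.finrank_mono (le_inf ?_ ?_)
      · rintro _ ⟨s, hs, rfl⟩
        rw [SetLike.mem_coe, mem_pw] at hs
        rw [mem_pw]
        intro i
        change (∑ j, s j • foxD k π (rel j)) i ∈ _
        rw [Finset.sum_apply]
        refine Submodule.sum_mem _ fun j _ => ?_
        exact mul_mem_filt_succ hπ (hs j) ((mem_filt_one hπ).mpr (hmin j i))
      · rw [← hφB]
        rintro _ ⟨s, -, rfl⟩
        exact ⟨s, rfl⟩
    omega
  have hle : ∀ n, finrank k (filt k π n) ≤ N := fun n => Submodule.finrank_le _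
  refine sq_lt_of_bounded (N := N) hd0 (fun n => N - finrank k (filt k π n)) ?_ ?_
    (fun n => Nat.sub_le _ _) (fun n => ?_)
  · change N - finrank k (⊤ : Submodule k (MonoidAlgebra k G)) = 0
    rw [finrank_top, ← hN, Nat.sub_self]
  · exact (Nat.sub_eq_of_eq_add' hI.symm : N - finrank k (filt k π 1) = 1)
  · have h1 := hmain n
    have h2 := hle n
    have h3 := hle (n + 1)
    have h4 := hle (n + 2)
    change d * (N - finrank k (filt k π (n + 1))) + 1 ≤
      N - finrank k (filt k π (n + 2)) + m * (N - finrank k (filt k π n))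
    obtain ⟨a, ha⟩ := Nat.exists_eq_add_of_le h2
    obtain ⟨b, hb⟩ := Nat.exists_eq_add_of_le h3
    obtain ⟨c, hc⟩ := Nat.exists_eq_add_of_le h4
    rw [show N - finrank k (filt k π n) = a by omega,
      show N - finrank k (filt k π (n + 1)) = b by omega,
      show N - finrank k (filt k π (n + 2)) = c by omega]
    have h5 : d * N = d * finrank k (filt k π (n + 1)) + d * b := by
      rw [← mul_add, ← hb]
    have h6 : m * N = m * finrank k (filt k π n) + m * a := by
      rw [← mul_add, ← ha]
    omega

/-- **The inequality of Golod and Shafarevich**, general form: `G` finite, presented by `d ≥ 1`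
generators and `m` relations whose Fox derivatives are in the augmentation ideal of `k[G]`. -/
theorem sq_lt_of_aug [Nonempty ι] (hπ : Function.Surjective π)
    (hker : π.ker = Subgroup.normalClosure (Set.range rel))
    (hmin : ∀ j i, aug k (foxD k π (rel j) i) = 0) : Fintype.card ι ^ 2 < 4 * m :=
  sq_lt_of_exact hπ (bdry_eq_zero_iff k π hπ hker) hmin

end Filtration

/-! ### Finite `p`-groups -/

section PGroup

variable {p : ℕ} [hp : Fact p.Prime] {G : Type*} [Group G] [Finite G]

/-- A proper subgroup of a finite `p`-group is in the kernel of a character of order `p`. -/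
theorem exists_char_of_ne_top (hG : IsPGroup p G) {H : Subgroup G} (hH : H ≠ ⊤) :
    ∃ θ : G →* Multiplicative (ZMod p), (∀ h ∈ H, θ h = 1) ∧ ∃ g, θ g ≠ 1 := by
  obtain ⟨M, hM, hHM⟩ := (eq_top_or_exists_le_coatom H).resolve_left hH
  have hnil : Group.IsNilpotent G := hG.isNilpotent
  have hMn : M.Normal := Subgroup.NormalizerCondition.normal_of_coatom M Group.normalizerCondition_of_isNilpotent hM
  have hQ : IsPGroup p (G ⧸ M) := hG.to_quotient M
  have hnt : Nontrivial (G ⧸ M) := QuotientGroup.nontrivial_iff.mpr hM.1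
  obtain ⟨n, hn⟩ := IsPGroup.iff_card.mp hQ
  have hpd : p ∣ Nat.card (G ⧸ M) := by
    rcases Nat.eq_zero_or_pos n with h0 | h0
    · rw [h0, pow_zero] at hn
      exact absurd hn (Finite.one_lt_card (α := G ⧸ M)).ne'
    · rw [hn]
      exact dvd_pow_self p h0.ne'
  obtain ⟨z, hz⟩ := exists_prime_orderOf_dvd_card' p hpd
  have hz1 : z ≠ 1 := by
    rintro rfl
    rw [orderOf_one] at hz
    exact hp.out.one_lt.ne hz
  have h1 : (Subgroup.zpowers z).comap (QuotientGroup.mk' M) = ⊤ := by
    refine hM.2 _ (lt_of_le_of_ne ?_ ?_)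
    · intro x hx
      rw [Subgroup.mem_comap, QuotientGroup.mk'_apply, (QuotientGroup.eq_one_iff x).mpr hx]
      exact one_mem _
    · intro heq
      obtain ⟨x, rfl⟩ := QuotientGroup.mk_surjective z
      apply hz1
      rw [QuotientGroup.eq_one_iff, heq]
      exact Subgroup.mem_zpowers _
  have h2 : ∀ y : G ⧸ M, y ∈ Subgroup.zpowers z := by
    intro y
    obtain ⟨x, rfl⟩ := QuotientGroup.mk_surjective y
    have : x ∈ (Subgroup.zpowers z).comap (QuotientGroup.mk' M) := h1 ▸ Subgroup.mem_top x
    exact this
  have hcyc : IsCyclic (G ⧸ M) := ⟨z, h2⟩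
  have hcard : Nat.card (G ⧸ M) = p := by
    rw [← hz, ← Nat.card_zpowers, (Subgroup.eq_top_iff' _).mpr h2]
    exact (Nat.card_congr (Subgroup.topEquiv (G := G ⧸ M)).toEquiv).symm
  have e : (G ⧸ M) ≃* Multiplicative (ZMod p) := by
    have e1 := zmodCyclicMulEquiv hcyc
    rw [hcard] at e1
    exact e1.symm
  refine ⟨e.toMonoidHom.comp (QuotientGroup.mk' M), fun h hh => ?_, ?_⟩
  · rw [MonoidHom.comp_apply, QuotientGroup.mk'_apply, (QuotientGroup.eq_one_iff h).mpr (hHM hh),
      map_one]
  · obtain ⟨x, rfl⟩ := QuotientGroup.mk_surjective z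
    refine ⟨x, fun h => hz1 ?_⟩
    exact (map_eq_one_iff e e.injective).mp h

/-- The Fox derivatives of the relations of a minimal presentation are in the augmentation
ideal. -/
theorem aug_foxD_eq_zero (hG : IsPGroup p G) {ι : Type*} [Fintype ι] (π : FreeGroup ι →* G)
    (hπ : Function.Surjective π) (hι : Fintype.card ι = Group.rank G) {w : FreeGroup ι}
    (hw : π w = 1) (i : ι) : aug (ZMod p) (foxD (ZMod p) π w i) = 0 := by
  classical
  -- the generators `≠ x_i` do not generate `G`
  let S : Finset G := (Finset.univ.erase i).image fun j => π (FreeGroup.of j)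
  have hS : Subgroup.closure (S : Set G) ≠ ⊤ := by
    intro h
    have h1 := Group.rank_le h
    have h2 : S.card ≤ Fintype.card ι - 1 := by
      refine Finset.card_image_le.trans ?_
      rw [Finset.card_erase_of_mem (Finset.mem_univ i), Finset.card_univ]
    have h3 : 0 < Fintype.card ι := Fintype.card_pos_iff.mpr ⟨i⟩
    omega
  obtain ⟨θ, hθ, g, hg⟩ := exists_char_of_ne_top hG hS
  have hj : ∀ j, j ≠ i → θ (π (FreeGroup.of j)) = 1 := fun j hj => hθ _
    (Subgroup.subset_closure (Finset.mem_coe.mpr (Finset.mem_image.mpr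
      ⟨j, Finset.mem_erase.mpr ⟨hj, Finset.mem_univ j⟩, rfl⟩)))
  set a : ZMod p := (θ (π (FreeGroup.of i))).toAdd with ha
  let c : FreeGroup ι → ZMod p := fun w => aug (ZMod p) (foxD (ZMod p) π w i)
  have hc : ∀ u v, c (u * v) = c u + c v := by
    intro u v
    simp only [c]
    rw [isCross_foxD, Pi.add_apply, Pi.smul_apply, smul_eq_mul, map_add, map_mul, aug_of, one_mul]
  have hc1 : c 1 = 0 := by
    have h1 := hc 1 1
    rw [mul_one] at h1
    exact left_eq_add.mp h1
  have hcinv : ∀ u, c u⁻¹ = - c u := by
    intro u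
    have h1 := hc u⁻¹ u
    rw [inv_mul_cancel, hc1] at h1
    exact eq_neg_of_add_eq_zero_left h1.symm
  have hci : ∀ j, c (FreeGroup.of j) = if j = i then 1 else 0 := by
    intro j
    simp only [c]
    rw [foxD_of]
    by_cases h : j = i
    · subst h
      rw [Pi.single_eq_same, map_one, if_pos rfl]
    · rw [Pi.single_eq_of_ne (Ne.symm h), map_zero, if_neg h]
  have key : ∀ u, (θ (π u)).toAdd = c u * a := by
    intro u
    induction u using FreeGroup.induction_on with
    | C1 => rw [map_one, map_one, hc1, zero_mul]; rfl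
    | of j =>
      rw [hci]
      by_cases h : j = i
      · subst h
        rw [if_pos rfl, one_mul]
      · rw [if_neg h, zero_mul, hj j h]
        rfl
    | inv_of j ih => rw [map_inv, map_inv, toAdd_inv, ih, hcinv, neg_mul]
    | mul u v hu hv => rw [map_mul, map_mul, toAdd_mul, hu, hv, hc, add_mul]
  have ha0 : a ≠ 0 := by
    intro h0
    apply hg
    obtain ⟨u, rfl⟩ := hπ g
    have h1 := key u
    rw [h0, mul_zero] at h1
    exact toAdd_eq_zero.mp h1
  have h1 := key w
  rw [hw, map_one, toAdd_one] at h1
  exact (mul_eq_zero.mp h1.symm).resolve_right ha0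

/-- **The theorem of Golod and Shafarevich** (1964; Gaschütz, Vinberg): if a finite `p`-group
`G ≠ 1` whose minimal number of generators is `d` is presented by `d` generators and `m` relations,
then `d² < 4m`. -/
theorem golod_shafarevich [Nontrivial G] (hG : IsPGroup p G) {d m : ℕ} (hd : Group.rank G = d)
    (π : FreeGroup (Fin d) →* G) (hπ : Function.Surjective π) (rel : Fin m → FreeGroup (Fin d))
    (hker : π.ker = Subgroup.normalClosure (Set.range rel)) : d ^ 2 < 4 * m := by
  have hd0 : 0 < d := hd ▸ Group.rank_pos G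
  have : Nonempty (Fin d) := ⟨⟨0, hd0⟩⟩
  have hrel : ∀ j, π (rel j) = 1 := fun j => by
    have : rel j ∈ π.ker := hker ▸ Subgroup.subset_normalClosure ⟨j, rfl⟩
    exact this
  have h := sq_lt_of_aug (k := ZMod p) hπ hker fun j i =>
    aug_foxD_eq_zero hG π hπ (by rw [Fintype.card_fin, hd]) (hrel j) i
  rwa [Fintype.card_fin] at h

end PGroup

end Fermat.Agent.Cor.Golod
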