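import Fermat.Agent.Corollaries.Golod.General

/-!
# Golod's theorems with two generators

* `exists_filtered`: over a countable field `k` there is an algebra `A` of infinite dimension with
  two generators and a decreasing filtration by two-sided ideals `F n` of finite codimension,
  with `F m F n ⊆ F (m + n)` and intersection zero, such that `F 1` contains the generators and
  all elements of `F 1` are nilpotent;
* `kurosh_two`: an algebraic algebra of infinite dimension with two generators;
* `golod_two`: for every prime `p` there is an infinite residually finite group with two generators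
  in which the order of every element is a power of `p`.
-/

set_option autoImplicit false

noncomputable section

namespace Fermat.Agent.Cor.Golod.TwoGen

open Module Fermat.Agent.Cor.Golod.Gen

/-- the words in two letters -/
abbrev X : Type := FreeMonoid (Fin 2)

/-- `k⟨x, y⟩` -/
abbrev U (k : Type) [Field k] : Type := MonoidAlgebra k X

variable {k : Type} [Field k]

/-- a word as an element of `k⟨x, y⟩` -/
abbrev ow (w : X) : U k := MonoidAlgebra.single w 1

/-! ### supports -/

theorem supp_mul {S S' S'' : Set X} (hS : ∀ u ∈ S, ∀ v ∈ S', u * v ∈ S'') {x y : U k}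
    (hx : x ∈ MonoidAlgebra.supported k k S) (hy : y ∈ MonoidAlgebra.supported k k S') :
    x * y ∈ MonoidAlgebra.supported k k S'' := by
  have h : MonoidAlgebra.supported k k S * MonoidAlgebra.supported k k S' ≤
      MonoidAlgebra.supported k k S'' := by
    rw [MonoidAlgebra.supported_eq_span_single, MonoidAlgebra.supported_eq_span_single,
      MonoidAlgebra.supported_eq_span_single, Submodule.span_mul_span]
    refine Submodule.span_mono ?_
    rintro _ ⟨_, ⟨u, hu, rfl⟩, _, ⟨v, hv, rfl⟩, rfl⟩
    refine ⟨u * v, hS u hu v hv, ?_⟩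
    change MonoidAlgebra.single (u * v) (1 : k) =
      MonoidAlgebra.single u 1 * MonoidAlgebra.single v 1
    rw [MonoidAlgebra.single_mul_single, one_mul]
  exact h (Submodule.mul_mem_mul hx hy)

theorem mem_supported_univ (t : U k) : t ∈ MonoidAlgebra.supported k k (Set.univ : Set X) :=
  fun _ _ => Set.mem_univ _

/-- the words of length between `a` and `b` -/
def rg (a b : ℕ) : Set X := {w | a ≤ w.length ∧ w.length ≤ b}

theorem pow_mem_rg {D : ℕ} {t : U k} (ht : t ∈ MonoidAlgebra.supported k k (rg 1 D)) (n : ℕ) :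
    t ^ n ∈ MonoidAlgebra.supported k k (rg n (n * D)) := by
  induction n with
  | zero =>
    classical
    rw [pow_zero, MonoidAlgebra.mem_supported']
    intro w hw
    rw [MonoidAlgebra.one_def, MonoidAlgebra.coeff_single, Finsupp.single_apply, if_neg]
    rintro rfl
    exact hw ⟨le_refl _, by rw [FreeMonoid.length_one]; exact Nat.zero_le _⟩
  | succ n ih =>
    rw [pow_succ]
    refine supp_mul ?_ ih ht
    rintro u ⟨hu1, hu2⟩ v ⟨hv1, hv2⟩
    refine ⟨?_, ?_⟩
    · rw [FreeMonoid.length_mul]; omega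
    · rw [FreeMonoid.length_mul, Nat.succ_mul]; omega

theorem coeff_proj (n : ℕ) (t : U k) (w : X) :
    (proj n t).coeff w = if w.length = n then t.coeff w else 0 := by
  classical
  induction t using MonoidAlgebra.induction_linear with
  | zero => rw [map_zero, MonoidAlgebra.coeff_zero, Finsupp.zero_apply, ite_self]
  | add f g hf hg =>
    rw [map_add, MonoidAlgebra.coeff_add, MonoidAlgebra.coeff_add, Finsupp.add_apply, hf, hg,
      Finsupp.add_apply]
    split_ifs
    · rfl
    · rw [add_zero]
  | single v r =>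
    have e : (MonoidAlgebra.single v r : U k) = r • MonoidAlgebra.single v 1 := by
      rw [MonoidAlgebra.smul_single, smul_eq_mul, mul_one]
    rw [e, map_smul, proj_single, MonoidAlgebra.coeff_smul_apply, MonoidAlgebra.coeff_smul_apply,
      MonoidAlgebra.coeff_single, Finsupp.single_apply]
    by_cases hv : v.length = n
    · rw [if_pos hv, MonoidAlgebra.coeff_single, Finsupp.single_apply]
      by_cases hvw : v = w
      · subst hvw
        rw [if_pos rfl, if_pos hv]
      · rw [if_neg hvw, smul_zero, ite_self]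
    · rw [if_neg hv, MonoidAlgebra.coeff_zero, Finsupp.zero_apply, smul_zero]
      by_cases hvw : v = w
      · subst hvw
        rw [if_neg hv]
      · rw [if_neg hvw, smul_zero, ite_self]

theorem proj_mem_deg (n : ℕ) (t : U k) : proj n t ∈ deg k (Fin 2) n := by
  rw [deg, MonoidAlgebra.mem_supported']
  intro w hw
  rw [coeff_proj]
  exact if_neg hw

theorem sum_proj {a b : ℕ} {t : U k} (ht : t ∈ MonoidAlgebra.supported k k (rg a b)) :
    ∑ n ∈ Finset.Icc a b, proj n t = t := by
  apply MonoidAlgebra.coeff_injective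
  ext w
  rw [MonoidAlgebra.coeff_sum, Finsupp.finsetSum_apply]
  simp only [coeff_proj]
  rw [Finset.sum_ite_eq]
  split_ifs with h
  · rfl
  · rw [MonoidAlgebra.mem_supported'] at ht
    exact (ht w fun h' => h (Finset.mem_Icc.mpr h')).symm

variable (k) in
/-- the elements in which all words have length at least `n` -/
def Tf (n : ℕ) : Submodule k (U k) := MonoidAlgebra.supported k k {w | n ≤ w.length}

theorem proj_Tf {n j : ℕ} (hj : j < n) {t : U k} (ht : t ∈ Tf k n) : proj j t = 0 := by
  apply MonoidAlgebra.coeff_injective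
  ext w
  rw [coeff_proj, MonoidAlgebra.coeff_zero, Finsupp.zero_apply]
  split_ifs with h
  · rw [Tf, MonoidAlgebra.mem_supported'] at ht
    exact ht w fun h' => by
      have h'' : n ≤ w.length := h'
      omega
  · rfl

theorem mul_mem_Tf {m n : ℕ} {s t : U k} (hs : s ∈ Tf k m) (ht : t ∈ Tf k n) :
    s * t ∈ Tf k (m + n) := by
  refine supp_mul ?_ hs ht
  intro u hu v hv
  have hu' : m ≤ u.length := hu
  have hv' : n ≤ v.length := hv
  change m + n ≤ (u * v).length
  rw [FreeMonoid.length_mul]
  omega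

theorem Tf_zero (t : U k) : t ∈ Tf k 0 := by
  rw [Tf, MonoidAlgebra.mem_supported']
  exact fun w hw => absurd (Nat.zero_le _) hw

theorem Tf_anti {m n : ℕ} (h : m ≤ n) : Tf k n ≤ Tf k m :=
  MonoidAlgebra.supported_mono fun w (hw : n ≤ w.length) => show m ≤ w.length from h.trans hw

theorem ow_of_mem (i : Fin 2) : (ow (FreeMonoid.of i) : U k) ∈ Tf k 1 := by
  rw [Tf, MonoidAlgebra.supported_eq_span_single]
  exact Submodule.subset_span ⟨FreeMonoid.of i, (FreeMonoid.length_of i).ge, rfl⟩

theorem sub_const_mem (t : U k) : t - algebraMap k (U k) (t.coeff 1) ∈ Tf k 1 := by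
  rw [Tf, MonoidAlgebra.mem_supported']
  intro w hw
  have hw1 : w = 1 := by
    have : ¬ 1 ≤ w.length := hw
    exact FreeMonoid.length_eq_zero.mp (by omega)
  subst hw1
  rw [Algebra.algebraMap_eq_smul_one, MonoidAlgebra.coeff_sub, Finsupp.sub_apply,
    MonoidAlgebra.coeff_smul_apply, MonoidAlgebra.coeff_one_one, smul_eq_mul, mul_one, sub_self]

theorem exists_deg_le (t : U k) : ∃ D, t ∈ MonoidAlgebra.supported k k (rg 0 D) :=
  ⟨t.coeff.support.sup FreeMonoid.length, fun _ hw =>
    ⟨Nat.zero_le _, Finset.le_sup (f := FreeMonoid.length) hw⟩⟩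

theorem exists_deg {t : U k} (ht : t ∈ Tf k 1) :
    ∃ D, t ∈ MonoidAlgebra.supported k k (rg 1 D) :=
  ⟨t.coeff.support.sup FreeMonoid.length, fun _ hw =>
    ⟨ht hw, Finset.le_sup (f := FreeMonoid.length) hw⟩⟩

instance [Countable k] : Countable (U k) :=
  have : Countable X := inferInstanceAs (Countable (List (Fin 2)))
  MonoidAlgebra.coeff_injective.countable

/-! ### the two-sided ideal -/

section Rel

variable {S : Set (U k)}

theorem mul_mem_rel_left (a : U k) {t : U k} (ht : t ∈ rel S) : a * t ∈ rel S := by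
  refine Submodule.span_induction (p := fun t _ => a * t ∈ rel S) ?_ ?_ ?_ ?_ ht
  · rintro _ ⟨u, v, f, hf, rfl⟩
    induction a using MonoidAlgebra.induction_linear with
    | zero => rw [zero_mul]; exact zero_mem _
    | add f g hf hg => rw [add_mul]; exact add_mem hf hg
    | single w r =>
      have e : (MonoidAlgebra.single w r : U k) *
          (MonoidAlgebra.single u 1 * f * MonoidAlgebra.single v 1) =
          r • (MonoidAlgebra.single (w * u) 1 * f * MonoidAlgebra.single v 1) := by
        rw [← mul_assoc, ← mul_assoc, MonoidAlgebra.single_mul_single, mul_one,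
          ← smul_mul_assoc, ← smul_mul_assoc, MonoidAlgebra.smul_single, smul_eq_mul, mul_one]
      rw [e]
      exact Submodule.smul_mem _ _ (Submodule.subset_span ⟨w * u, v, f, hf, rfl⟩)
  · rw [mul_zero]; exact zero_mem _
  · intro x y _ _ hx hy
    rw [mul_add]; exact add_mem hx hy
  · intro c x _ hx
    rw [mul_smul_comm]; exact Submodule.smul_mem _ _ hx

theorem mul_mem_rel_right (a : U k) {t : U k} (ht : t ∈ rel S) : t * a ∈ rel S := by
  refine Submodule.span_induction (p := fun t _ => t * a ∈ rel S) ?_ ?_ ?_ ?_ ht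
  · rintro _ ⟨u, v, f, hf, rfl⟩
    induction a using MonoidAlgebra.induction_linear with
    | zero => rw [mul_zero]; exact zero_mem _
    | add f g hf hg => rw [mul_add]; exact add_mem hf hg
    | single w r =>
      have e : (MonoidAlgebra.single u 1 * f * MonoidAlgebra.single v 1 : U k) *
          MonoidAlgebra.single w r =
          r • (MonoidAlgebra.single u 1 * f * MonoidAlgebra.single (v * w) 1) := by
        rw [mul_assoc, MonoidAlgebra.single_mul_single, one_mul, ← mul_smul_comm,
          MonoidAlgebra.smul_single, smul_eq_mul, mul_one]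
      rw [e]
      exact Submodule.smul_mem _ _ (Submodule.subset_span ⟨u, v * w, f, hf, rfl⟩)
  · rw [zero_mul]; exact zero_mem _
  · intro x y _ _ hx hy
    rw [add_mul]; exact add_mem hx hy
  · intro c x _ hx
    rw [smul_mul_assoc]; exact Submodule.smul_mem _ _ hx

theorem subset_rel {f : U k} (hf : f ∈ S) : f ∈ rel S := by
  refine Submodule.subset_span ⟨1, 1, f, hf, ?_⟩
  rw [← MonoidAlgebra.one_def, one_mul, mul_one]

variable (S) in
/-- the two-sided ideal generated by `S` -/
def relId : Ideal (U k) := { rel S with smul_mem' := fun a _ ht => mul_mem_rel_left a ht }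

instance : (relId S).IsTwoSided := ⟨fun b ha => mul_mem_rel_right b ha⟩

end Rel

/-! ### the relations -/

/-- two generators, at most one relation in each degree `≥ 8`: infinite dimension -/
theorem not_finite_of_late (h : ℕ → U k) (hh : ∀ n, h n ∈ deg k (Fin 2) n) :
    ¬ Module.Finite k (U k ⧸ rel (⋃ i, ((if i < 8 then ∅ else {h i} : Finset (U k)) :
      Set (U k)))) := by
  classical
  have h0 : 0 < (3 / 4 : ℝ) := by norm_num
  have h1 : (3 / 4 : ℝ) < 1 := by norm_num
  have hg : HasSum (fun n : ℕ => (3 / 4 : ℝ) ^ 8 * (3 / 4) ^ n)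
      ((3 / 4 : ℝ) ^ 8 * (1 - 3 / 4)⁻¹) :=
    (hasSum_geometric_of_lt_one h0.le h1).mul_left _
  have e8 : (fun n : ℕ => (((if n + 8 < 8 then ∅ else {h (n + 8)} : Finset (U k)).card : ℝ)) *
      (3 / 4 : ℝ) ^ (n + 8)) = fun n : ℕ => (3 / 4 : ℝ) ^ 8 * (3 / 4) ^ n := by
    funext n
    rw [if_neg (by omega), Finset.card_singleton, Nat.cast_one, one_mul, pow_add, mul_comm]
  have hs : Summable fun n : ℕ => (((if n < 8 then ∅ else {h n} : Finset (U k)).card : ℝ)) *
      (3 / 4 : ℝ) ^ n := by
    rw [← summable_nat_add_iff 8, e8]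
    exact hg.summable
  refine golod_shafarevich (k := k) (α := Fin 2)
    (R := fun i => (if i < 8 then ∅ else {h i} : Finset (U k))) (if_pos (by norm_num)) ?_ h0 hs ?_
  · intro n f hf
    by_cases hn : n < 8
    · rw [if_pos hn] at hf
      exact absurd hf (Finset.notMem_empty f)
    · rw [if_neg hn, Finset.mem_singleton] at hf
      rw [hf]
      exact hh n
  · rw [← hs.sum_add_tsum_nat_add 8, e8, hg.tsum_eq, Finset.sum_eq_zero fun n hn => by
      rw [if_pos (Finset.mem_range.mp hn), Finset.card_empty, Nat.cast_zero, zero_mul],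
      Fintype.card_fin]
    norm_num

/-- **the relations of Golod** -/
theorem exists_relations [Countable k] : ∃ h : ℕ → U k, (∀ n, h n ∈ deg k (Fin 2) n) ∧
    ∀ t ∈ Tf k 1, ∃ n, t ^ n ∈ rel (⋃ i, ((if i < 8 then ∅ else {h i} : Finset (U k)) :
      Set (U k))) := by
  obtain ⟨f, hf⟩ := exists_surjective_nat (Tf k 1)
  choose D hD using fun i => exists_deg (f i).2
  obtain ⟨N, N0, NS⟩ : ∃ N : ℕ → ℕ, N 0 = 8 ∧ ∀ i, N (i + 1) = N i * D i + N i + 1 :=
    ⟨fun i => Nat.rec (motive := fun _ => ℕ) 8 (fun i Ni => Ni * D i + Ni + 1) i, rfl,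
      fun _ => rfl⟩
  have hmono : StrictMono N := strictMono_nat_of_lt_succ fun i => by
    rw [NS]
    exact Nat.lt_succ_of_le (Nat.le_add_left _ _)
  have h2 : ∀ i, 8 ≤ N i := fun i => N0 ▸ hmono.monotone (Nat.zero_le i)
  let κ : ℕ → ℕ := fun n => Nat.findGreatest (fun i : ℕ => N i ≤ n) n
  have hκ : ∀ i n, N i ≤ n → n < N (i + 1) → κ n = i := by
    intro i n h1 h3
    rw [Nat.findGreatest_eq_iff]
    refine ⟨(hmono.le_apply).trans h1, fun _ => h1, fun m hm _ hmn => ?_⟩
    exact absurd ((hmono.monotone (Nat.succ_le_of_lt hm)).trans hmn) (not_le.mpr h3)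
  refine ⟨fun n => proj n ((f (κ n) : U k) ^ N (κ n)), fun n => proj_mem_deg n _,
    fun t ht => ?_⟩
  obtain ⟨i, hi⟩ := hf ⟨t, ht⟩
  have hi' : (f i : U k) = t := by rw [hi]
  refine ⟨N i, ?_⟩
  rw [← hi', ← sum_proj (pow_mem_rg (hD i) (N i))]
  refine sum_mem fun n hn => ?_
  rw [Finset.mem_Icc] at hn
  have h3 : κ n = i := hκ i n hn.1 (by
    rw [NS]
    exact Nat.lt_succ_of_le (hn.2.trans (Nat.le_add_right _ _)))
  refine subset_rel (Set.mem_iUnion.mpr ⟨n, ?_⟩)
  rw [if_neg (not_lt.mpr ((h2 i).trans hn.1))]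
  change proj n ((f i : U k) ^ N i) ∈
    (({proj n ((f (κ n) : U k) ^ N (κ n))} : Finset (U k)) : Set (U k))
  rw [h3]
  exact Finset.mem_coe.mpr (Finset.mem_singleton_self _)

/-! ### the algebra -/

theorem adjoin_eq_top (I : Ideal (U k)) [I.IsTwoSided] : Algebra.adjoin k
    (Set.range fun i : Fin 2 => Ideal.Quotient.mkₐ k I (ow (FreeMonoid.of i))) = ⊤ := by
  set S := Algebra.adjoin k
    (Set.range fun i : Fin 2 => Ideal.Quotient.mkₐ k I (ow (FreeMonoid.of i)))
  have hw : ∀ w : X, Ideal.Quotient.mkₐ k I (ow w) ∈ S := by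
    intro w
    induction w using FreeMonoid.inductionOn' with
    | one =>
      rw [show (ow (1 : X) : U k) = 1 from rfl, map_one]
      exact one_mem _
    | of_mul x w ih =>
      have e : (ow (FreeMonoid.of x * w) : U k) = ow (FreeMonoid.of x) * ow w := by
        rw [MonoidAlgebra.single_mul_single, one_mul]
      rw [e, map_mul]
      exact mul_mem (Algebra.subset_adjoin ⟨x, rfl⟩) ih
  rw [eq_top_iff]
  rintro a -
  obtain ⟨t, rfl⟩ := Ideal.Quotient.mkₐ_surjective k I a
  induction t using MonoidAlgebra.induction_linear with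
  | zero => rw [map_zero]; exact zero_mem _
  | add f g hf hg => rw [map_add]; exact add_mem hf hg
  | single w r =>
    have e : (MonoidAlgebra.single w r : U k) = r • ow w := by
      rw [MonoidAlgebra.smul_single, smul_eq_mul, mul_one]
    rw [e, map_smul]
    exact S.smul_mem (hw w) r

/-- **Golod 1964, with two generators**: an algebra of infinite dimension with two generators and a
filtration by two-sided ideals of finite codimension with intersection zero, in which all elements
of `F 1` are nilpotent. -/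
theorem exists_filtered (k : Type) [Field k] [Countable k] :
    ∃ (A : Type) (_ : Ring A) (_ : Algebra k A) (x : Fin 2 → A) (F : ℕ → Ideal A)
      (_ : ∀ n, (F n).IsTwoSided), Algebra.adjoin k (Set.range x) = ⊤ ∧
      Antitone F ∧ F 0 = ⊤ ∧ (∀ m n, ∀ a ∈ F m, ∀ b ∈ F n, a * b ∈ F (m + n)) ∧
      (∀ i, x i ∈ F 1) ∧ (∀ a : A, ∃ c : k, a - algebraMap k A c ∈ F 1) ∧
      (∀ n, Module.Finite k (A ⧸ F n)) ∧ (∀ a : A, (∀ n, a ∈ F n) → a = 0) ∧
      (∀ a ∈ F 1, IsNilpotent a) ∧ ¬ Module.Finite k A := by
  classical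
  obtain ⟨h, hh, hnil⟩ := exists_relations (k := k)
  set R : ℕ → Finset (U k) := fun i => if i < 8 then ∅ else {h i} with hR
  have hRd : ∀ n, ∀ f ∈ R n, f ∈ deg k (Fin 2) n := by
    intro n f hf
    rw [hR] at hf
    by_cases hn : n < 8
    · simp only [if_pos hn] at hf
      exact absurd hf (Finset.notMem_empty f)
    · simp only [if_neg hn, Finset.mem_singleton] at hf
      rw [hf]
      exact hh n
  set S : Set (U k) := ⋃ i, (R i : Set (U k)) with hS
  have hnf : ¬ Module.Finite k (U k ⧸ rel S) := not_finite_of_late h hh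
  let q : U k →ₐ[k] U k ⧸ relId S := Ideal.Quotient.mkₐ k (relId S)
  have hq : Function.Surjective q := Ideal.Quotient.mkₐ_surjective k (relId S)
  have hq0 : ∀ t, q t = 0 ↔ t ∈ rel S := fun t => Ideal.Quotient.eq_zero_iff_mem
  let F : ℕ → Ideal (U k ⧸ relId S) := fun n =>
    { carrier := {a | ∃ t ∈ Tf k n, q t = a}
      zero_mem' := ⟨0, zero_mem _, map_zero q⟩
      add_mem' := by
        rintro _ _ ⟨s, hs, rfl⟩ ⟨t, ht, rfl⟩
        exact ⟨s + t, add_mem hs ht, map_add q s t⟩
      smul_mem' := by
        rintro a _ ⟨t, ht, rfl⟩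
        obtain ⟨s, rfl⟩ := hq a
        refine ⟨s * t, ?_, map_mul q s t⟩
        have h1 := mul_mem_Tf (Tf_zero s) ht
        rwa [zero_add] at h1 }
  have hF2 : ∀ n, (F n).IsTwoSided := fun n => ⟨by
    rintro _ b ⟨t, ht, rfl⟩
    obtain ⟨s, rfl⟩ := hq b
    exact ⟨t * s, mul_mem_Tf ht (Tf_zero s), map_mul q t s⟩⟩
  refine ⟨U k ⧸ relId S, inferInstance, inferInstance, fun i => q (ow (FreeMonoid.of i)), F, hF2,
    adjoin_eq_top _, ?_, ?_, ?_, ?_, ?_, ?_, ?_, ?_, ?_⟩
  · rintro m n hmn _ ⟨t, ht, rfl⟩
    exact ⟨t, Tf_anti hmn ht, rfl⟩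
  · rw [eq_top_iff]
    rintro a -
    obtain ⟨t, rfl⟩ := hq a
    exact ⟨t, Tf_zero t, rfl⟩
  · rintro m n _ ⟨s, hs, rfl⟩ _ ⟨t, ht, rfl⟩
    exact ⟨s * t, mul_mem_Tf hs ht, map_mul q s t⟩
  · intro i
    exact ⟨ow (FreeMonoid.of i), ow_of_mem i, rfl⟩
  · intro a
    obtain ⟨t, rfl⟩ := hq a
    exact ⟨t.coeff 1, t - algebraMap k (U k) (t.coeff 1), sub_const_mem t, by
      rw [map_sub, AlgHom.commutes]⟩
  · intro n
    -- the words of length `< n` span the quotient
    let g : U k →ₗ[k] (U k ⧸ relId S) ⧸ F n :=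
      (Ideal.Quotient.mkₐ k (F n)).toLinearMap ∘ₗ q.toLinearMap
    have hg : Function.Surjective g :=
      (Ideal.Quotient.mkₐ_surjective k (F n)).comp hq
    have hfin : {w : X | w.length < n}.Finite := by
      have h1 : {w : X | w.length < n} = ⋃ j ∈ Finset.range n, {w : X | w.length = j} := by
        ext w
        simp
      rw [h1]
      refine Set.Finite.biUnion (Finset.finite_toSet _) fun j _ => ?_
      have : Fintype {w : X | w.length = j} :=
        inferInstanceAs (Fintype (List.Vector (Fin 2) j))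
      exact Set.toFinite _
    refine ⟨⟨(hfin.image fun w => g (ow w)).toFinset, ?_⟩⟩
    rw [Set.Finite.coe_toFinset, eq_top_iff]
    rintro a -
    obtain ⟨t, rfl⟩ := hg a
    induction t using MonoidAlgebra.induction_linear with
    | zero => rw [map_zero]; exact zero_mem _
    | add f g hf hg => rw [map_add]; exact add_mem hf hg
    | single w r =>
      have e : (MonoidAlgebra.single w r : U k) = r • ow w := by
        rw [MonoidAlgebra.smul_single, smul_eq_mul, mul_one]
      rw [e, map_smul]
      refine Submodule.smul_mem _ _ ?_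
      by_cases hw : w.length < n
      · exact Submodule.subset_span ⟨w, hw, rfl⟩
      · have h1 : g (ow w) = 0 := by
          refine Ideal.Quotient.eq_zero_iff_mem.mpr ⟨ow w, ?_, rfl⟩
          rw [Tf, MonoidAlgebra.supported_eq_span_single]
          exact Submodule.subset_span ⟨w, not_lt.mp hw, rfl⟩
        rw [h1]
        exact zero_mem _
  · intro a ha
    obtain ⟨t, rfl⟩ := hq a
    obtain ⟨D, hD⟩ := exists_deg_le t
    obtain ⟨s, hs, hst⟩ := ha (D + 1)
    have h1 : t - s ∈ rel S := by
      rw [← hq0, map_sub, hst, sub_self]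
    rw [hq0, ← sum_proj hD]
    refine sum_mem fun j hj => ?_
    have h2 : proj j t = proj j (t - s) := by
      rw [map_sub, proj_Tf (Nat.lt_succ_of_le (Finset.mem_Icc.mp hj).2) hs, sub_zero]
    rw [h2]
    have h3 := proj_mem hRd h1 j
    rw [J_eq hRd] at h3
    exact h3.1
  · rintro _ ⟨t, ht, rfl⟩
    obtain ⟨n, hn⟩ := hnil t ht
    refine ⟨n, ?_⟩
    rw [← map_pow]
    exact (hq0 _).mpr hn
  · intro hfin
    exact hnf hfin

/-- **Kurosh's problem, with two generators** -/
theorem kurosh_two (k : Type) [Field k] [Countable k] :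
    ∃ (A : Type) (_ : Ring A) (_ : Algebra k A) (x y : A),
      Algebra.adjoin k {x, y} = ⊤ ∧ (∀ a : A, IsAlgebraic k a) ∧ ¬ Module.Finite k A := by
  obtain ⟨A, _, _, x, F, _, h1, -, -, -, -, h3, -, -, h4, h5⟩ := exists_filtered k
  refine ⟨A, inferInstance, inferInstance, x 0, x 1, ?_, fun a => ?_, h5⟩
  · rw [← h1]
    congr 1
    ext a
    simp [Fin.exists_fin_two, eq_comm]
  · obtain ⟨c, hc⟩ := h3 a
    obtain ⟨n, hn⟩ := h4 _ hc
    refine ⟨(Polynomial.X - Polynomial.C c) ^ n, pow_ne_zero _ (Polynomial.X_sub_C_ne_zero c), ?_⟩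
    rw [map_pow, map_sub, Polynomial.aeval_X, Polynomial.aeval_C, hn]

/-! ### the group -/

/-- **Golod 1964: for every prime `p` there is an infinite, residually finite group with two
generators in which the order of every element is a power of `p`.** -/
theorem golod_two (p : ℕ) [hp : Fact p.Prime] :
    ∃ (G : Type) (_ : Group G) (a b : G), Subgroup.closure {a, b} = ⊤ ∧
      IsPGroup p G ∧ Infinite G ∧ Group.ResiduallyFinite G := by
  obtain ⟨A, _, _, x, F, hF, hgen, -, -, -, hx, -, hfq, hsep, hnil, hinf⟩ :=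
    exists_filtered (ZMod p)
  have hnt : Nontrivial A := by
    by_contra h
    rw [not_nontrivial_iff_subsingleton] at h
    exact hinf inferInstance
  have hch : CharP A p := charP_of_injective_algebraMap (algebraMap (ZMod p) A).injective p
  have hu : ∀ i, IsUnit (1 + x i) := fun i => (hnil _ (hx i)).isUnit_one_add
  let g' : Fin 2 → Aˣ := fun i => (hu i).unit
  have hg' : ∀ i, (g' i : A) = 1 + x i := fun i => (hu i).unit_spec
  let H : Subgroup Aˣ := Subgroup.closure (Set.range g')
  have hH : ∀ u ∈ H, (u : A) - 1 ∈ F 1 := by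
    intro u hu
    refine Subgroup.closure_induction (p := fun (u : Aˣ) _ => (u : A) - 1 ∈ F 1)
      ?_ ?_ ?_ ?_ hu
    · rintro _ ⟨i, rfl⟩
      rw [hg', add_sub_cancel_left]
      exact hx i
    · rw [Units.val_one, sub_self]
      exact zero_mem _
    · intro a b _ _ ha hb
      have e : ((a * b : Aˣ) : A) - 1 = (a : A) * ((b : A) - 1) + ((a : A) - 1) := by
        rw [Units.val_mul, mul_sub, mul_one]
        abel
      rw [e]
      exact add_mem ((F 1).mul_mem_left _ hb) ha
    · intro a _ ha
      have e : ((a⁻¹ : Aˣ) : A) - 1 = -(((a⁻¹ : Aˣ) : A) * ((a : A) - 1)) := by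
        rw [mul_sub, mul_one, Units.inv_mul, neg_sub]
      rw [e]
      exact neg_mem ((F 1).mul_mem_left _ ha)
  refine ⟨H, inferInstance, ⟨g' 0, Subgroup.subset_closure ⟨0, rfl⟩⟩,
    ⟨g' 1, Subgroup.subset_closure ⟨1, rfl⟩⟩, ?_, ?_, ?_, ?_⟩
  · have h1 := Subgroup.closure_closure_coe_preimage (k := Set.range g')
    have h2 : ({⟨g' 0, Subgroup.subset_closure ⟨0, rfl⟩⟩,
        ⟨g' 1, Subgroup.subset_closure ⟨1, rfl⟩⟩} : Set H) =
        ((↑) : H → Aˣ) ⁻¹' Set.range g' := by
      ext u
      rw [Set.mem_insert_iff, Set.mem_singleton_iff, Set.mem_preimage, Set.mem_range,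
        Fin.exists_fin_two, Subtype.ext_iff, Subtype.ext_iff]
      exact or_congr eq_comm eq_comm
    rw [h2]
    exact h1
  · rintro ⟨u, hu⟩
    obtain ⟨n, hn⟩ := hnil _ (hH u hu)
    refine ⟨n, ?_⟩
    apply Subtype.ext
    apply Units.ext
    change (u : A) ^ p ^ n = 1
    have e : (u : A) = 1 + ((u : A) - 1) := by abel
    rw [e, add_pow_char_pow_of_commute p n (Commute.one_left ((u : A) - 1)), one_pow,
      pow_eq_zero_of_le (Nat.lt_pow_self hp.out.one_lt).le hn, add_zero]
  · by_contra hfin
    rw [not_infinite_iff_finite] at hfin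
    apply hinf
    let P : Submonoid A := H.toSubmonoid.map (Units.coeHom A)
    have hPf : (P : Set A).Finite := by
      have h1 : (H : Set Aˣ).Finite := Set.toFinite _
      exact h1.image _
    have h1 : Algebra.adjoin (ZMod p) (P : Set A) = ⊤ := by
      rw [eq_top_iff, ← hgen, Algebra.adjoin_le_iff]
      rintro _ ⟨i, rfl⟩
      have e : x i = (g' i : A) - 1 := by rw [hg', add_sub_cancel_left]
      rw [e]
      refine sub_mem (Algebra.subset_adjoin ⟨g' i, Subgroup.subset_closure ⟨i, rfl⟩, rfl⟩) ?_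
      exact one_mem _
    have h2 := Algebra.adjoin_eq_span (ZMod p) (P : Set A)
    rw [h1, Submonoid.closure_eq, Algebra.top_toSubmodule] at h2
    exact ⟨h2 ▸ Submodule.fg_span hPf⟩
  · refine Group.residuallyFinite_of_forall_exists_finite_monoidHom fun g hg => ?_
    have h1 : ∃ n, ((g : Aˣ) : A) - 1 ∉ F n := by
      by_contra! hcon
      apply hg
      apply Subtype.ext
      apply Units.ext
      exact sub_eq_zero.mp (hsep _ hcon)
    obtain ⟨n, hn⟩ := h1
    have hfn : Finite (A ⧸ F n) :=
      have := hfq n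
      Module.finite_of_finite (ZMod p)
    refine ⟨(A ⧸ F n)ˣ, inferInstance, inferInstance,
      (Units.map (Ideal.Quotient.mk (F n)).toMonoidHom).comp H.subtype, fun h2 => ?_⟩
    apply hn
    rw [← Ideal.Quotient.eq_zero_iff_mem, map_sub, map_one, sub_eq_zero]
    exact congrArg Units.val h2

end Fermat.Agent.Cor.Golod.TwoGen
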